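/-
Project MW (S17): THE SEAMS OF THE LOCAL ANALYTIC CORE (architect helper7; blueprint v2).

ONE polynomial identity, used at every place of every number field; no analysis, no models, no limits.
Everything is stated for the COMPLETE systems `y = ` a basis of `L(a∞)`, `a ≥ a₀`, only (general
linear systems are never needed downstream: base conditions are handled by the Weil machine).

Nodes (each a `def mw_SeamXX : Prop`):

* `mw_SeamGM`    [GM]    local Gauss–Mahler for products of linear forms (Mathlib only);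
* `mw_SeamNSS`   [NSS]   multi-projective Nullstellensatz (Mathlib only);
* `mw_SeamHOMV`  [HOMV]  the local height engine: multi-homogeneous polynomials of the same
                          multidegree without common zero on a multi-projective variety have
                          `max_i |ρ_i(v)|_w ≍ ∏_j ‖v_j‖_w^{deg_j}` uniformly (⟸ NSS; Mathlib only);
* `mw_SeamVAR`   [VAR]   the common zeros of the bihomogeneous relations between `x` and `y` are the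
                          points `(x(P), y(P))`;
* `mw_SeamSYL`   [SYL]   the Sylvester resultant `R(c,u)` of the systems `y`, `x` with its two
                          factorisations (B1), (B2);
* `mw_SeamRESa`  [RESa]  `‖R(c,·)‖_w ≍ ‖c‖_w^k`                                   (⟸ HOMV);
* `mw_SeamRESb`  [RESb]  the quotient `R″_j = Y_j^k R(c, λ_X(U)) / ⟨c,Y⟩` on the curve: identity in
                          `F[c,U]` + two-sided estimate of `‖R″_j(c,·,x(P),y(P))‖_w` at EVERY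
                          `(c, P)`                                      (⟸ HOMV + VAR + (B2));
* `mw_SeamKLmu`  [KLμ]   THE MASTER LOCAL THEOREM (with jets): for a section `G_c` of `y` and ANY
                          point `P`, `μ := ord_P G_c`, `π` a uniformiser at `P`:
                          `log (|lc_μ(G_c)(P)|_w / (‖c‖_w ‖y(P)‖_w))
                              = μ · log κ_w(P) + ∑_{z ≠ P} Z_c(z) · log δ_w(P,z) + O(bound(w))`
                                                       (⟸ GM + SYL + RESa + RESb).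
  `μ = 0` is helper27's `[KL]` for complete systems; `μ = 1` gives `[GAUSS]`; the upper half for
  all `μ` gives the confluent Vandermonde inequality.
Prefix `mw_`.
-/
import Fermat.Agent.MW.SeamsHeight

set_option autoImplicit false

noncomputable section

namespace Fermat.Agent.MW

open AlgebraicCurve ModularCurve MvPolynomial
open scoped Classical

/-! ### polynomial vocabulary -/

/-- the linear form `⟨U, v⟩ = ∑ v_b U_b` -/
def mw_lin {σ : Type} [Fintype σ] (v : σ → mw_K) : MvPolynomial σ mw_K := ∑ b, C (v b) * X b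

/-- the sup norm `‖p‖_w` of the coefficient vector of a polynomial -/
def mw_pnorm (K' : IntermediateField ℚ mw_K) (w : AbsoluteValue ↥K' ℝ) {σ : Type}
    (p : MvPolynomial σ mw_K) : ℝ :=
  ⨆ m : σ →₀ ℕ, mw_wabs K' w (p.coeff m)

/-- `R(c, ·)`: substitute constants for the first block of variables -/
def mw_subL {α β : Type} (c : α → mw_K) :
    MvPolynomial (α ⊕ β) mw_K →ₐ[mw_K] MvPolynomial β mw_K :=
  aeval (Sum.elim (fun j => C (c j)) (fun b => X b))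

/-- `R(·, u)`: substitute constants for the second block of variables -/
def mw_subR {α β : Type} (u : β → mw_K) :
    MvPolynomial (α ⊕ β) mw_K →ₐ[mw_K] MvPolynomial α mw_K :=
  aeval (Sum.elim (fun j => X j) (fun b => C (u b)))

/-- `p` is bihomogeneous of bidegree `(d, e)` in the two blocks of variables -/
def mw_IsBihom {α β : Type} (p : MvPolynomial (α ⊕ β) mw_K) (d e : ℕ) : Prop :=
  p.IsWeightedHomogeneous (Sum.elim (fun _ => 1) (fun _ => 0) : α ⊕ β → ℕ) d ∧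
    p.IsWeightedHomogeneous (Sum.elim (fun _ => 0) (fun _ => 1) : α ⊕ β → ℕ) e

/-- `p` is multi-homogeneous of multidegree `deg` for the blocks `b : σ → Fin t` of variables -/
def mw_IsMultiHom {σ : Type} {t : ℕ} (b : σ → Fin t) (p : MvPolynomial σ mw_K)
    (deg : Fin t → ℕ) : Prop :=
  ∀ j : Fin t, p.IsWeightedHomogeneous (fun i => if b i = j then 1 else 0 : σ → ℕ) (deg j)

/-- the sup norm of the `j`-th block of the vector `v` -/
def mw_blockNorm (K' : IntermediateField ℚ mw_K) (w : AbsoluteValue ↥K' ℝ) {σ : Type} [Fintype σ]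
    {t : ℕ} (b : σ → Fin t) (j : Fin t) (v : σ → mw_K) : ℝ :=
  mw_wnorm K' w (fun i => if b i = j then v i else 0)

/-! ### [GM] -/

/-- **[GM] local Gauss–Mahler** for products of at most `n` linear forms in `m` variables: the sup
norm of the product is the product of the sup norms, exactly at the finite places and up to a
constant `C(n, m)` at the infinite ones. -/
def mw_SeamGM : Prop :=
  ∀ n m : ℕ, ∃ γ : ℝ, 0 ≤ γ ∧
    ∀ (σ : Type) [Fintype σ], Fintype.card σ = m →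
    ∀ (K' : IntermediateField ℚ mw_K) [NumberField ↥K'] (w : AbsoluteValue ↥K' ℝ) (bnd : ℝ),
      mw_IsBound K' w γ (fun _ => 0) bnd →
      ∀ (ι : Type) (S : Finset ι) (e : ι → ℕ) (v : ι → σ → mw_K), ∑ i ∈ S, e i ≤ n →
        (∀ i ∈ S, ∀ b, v i b ∈ K') → (∀ i ∈ S, v i ≠ 0) →
        |Real.log (mw_pnorm K' w (∏ i ∈ S, mw_lin (v i) ^ e i))
          - ∑ i ∈ S, (e i : ℝ) * Real.log (mw_wnorm K' w (v i))| ≤ bnd

/-! ### [NSS], [HOMV] -/

/-- **[NSS] multi-projective Nullstellensatz** (Mathlib only): variables `σ` in blocks `b : σ → Fin t`;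
if the polynomials `Φ` have no common zero, with every block nonzero, on the zero set of the ideal `I`,
then some power of every product of one variable per block lies in `(Φ) + I`. -/
def mw_SeamNSS : Prop :=
  ∀ (σ : Type) [Fintype σ] (t : ℕ) (b : σ → Fin t) (I : Ideal (MvPolynomial σ mw_K))
    (Φ : Set (MvPolynomial σ mw_K)),
    (∀ v : σ → mw_K, (∀ j : Fin t, ∃ i, b i = j ∧ v i ≠ 0) → (∀ p ∈ I, eval v p = 0) →
      ∃ φ ∈ Φ, eval v φ ≠ 0) →
    ∃ e : ℕ, ∀ f : Fin t → σ, (∀ j, b (f j) = j) → (∏ j, X (f j)) ^ e ∈ Ideal.span Φ ⊔ I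

/-- **[HOMV] the local height engine** (Mathlib only).  `ρ_i` multi-homogeneous of the same
multidegree `deg`, without common zero (all blocks nonzero) on the zero set of the
multi-homogeneous ideal `I`.  Then `log max_i |ρ_i(v)|_w = ∑_j deg_j · log ‖v_j‖_w + O(bound(w))`
for all `v` in the zero set of `I` with coordinates in `K' ⊇ K₀`, uniformly in `K'`, `w`, `v`. -/
def mw_SeamHOMV : Prop :=
  ∀ (σ : Type) [Fintype σ] (t : ℕ) (b : σ → Fin t) (Gen : Set (MvPolynomial σ mw_K))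
    (ι : Type) [Fintype ι] (ρ : ι → MvPolynomial σ mw_K) (deg : Fin t → ℕ),
    (∀ p ∈ Gen, ∃ d : Fin t → ℕ, mw_IsMultiHom b p d) → (∀ i, mw_IsMultiHom b (ρ i) deg) →
    (∀ v : σ → mw_K, (∀ j : Fin t, ∃ i, b i = j ∧ v i ≠ 0) → (∀ p ∈ Gen, eval v p = 0) →
      ∃ i, eval v (ρ i) ≠ 0) →
    ∃ (γ : ℝ) (cp : ℕ → ℝ) (K₀ : IntermediateField ℚ mw_K), FiniteDimensional ℚ ↥K₀ ∧
      0 ≤ γ ∧ (∀ p, 0 ≤ cp p) ∧ {p | cp p ≠ 0}.Finite ∧
      ∀ (K' : IntermediateField ℚ mw_K) [NumberField ↥K'] (w : AbsoluteValue ↥K' ℝ) (bnd : ℝ),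
        K₀ ≤ K' → mw_IsBound K' w γ cp bnd →
        ∀ v : σ → mw_K, (∀ i, v i ∈ K') → (∀ j : Fin t, ∃ i, b i = j ∧ v i ≠ 0) →
          (∀ p ∈ Gen, eval v p = 0) →
          |Real.log (⨆ i, mw_wabs K' w (eval v (ρ i)))
            - ∑ j, (deg j : ℝ) * Real.log (mw_blockNorm K' w b j v)| ≤ bnd

variable (N : ℕ) [NeZero N]

/-- `y` is a basis of the complete linear system `L(a·∞)` -/
def mw_IsComplete (Pinf : mw_X N) (a : ℕ) {s : ℕ} (y : Fin (s + 1) → mw_F N) : Prop :=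
  LinearIndependent mw_K y ∧
    Submodule.span mw_K (Set.range y) = riemannRochSpace (Finsupp.single Pinf (a : ℤ))

/-! ### [VAR] -/

/-- **[VAR]** the bi-projective variety cut out by the bihomogeneous relations between the two
systems `x`, `y` consists of the points `(x(P), y(P))`. -/
def mw_SeamVAR : Prop :=
  ∀ {r : ℕ} (x : Fin (r + 1) → mw_F N), mw_IsRef N x → ∀ Pinf : mw_X N, mw_IsInf N Pinf →
  ∀ (a : ℕ) {s : ℕ} (y : Fin (s + 1) → mw_F N), mw_IsComplete N Pinf a y →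
  ∀ (X₀ : Fin (r + 1) → mw_K) (Y₀ : Fin (s + 1) → mw_K), X₀ ≠ 0 → Y₀ ≠ 0 →
    (∀ (p : MvPolynomial (Fin (r + 1) ⊕ Fin (s + 1)) mw_K) (d e : ℕ), mw_IsBihom p d e →
      aeval (Sum.elim x y) p = 0 → eval (Sum.elim X₀ Y₀) p = 0) →
    ∃ (P : mw_X N) (l₁ l₂ : mw_K), X₀ = l₁ • mw_vec x P ∧ Y₀ = l₂ • mw_vec y P

/-! ### [SYL] -/

/-- (B1): for every `c ≠ 0`, `R(c, U) = A₀ · ∏_z ⟨U, x(z)⟩^{Z_c(z)}` -/
def mw_IsResL {r s : ℕ} (x : Fin (r + 1) → mw_F N) (y : Fin (s + 1) → mw_F N)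
    (R : MvPolynomial (Fin (s + 1) ⊕ Fin (r + 1)) mw_K) : Prop :=
  ∀ c : Fin (s + 1) → mw_K, c ≠ 0 → ∃ A₀ : mw_K, A₀ ≠ 0 ∧
    mw_subL c R = C A₀ * ∏ᶠ z : mw_X N, mw_lin (mw_vec x z) ^ (mw_zeroMult y c z).toNat

/-- (B2): for every `u ≠ 0`, `R(C, u) = B₀ · ∏_z ⟨C, y(z)⟩^{Z_u(z)}` -/
def mw_IsResR {r s : ℕ} (x : Fin (r + 1) → mw_F N) (y : Fin (s + 1) → mw_F N)
    (R : MvPolynomial (Fin (s + 1) ⊕ Fin (r + 1)) mw_K) : Prop :=
  ∀ u : Fin (r + 1) → mw_K, u ≠ 0 → ∃ B₀ : mw_K, B₀ ≠ 0 ∧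
    mw_subR u R = C B₀ * ∏ᶠ z : mw_X N, mw_lin (mw_vec y z) ^ (mw_zeroMult x u z).toNat

/-- `R` is a resultant of the systems `y` (variables `c`, degree `k`) and `x` (variables `u`,
degree `a`) -/
def mw_IsRes {r s : ℕ} (x : Fin (r + 1) → mw_F N) (y : Fin (s + 1) → mw_F N)
    (R : MvPolynomial (Fin (s + 1) ⊕ Fin (r + 1)) mw_K) (k a : ℕ) : Prop :=
  mw_IsBihom R k a ∧ mw_IsResL N x y R ∧ mw_IsResR N x y R

/-- **[SYL]** the Sylvester resultant of the complete systems `y = L(a∞)` and `x = L(k∞)`: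
`R(c,u) = det (L(k∞+T) ⊕ L(a∞+T) → L((a+k)∞+T), (s₁,s₂) ↦ G_c s₁ + ℓ_u s₂)`, `deg T = g - 1`,
`l(T) = 0`. -/
def mw_SeamSYL : Prop :=
  ∀ {r : ℕ} (x : Fin (r + 1) → mw_F N), mw_IsRef N x → ∀ Pinf : mw_X N, mw_IsInf N Pinf →
  ∃ a₀ : ℕ, ∀ a : ℕ, a₀ ≤ a → ∀ {s : ℕ} (y : Fin (s + 1) → mw_F N), mw_IsComplete N Pinf a y →
    ∃ (R : MvPolynomial (Fin (s + 1) ⊕ Fin (r + 1)) mw_K) (k : ℕ), mw_IsRes N x y R k a

/-! ### [RESa] -/

/-- **[RESa]** `‖R(c,·)‖_w ≍ ‖c‖_w^k` (the `u`-coefficients of `R` have no common zero `c ≠ 0`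
by (B1); `[HOMV]` with one block). -/
def mw_SeamRESa : Prop :=
  ∀ {r : ℕ} (x : Fin (r + 1) → mw_F N), mw_IsRef N x → ∀ Pinf : mw_X N, mw_IsInf N Pinf →
  ∀ (a : ℕ) {s : ℕ} (y : Fin (s + 1) → mw_F N), mw_IsComplete N Pinf a y →
  ∀ (R : MvPolynomial (Fin (s + 1) ⊕ Fin (r + 1)) mw_K) (k : ℕ), mw_IsRes N x y R k a →
    ∃ (γ : ℝ) (cp : ℕ → ℝ) (K₀ : IntermediateField ℚ mw_K), FiniteDimensional ℚ ↥K₀ ∧
      0 ≤ γ ∧ (∀ p, 0 ≤ cp p) ∧ {p | cp p ≠ 0}.Finite ∧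
      ∀ (K' : IntermediateField ℚ mw_K) [NumberField ↥K'] (w : AbsoluteValue ↥K' ℝ) (bnd : ℝ),
        K₀ ≤ K' → mw_IsBound K' w γ cp bnd →
        ∀ cc : Fin (s + 1) → mw_K, cc ≠ 0 → (∀ j, cc j ∈ K') →
          |Real.log (mw_pnorm K' w (mw_subL cc R)) - (k : ℝ) * Real.log (mw_wnorm K' w cc)| ≤ bnd

/-! ### [RESb] -/

/-- the variables of the quotient `R″`: `c` (`s+1`), `U` (`(r+1)²`), `X` (`r+1`), `Y` (`s+1`) -/
abbrev mw_Var4 (r s : ℕ) : Type :=
  Fin (s + 1) ⊕ (Fin (r + 1) × Fin (r + 1)) ⊕ Fin (r + 1) ⊕ Fin (s + 1)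

/-- the block of a variable of `mw_Var4`: `c ↦ 0`, `U ↦ 1`, `X ↦ 2`, `Y ↦ 3` -/
def mw_block4 (r s : ℕ) : mw_Var4 r s → Fin 4 :=
  Sum.elim (fun _ => 0) (Sum.elim (fun _ => 1) (Sum.elim (fun _ => 2) (fun _ => 3)))

/-- the general hyperplane through the point with coordinates `v` (over any `mw_K`-algebra `A`):
`λ_v(U)_b = ∑_a v_a (U_{ab} - U_{ba})`, as linear forms in the variables `U_{ab}`; extra variables
`α` are carried along -/
def mw_through {A : Type} [CommRing A] {α : Type} {r : ℕ} (v : Fin (r + 1) → A) :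
    Fin (r + 1) → MvPolynomial (α ⊕ (Fin (r + 1) × Fin (r + 1))) A :=
  fun b => ∑ a, C (v a) * (X (Sum.inr (a, b)) - X (Sum.inr (b, a)))

/-- `R(c, λ_x(U)) ∈ F[c, U]` -/
def mw_resThrough {r s : ℕ} (x : Fin (r + 1) → mw_F N)
    (R : MvPolynomial (Fin (s + 1) ⊕ Fin (r + 1)) mw_K) :
    MvPolynomial (Fin (s + 1) ⊕ (Fin (r + 1) × Fin (r + 1))) (mw_F N) :=
  aeval (Sum.elim (fun j => X (Sum.inl j)) (mw_through x)) R

/-- `R″(c, U, x, y) ∈ F[c, U]` -/
def mw_quotAt {r s : ℕ} (x : Fin (r + 1) → mw_F N) (y : Fin (s + 1) → mw_F N)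
    (Q : MvPolynomial (mw_Var4 r s) mw_K) :
    MvPolynomial (Fin (s + 1) ⊕ (Fin (r + 1) × Fin (r + 1))) (mw_F N) :=
  aeval (Sum.elim (fun j => X (Sum.inl j))
    (Sum.elim (fun p => X (Sum.inr p)) (Sum.elim (fun b => C (x b)) (fun j => C (y j))))) Q

/-- **the certificate identity**: `y_j^k · R(c, λ_x(U)) = ⟨c, y⟩ · R″_j(c, U, x, y)` in `F[c, U]`,
`R″_j` multi-homogeneous of multidegree `(k-1, a, a, k-1)` in `(c, U, X, Y)`. -/
def mw_IsCert {r s : ℕ} (x : Fin (r + 1) → mw_F N) (y : Fin (s + 1) → mw_F N)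
    (R : MvPolynomial (Fin (s + 1) ⊕ Fin (r + 1)) mw_K) (k a : ℕ)
    (R2 : Fin (s + 1) → MvPolynomial (mw_Var4 r s) mw_K) : Prop :=
  ∀ j : Fin (s + 1), mw_IsMultiHom (mw_block4 r s) (R2 j) ![k - 1, a, a, k - 1] ∧
    C (y j) ^ k * mw_resThrough N x R
      = (∑ i, X (Sum.inl i) * C (y i)) * mw_quotAt N x y (R2 j)

/-- `R″(cc, ·, xv, yv) ∈ Q̄[U]` -/
def mw_quotVal {r s : ℕ} (cc : Fin (s + 1) → mw_K) (xv : Fin (r + 1) → mw_K)
    (yv : Fin (s + 1) → mw_K) :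
    MvPolynomial (mw_Var4 r s) mw_K →ₐ[mw_K] MvPolynomial (Fin (r + 1) × Fin (r + 1)) mw_K :=
  aeval (Sum.elim (fun j => C (cc j))
    (Sum.elim (fun p => X p) (Sum.elim (fun b => C (xv b)) (fun j => C (yv j)))))

/-- **[RESb]** the quotient `R″` and its two-sided estimate
`‖R″_j(c,·,x(P),y(P))‖_w ≍ ‖c‖_w^{k-1} ‖x(P)‖_w^a ‖y(P)‖_w^{k-1}` for `j` with
`|y_j(P)|_w = ‖y(P)‖_w`, at EVERY `(c, P)`, `c ≠ 0` (also on the incidence divisor `G_c(P) = 0`). -/
def mw_SeamRESb : Prop :=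
  ∀ {r : ℕ} (x : Fin (r + 1) → mw_F N), mw_IsRef N x → ∀ Pinf : mw_X N, mw_IsInf N Pinf →
  ∃ a₀ : ℕ, ∀ a : ℕ, a₀ ≤ a → ∀ {s : ℕ} (y : Fin (s + 1) → mw_F N), mw_IsComplete N Pinf a y →
  ∀ (R : MvPolynomial (Fin (s + 1) ⊕ Fin (r + 1)) mw_K) (k : ℕ), mw_IsRes N x y R k a →
    ∃ R2 : Fin (s + 1) → MvPolynomial (mw_Var4 r s) mw_K, mw_IsCert N x y R k a R2 ∧
    ∃ (γ : ℝ) (cp : ℕ → ℝ) (K₀ : IntermediateField ℚ mw_K), FiniteDimensional ℚ ↥K₀ ∧
      0 ≤ γ ∧ (∀ p, 0 ≤ cp p) ∧ {p | cp p ≠ 0}.Finite ∧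
      ∀ (K' : IntermediateField ℚ mw_K) [NumberField ↥K'] (w : AbsoluteValue ↥K' ℝ) (bnd : ℝ),
        K₀ ≤ K' → mw_IsBound K' w γ cp bnd →
        ∀ (cc : Fin (s + 1) → mw_K) (P : mw_X N), cc ≠ 0 → (∀ j, cc j ∈ K') →
          (∀ b, mw_vec x P b ∈ K') → (∀ j, mw_vec y P j ∈ K') →
          ∀ j : Fin (s + 1), mw_wabs K' w (mw_vec y P j) = mw_wnorm K' w (mw_vec y P) →
            |Real.log (mw_pnorm K' w (mw_quotVal cc (mw_vec x P) (mw_vec y P) (R2 j)))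
              - (((k : ℝ) - 1) * Real.log (mw_wnorm K' w cc)
                  + (a : ℝ) * Real.log (mw_wnorm K' w (mw_vec x P))
                  + ((k : ℝ) - 1) * Real.log (mw_wnorm K' w (mw_vec y P)))| ≤ bnd

/-! ### [KLμ] the master local theorem -/

/-- the leading coefficient at `P` of the section `G_cc` of `ψ` with respect to `π^μ`:
the value at `P` of `(G_cc / ψ_piv) / π^μ` -/
def mw_lcAt {s : ℕ} (ψ : Fin (s + 1) → mw_F N) (cc : Fin (s + 1) → mw_K) (P : mw_X N)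
    (π : mw_F N) (μ : ℕ) : mw_K :=
  mw_val P (mw_sec ψ cc / ψ (mw_piv ψ P) / π ^ μ)

/-- the tangent vector at `P` of the embedding `x` with respect to the uniformiser `π`:
the value at `P` of `(x/x_piv - x(P)) / π` -/
def mw_tanAt {r : ℕ} (x : Fin (r + 1) → mw_F N) (P : mw_X N) (π : mw_F N) :
    Fin (r + 1) → mw_K :=
  fun a => mw_val P ((x a / x (mw_piv x P) - algebraMap mw_K (mw_F N) (mw_vec x P a)) / π)

/-- `κ_w(P) = ‖τ(P) ∧ x(P)‖_w / ‖x(P)‖_w²` -/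
def mw_kappa (K' : IntermediateField ℚ mw_K) (w : AbsoluteValue ↥K' ℝ) {r : ℕ}
    (x : Fin (r + 1) → mw_F N) (P : mw_X N) (π : mw_F N) : ℝ :=
  mw_wnorm K' w (mw_wedge (mw_tanAt N x P π) (mw_vec x P)) / mw_wnorm K' w (mw_vec x P) ^ 2

/-- **[KLμ]** the master local theorem for the complete systems `y = L(a∞)`, `a ≥ a₀`. -/
def mw_SeamKLmu : Prop :=
  ∀ {r : ℕ} (x : Fin (r + 1) → mw_F N), mw_IsRef N x → ∀ Pinf : mw_X N, mw_IsInf N Pinf →
  ∃ a₀ : ℕ, ∀ a : ℕ, a₀ ≤ a → ∀ {s : ℕ} (y : Fin (s + 1) → mw_F N), mw_IsComplete N Pinf a y →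
    ∃ (γ : ℝ) (cp : ℕ → ℝ) (K₀ : IntermediateField ℚ mw_K), FiniteDimensional ℚ ↥K₀ ∧
      0 ≤ γ ∧ (∀ p, 0 ≤ cp p) ∧ {p | cp p ≠ 0}.Finite ∧
      ∀ (K' : IntermediateField ℚ mw_K) [NumberField ↥K'] (w : AbsoluteValue ↥K' ℝ) (bnd : ℝ),
        K₀ ≤ K' → mw_IsBound K' w γ cp bnd →
        ∀ (cc : Fin (s + 1) → mw_K) (P : mw_X N) (π : mw_F N) (μ : ℕ), cc ≠ 0 →
          mw_zeroMult y cc P = (μ : ℤ) → (1 ≤ μ → P.ord π = 1) →
          (∀ b, cc b ∈ K') → (∀ b, mw_vec x P b ∈ K') → (∀ b, mw_vec y P b ∈ K') →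
          (∀ z : mw_X N, mw_zeroMult y cc z ≠ 0 → ∀ b, mw_vec x z b ∈ K') →
          (1 ≤ μ → ∀ b, mw_tanAt N x P π b ∈ K') → mw_lcAt N y cc P π μ ∈ K' →
          |Real.log (mw_wabs K' w (mw_lcAt N y cc P π μ) /
                (mw_wnorm K' w cc * mw_wnorm K' w (mw_vec y P)))
            - ((μ : ℝ) * Real.log (mw_kappa N K' w x P π)
                + ∑ᶠ z : mw_X N, if z = P then (0 : ℝ) else
                    (mw_zeroMult y cc z : ℝ) *
                      Real.log (mw_delta K' w (mw_vec x P) (mw_vec x z)))| ≤ bnd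

end Fermat.Agent.MW
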