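/-
Project MW (S17): two more seams of the local analytic core (architect helper7), consumed by the
assembly `[KLμ]`  (`mw_SeamGM → mw_SeamSYL N → mw_SeamRESa N → mw_SeamRESb N → mw_SeamEMB N →
mw_SeamINC N → mw_SeamKLmu N`):

* `mw_SeamEMB`  [EMB]  a reference embedding separates points and tangent vectors;
* `mw_SeamINC`  [INC]  the certificate identity evaluated at a place `P` (also ON the incidence
                        divisor `G_c(P) = 0`), after division by `π^μ`.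
API for `mw_val`, pivots, … : `MW/Core/Val.lean` (prefix `mw_v_`).
-/
import Fermat.Agent.MW.Core.Seams

set_option autoImplicit false

noncomputable section

namespace Fermat.Agent.MW

open AlgebraicCurve ModularCurve MvPolynomial
open scoped Classical

variable (N : ℕ) [NeZero N]

/-- **[EMB]** a reference embedding separates points (`x(P) ∧ x(Q) ≠ 0` for `P ≠ Q`) and tangent
vectors (`τ(P) ∧ x(P) ≠ 0` for every uniformiser `π` at `P`). -/
def mw_SeamEMB : Prop :=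
  ∀ {r : ℕ} (x : Fin (r + 1) → mw_F N), mw_IsRef N x →
    (∀ P Q : mw_X N, P ≠ Q → mw_wedge (mw_vec x P) (mw_vec x Q) ≠ 0) ∧
    (∀ (P : mw_X N) (π : mw_F N), P.ord π = 1 →
      mw_wedge (mw_tanAt N x P π) (mw_vec x P) ≠ 0)

/-- **[INC]** the certificate identity at the place `P`: for `cc ≠ 0`, `μ = ord_P G_cc`, `π` a
uniformiser at `P` (if `μ ≥ 1`) and `A₀` the constant of (B1) for `cc`:
`y_j(P)^k A₀ ∏_{z ≠ P} ⟨U, x(P) ∧ x(z)⟩^{Z_cc(z)} · ⟨U, τ(P) ∧ x(P)⟩^μ = lc_μ · R″_j(cc, U, x(P), y(P))`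
in `Q̄[U]`, for every `j`. -/
def mw_SeamINC : Prop :=
  ∀ {r : ℕ} (x : Fin (r + 1) → mw_F N), mw_IsRef N x → ∀ Pinf : mw_X N, mw_IsInf N Pinf →
  ∀ (a : ℕ) {s : ℕ} (y : Fin (s + 1) → mw_F N), mw_IsComplete N Pinf a y →
  ∀ (R : MvPolynomial (Fin (s + 1) ⊕ Fin (r + 1)) mw_K) (k : ℕ), mw_IsRes N x y R k a →
  ∀ R2 : Fin (s + 1) → MvPolynomial (mw_Var4 r s) mw_K, mw_IsCert N x y R k a R2 →
  ∀ (cc : Fin (s + 1) → mw_K) (P : mw_X N) (π : mw_F N) (μ : ℕ) (A₀ : mw_K), cc ≠ 0 →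
    mw_zeroMult y cc P = (μ : ℤ) → (1 ≤ μ → P.ord π = 1) →
    mw_subL cc R = C A₀ * ∏ᶠ z : mw_X N, mw_lin (mw_vec x z) ^ (mw_zeroMult y cc z).toNat →
    ∀ j : Fin (s + 1),
      C (mw_vec y P j ^ k * A₀)
          * (∏ᶠ z : mw_X N, if z = P then 1 else
              mw_lin (mw_wedge (mw_vec x P) (mw_vec x z)) ^ (mw_zeroMult y cc z).toNat)
          * mw_lin (mw_wedge (mw_tanAt N x P π) (mw_vec x P)) ^ μ
        = C (mw_lcAt N y cc P π μ) * mw_quotVal cc (mw_vec x P) (mw_vec y P) (R2 j)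

end Fermat.Agent.MW
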