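/-
Project MW (S17): BASIC API for the objects of `MW/HeightDefs.lean` (helper7): `mw_val` (value at a
place) is a ring homomorphism on the valuation ring, pivots, `mw_vec`, `mw_sec`, `mw_dot`,
`mw_zeroMult`.  Prefix `mw_v_`.  Shared by the leaves of the analytic core.
-/
import Fermat.Agent.MW.HeightDefs
import Fermat.Agent.S24.Bridge.Degree
import Fermat.Agent.S24.Hurwitz.Places

set_option autoImplicit false
set_option linter.unusedSectionVars false

noncomputable section

namespace Fermat.Agent.MW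

open AlgebraicCurve ModularCurve Fermat.Agent.S24
open scoped Classical IntermediateField

variable {N : ℕ} [NeZero N]

instance mw_v_isAlgebraic : Algebra.IsAlgebraic (mw_K)⟮br_jBar N⟯ (mw_F N) :=
  Algebra.IsAlgebraic.of_finite _ _

/-! ### membership and orders -/

theorem mw_v_mem_iff (P : mw_X N) {f : mw_F N} (hf : f ≠ 0) :
    f ∈ P.toValuationSubring ↔ 0 ≤ P.ord f := hw_mem_iff_ord_nonneg P hf

theorem mw_v_mem_nonunits_iff (P : mw_X N) {f : mw_F N} (hf : f ≠ 0) :
    f ∈ P.toValuationSubring.nonunits ↔ 0 < P.ord f := by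
  rw [ValuationSubring.mem_nonunits_iff_or, hw_ord_pos_iff P hf]
  simp [hf]

theorem mw_v_nonunits_mem (P : mw_X N) {f : mw_F N} (hf : f ∈ P.toValuationSubring.nonunits) :
    f ∈ P.toValuationSubring := ValuationSubring.nonunits_subset (A := P.toValuationSubring) hf

theorem mw_v_const_mem (P : mw_X N) (c : mw_K) :
    algebraMap mw_K (mw_F N) c ∈ P.toValuationSubring := P.algebraMap_mem' c

theorem mw_v_const_not_nonunit (P : mw_X N) {c : mw_K} (hc : c ≠ 0) :
    algebraMap mw_K (mw_F N) c ∉ P.toValuationSubring.nonunits := by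
  have hc' : algebraMap mw_K (mw_F N) c ≠ 0 := by simpa using hc
  rw [mw_v_mem_nonunits_iff P hc', hw_ord_algebraMap]
  exact lt_irrefl 0

/-! ### the value at a place -/

theorem mw_v_exists (P : mw_X N) {f : mw_F N} (hf : f ∈ P.toValuationSubring) :
    ∃ c : mw_K, f - algebraMap mw_K (mw_F N) c ∈ P.toValuationSubring.nonunits := by
  obtain ⟨c, hc | hc⟩ := hw_exists_const (br_jBar N) P hf
  · exact ⟨c, by rw [hc, sub_self]; exact (P.toValuationSubring.nonunits).zero_mem⟩
  · refine ⟨c, ?_⟩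
    have hne : f - algebraMap mw_K (mw_F N) c ≠ 0 := by
      intro h
      rw [h, Place.ord_zero] at hc
      exact lt_irrefl 0 hc
    exact (mw_v_mem_nonunits_iff P hne).mpr hc

theorem mw_v_unique (P : mw_X N) {f : mw_F N} {c c' : mw_K}
    (h : f - algebraMap mw_K (mw_F N) c ∈ P.toValuationSubring.nonunits)
    (h' : f - algebraMap mw_K (mw_F N) c' ∈ P.toValuationSubring.nonunits) : c = c' := by
  by_contra hne
  have h1 : algebraMap mw_K (mw_F N) (c' - c) ∈ P.toValuationSubring.nonunits := by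
    have := (P.toValuationSubring.nonunits).sub_mem h h'
    have e : f - algebraMap mw_K (mw_F N) c - (f - algebraMap mw_K (mw_F N) c')
        = algebraMap mw_K (mw_F N) (c' - c) := by
      rw [map_sub]; ring
    rwa [e] at this
  exact mw_v_const_not_nonunit P (sub_ne_zero.mpr (Ne.symm hne)) h1

theorem mw_v_spec (P : mw_X N) {f : mw_F N} (hf : f ∈ P.toValuationSubring) :
    f - algebraMap mw_K (mw_F N) (mw_val P f) ∈ P.toValuationSubring.nonunits := by
  have h := mw_v_exists P hf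
  rw [mw_val, dif_pos h]
  exact h.choose_spec

theorem mw_v_eq (P : mw_X N) {f : mw_F N} {c : mw_K}
    (h : f - algebraMap mw_K (mw_F N) c ∈ P.toValuationSubring.nonunits) : mw_val P f = c := by
  have hf : f ∈ P.toValuationSubring := by
    have := P.toValuationSubring.add_mem _ _ (mw_v_nonunits_mem P h) (mw_v_const_mem P c)
    simpa using this
  exact mw_v_unique P (mw_v_spec P hf) h

theorem mw_v_not_mem (P : mw_X N) {f : mw_F N} (hf : f ∉ P.toValuationSubring) :
    mw_val P f = 0 := by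
  rw [mw_val, dif_neg]
  rintro ⟨c, hc⟩
  apply hf
  have := P.toValuationSubring.add_mem _ _ (mw_v_nonunits_mem P hc) (mw_v_const_mem P c)
  simpa using this

@[simp] theorem mw_v_const (P : mw_X N) (c : mw_K) :
    mw_val P (algebraMap mw_K (mw_F N) c) = c :=
  mw_v_eq P (by rw [sub_self]; exact (P.toValuationSubring.nonunits).zero_mem)

@[simp] theorem mw_v_zero (P : mw_X N) : mw_val P (0 : mw_F N) = 0 := by
  have := mw_v_const P (0 : mw_K)
  rwa [map_zero] at this

@[simp] theorem mw_v_one (P : mw_X N) : mw_val P (1 : mw_F N) = 1 := by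
  have := mw_v_const P (1 : mw_K)
  rwa [map_one] at this

theorem mw_v_add (P : mw_X N) {f g : mw_F N} (hf : f ∈ P.toValuationSubring)
    (hg : g ∈ P.toValuationSubring) : mw_val P (f + g) = mw_val P f + mw_val P g := by
  apply mw_v_eq
  have := (P.toValuationSubring.nonunits).add_mem (mw_v_spec P hf) (mw_v_spec P hg)
  have e : f - algebraMap mw_K (mw_F N) (mw_val P f) + (g - algebraMap mw_K (mw_F N) (mw_val P g))
      = f + g - algebraMap mw_K (mw_F N) (mw_val P f + mw_val P g) := by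
    rw [map_add]; ring
  rwa [e] at this

theorem mw_v_nonunits_mul_mem (P : mw_X N) {f g : mw_F N}
    (hf : f ∈ P.toValuationSubring.nonunits) (hg : g ∈ P.toValuationSubring) :
    f * g ∈ P.toValuationSubring.nonunits := by
  rw [ValuationSubring.mem_nonunits_iff] at hf ⊢
  rw [map_mul]
  have hg1 : P.toValuationSubring.valuation g ≤ 1 :=
    (P.toValuationSubring.valuation_le_one_iff g).mpr hg
  exact lt_of_le_of_lt (mul_le_of_le_one_right' hg1) hf

theorem mw_v_mul (P : mw_X N) {f g : mw_F N} (hf : f ∈ P.toValuationSubring)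
    (hg : g ∈ P.toValuationSubring) : mw_val P (f * g) = mw_val P f * mw_val P g := by
  apply mw_v_eq
  have h1 := mw_v_nonunits_mul_mem P (mw_v_spec P hf) hg
  have h2 := mw_v_nonunits_mul_mem P (mw_v_spec P hg)
    (mw_v_const_mem P (mw_val P f))
  have := (P.toValuationSubring.nonunits).add_mem h1 h2
  have e : (f - algebraMap mw_K (mw_F N) (mw_val P f)) * g
      + (g - algebraMap mw_K (mw_F N) (mw_val P g)) * algebraMap mw_K (mw_F N) (mw_val P f)
      = f * g - algebraMap mw_K (mw_F N) (mw_val P f * mw_val P g) := by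
    rw [map_mul]; ring
  rwa [e] at this

theorem mw_v_neg (P : mw_X N) (f : mw_F N) : mw_val P (-f) = -mw_val P f := by
  by_cases hf : f ∈ P.toValuationSubring
  · apply mw_v_eq
    have := (P.toValuationSubring.nonunits).neg_mem (mw_v_spec P hf)
    have e : -(f - algebraMap mw_K (mw_F N) (mw_val P f))
        = -f - algebraMap mw_K (mw_F N) (-mw_val P f) := by
      rw [map_neg]; ring
    rwa [e] at this
  · have hf' : -f ∉ P.toValuationSubring := fun h => hf (by simpa using P.toValuationSubring.neg_mem _ h)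
    rw [mw_v_not_mem P hf, mw_v_not_mem P hf', neg_zero]

theorem mw_v_sub (P : mw_X N) {f g : mw_F N} (hf : f ∈ P.toValuationSubring)
    (hg : g ∈ P.toValuationSubring) : mw_val P (f - g) = mw_val P f - mw_val P g := by
  rw [sub_eq_add_neg, mw_v_add P hf (P.toValuationSubring.neg_mem _ hg), mw_v_neg, sub_eq_add_neg]

/-- the evaluation at `P` as a ring homomorphism on the valuation ring -/
def mw_ev (P : mw_X N) : ↥P.toValuationSubring →+* mw_K where
  toFun f := mw_val P (f : mw_F N)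
  map_one' := by simp
  map_mul' f g := by simpa using mw_v_mul P f.2 g.2
  map_zero' := by simp
  map_add' f g := by simpa using mw_v_add P f.2 g.2

theorem mw_ev_apply (P : mw_X N) (f : ↥P.toValuationSubring) :
    mw_ev P f = mw_val P (f : mw_F N) := rfl

theorem mw_v_sum (P : mw_X N) {ι : Type} (s : Finset ι) (f : ι → mw_F N)
    (hf : ∀ i ∈ s, f i ∈ P.toValuationSubring) :
    mw_val P (∑ i ∈ s, f i) = ∑ i ∈ s, mw_val P (f i) := by
  induction s using Finset.induction_on with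
  | empty => simp
  | insert a s ha ih =>
    rw [Finset.sum_insert ha, Finset.sum_insert ha,
      mw_v_add P (hf a (Finset.mem_insert_self a s))
        (P.toValuationSubring.sum_mem fun i hi => hf i (Finset.mem_insert_of_mem hi)),
      ih fun i hi => hf i (Finset.mem_insert_of_mem hi)]

theorem mw_v_prod (P : mw_X N) {ι : Type} (s : Finset ι) (f : ι → mw_F N)
    (hf : ∀ i ∈ s, f i ∈ P.toValuationSubring) :
    mw_val P (∏ i ∈ s, f i) = ∏ i ∈ s, mw_val P (f i) := by
  induction s using Finset.induction_on with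
  | empty => simp
  | insert a s ha ih =>
    rw [Finset.prod_insert ha, Finset.prod_insert ha,
      mw_v_mul P (hf a (Finset.mem_insert_self a s))
        (P.toValuationSubring.prod_mem fun i hi => hf i (Finset.mem_insert_of_mem hi)),
      ih fun i hi => hf i (Finset.mem_insert_of_mem hi)]

theorem mw_v_pow (P : mw_X N) {f : mw_F N} (hf : f ∈ P.toValuationSubring) (n : ℕ) :
    mw_val P (f ^ n) = mw_val P f ^ n := by
  induction n with
  | zero => simp
  | succ n ih => rw [pow_succ, pow_succ, mw_v_mul P (P.toValuationSubring.pow_mem hf n) hf, ih]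

theorem mw_v_const_mul (P : mw_X N) (c : mw_K) {f : mw_F N} (hf : f ∈ P.toValuationSubring) :
    mw_val P (algebraMap mw_K (mw_F N) c * f) = c * mw_val P f := by
  rw [mw_v_mul P (mw_v_const_mem P c) hf, mw_v_const]

theorem mw_v_eq_zero_iff (P : mw_X N) {f : mw_F N} (hf : f ∈ P.toValuationSubring) :
    mw_val P f = 0 ↔ f ∈ P.toValuationSubring.nonunits := by
  constructor
  · intro h
    have := mw_v_spec P hf
    rwa [h, map_zero, sub_zero] at this
  · intro h
    exact mw_v_eq P (by rwa [map_zero, sub_zero])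

theorem mw_v_eq_zero_iff_ord (P : mw_X N) {f : mw_F N} (hf : f ≠ 0) (hord : 0 ≤ P.ord f) :
    mw_val P f = 0 ↔ 0 < P.ord f := by
  rw [mw_v_eq_zero_iff P ((mw_v_mem_iff P hf).mpr hord), mw_v_mem_nonunits_iff P hf]

theorem mw_v_ne_zero_of_ord_eq_zero (P : mw_X N) {f : mw_F N} (hf : f ≠ 0) (h : P.ord f = 0) :
    mw_val P f ≠ 0 := by
  rw [Ne, mw_v_eq_zero_iff_ord P hf h.ge, h]
  exact lt_irrefl 0

/-! ### pivots, projective vectors, sections -/

variable {s : ℕ}

theorem mw_v_piv_exists (ψ : Fin (s + 1) → mw_F N) (h : ∃ b, ψ b ≠ 0) (P : mw_X N) :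
    ∃ b, ψ b ≠ 0 ∧ ∀ a, ψ a / ψ b ∈ P.toValuationSubring := by
  -- minimise the order among the nonzero members
  let S : Finset (Fin (s + 1)) := Finset.univ.filter fun b => ψ b ≠ 0
  have hS : S.Nonempty := by
    obtain ⟨b, hb⟩ := h
    exact ⟨b, by simp [S, hb]⟩
  obtain ⟨b, hbS, hmin⟩ := S.exists_min_image (fun b => P.ord (ψ b)) hS
  have hb : ψ b ≠ 0 := by simpa [S] using hbS
  refine ⟨b, hb, fun a => ?_⟩
  by_cases ha : ψ a = 0
  · rw [ha, zero_div]; exact P.toValuationSubring.zero_mem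
  · have haS : a ∈ S := by simp [S, ha]
    have := hmin a haS
    rw [mw_v_mem_iff P (div_ne_zero ha hb), div_eq_mul_inv, Place.ord_mul P ha (inv_ne_zero hb),
      Place.ord_inv]
    omega

theorem mw_v_piv_spec (ψ : Fin (s + 1) → mw_F N) (h : ∃ b, ψ b ≠ 0) (P : mw_X N) :
    ψ (mw_piv ψ P) ≠ 0 ∧ ∀ a, ψ a / ψ (mw_piv ψ P) ∈ P.toValuationSubring := by
  have h' := mw_v_piv_exists ψ h P
  rw [mw_piv, dif_pos h']
  exact h'.choose_spec

theorem mw_v_vec_piv (ψ : Fin (s + 1) → mw_F N) (h : ∃ b, ψ b ≠ 0) (P : mw_X N) :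
    mw_vec ψ P (mw_piv ψ P) = 1 := by
  rw [mw_vec, div_self (mw_v_piv_spec ψ h P).1, mw_v_one]

theorem mw_v_vec_ne_zero (ψ : Fin (s + 1) → mw_F N) (h : ∃ b, ψ b ≠ 0) (P : mw_X N) :
    mw_vec ψ P ≠ 0 := by
  intro h0
  have := mw_v_vec_piv ψ h P
  rw [h0] at this
  exact zero_ne_one this

theorem mw_v_ord_piv_le (ψ : Fin (s + 1) → mw_F N) (h : ∃ b, ψ b ≠ 0) (P : mw_X N)
    {a : Fin (s + 1)} (ha : ψ a ≠ 0) : P.ord (ψ (mw_piv ψ P)) ≤ P.ord (ψ a) := by
  obtain ⟨hb, hmem⟩ := mw_v_piv_spec ψ h P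
  have := (mw_v_mem_iff P (div_ne_zero ha hb)).mp (hmem a)
  rw [div_eq_mul_inv, Place.ord_mul P ha (inv_ne_zero hb), Place.ord_inv] at this
  omega

theorem mw_v_sec_div (ψ : Fin (s + 1) → mw_F N) (cc : Fin (s + 1) → mw_K) (b : Fin (s + 1)) :
    mw_sec ψ cc / ψ b = ∑ a, algebraMap mw_K (mw_F N) (cc a) * (ψ a / ψ b) := by
  rw [mw_sec, Finset.sum_div]
  exact Finset.sum_congr rfl fun a _ => by rw [mul_div_assoc]

theorem mw_v_sec_div_mem (ψ : Fin (s + 1) → mw_F N) (h : ∃ b, ψ b ≠ 0) (P : mw_X N)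
    (cc : Fin (s + 1) → mw_K) : mw_sec ψ cc / ψ (mw_piv ψ P) ∈ P.toValuationSubring := by
  rw [mw_v_sec_div]
  exact P.toValuationSubring.sum_mem fun a _ =>
    P.toValuationSubring.mul_mem _ _ (mw_v_const_mem P _) ((mw_v_piv_spec ψ h P).2 a)

/-- `⟨cc, ψ(P)⟩` is the value at `P` of the section `G_cc / ψ_piv`. -/
theorem mw_v_dot (ψ : Fin (s + 1) → mw_F N) (h : ∃ b, ψ b ≠ 0) (P : mw_X N)
    (cc : Fin (s + 1) → mw_K) :
    mw_dot cc (mw_vec ψ P) = mw_val P (mw_sec ψ cc / ψ (mw_piv ψ P)) := by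
  rw [mw_v_sec_div, mw_v_sum P _ _ fun a _ =>
    P.toValuationSubring.mul_mem _ _ (mw_v_const_mem P _) ((mw_v_piv_spec ψ h P).2 a), mw_dot]
  exact Finset.sum_congr rfl fun a _ => by
    rw [mw_v_const_mul P _ ((mw_v_piv_spec ψ h P).2 a), mw_vec]

theorem mw_v_sec_ne_zero {ψ : Fin (s + 1) → mw_F N} (hψ : LinearIndependent mw_K ψ)
    {cc : Fin (s + 1) → mw_K} (hcc : cc ≠ 0) : mw_sec ψ cc ≠ 0 := by
  intro h0
  apply hcc
  have := Fintype.linearIndependent_iff.mp hψ cc (by
    rw [mw_sec] at h0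
    simpa [Algebra.smul_def] using h0)
  exact funext this

theorem mw_v_exists_ne_zero {ψ : Fin (s + 1) → mw_F N} (hψ : LinearIndependent mw_K ψ) :
    ∃ b, ψ b ≠ 0 := ⟨0, hψ.ne_zero 0⟩

theorem mw_v_zeroMult_nonneg (ψ : Fin (s + 1) → mw_F N) (h : ∃ b, ψ b ≠ 0) (P : mw_X N)
    {cc : Fin (s + 1) → mw_K} (hsec : mw_sec ψ cc ≠ 0) : 0 ≤ mw_zeroMult ψ cc P := by
  rw [mw_zeroMult]
  exact (mw_v_mem_iff P (div_ne_zero hsec (mw_v_piv_spec ψ h P).1)).mp (mw_v_sec_div_mem ψ h P cc)

theorem mw_v_zeroMult_eq_zero_iff (ψ : Fin (s + 1) → mw_F N) (h : ∃ b, ψ b ≠ 0) (P : mw_X N)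
    {cc : Fin (s + 1) → mw_K} (hsec : mw_sec ψ cc ≠ 0) :
    mw_zeroMult ψ cc P = 0 ↔ mw_dot cc (mw_vec ψ P) ≠ 0 := by
  have hne := div_ne_zero hsec (mw_v_piv_spec ψ h P).1
  have h0 := mw_v_zeroMult_nonneg ψ h P hsec
  rw [mw_v_dot ψ h P, Ne, mw_v_eq_zero_iff_ord P hne h0]
  rw [mw_zeroMult] at h0 ⊢
  omega

end Fermat.Agent.MW
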