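/-
Project MW (S17): core leaf **[EMB]** (helper29; seam `mw_SeamEMB` of `MW/Core/Seams2.lean`):
a reference embedding `x` (a basis of `L(k∞)`, Riemann exact in all degrees `≥ k - 2`) separates
points (`x(P) ∧ x(Q) ≠ 0` for `P ≠ Q`) and tangent vectors (`τ(P) ∧ x(P) ≠ 0`).  Prefix `mw_emb_`.

Generic by-products (any divisor `D`, any spanning tuple of `L(D)`), reusable for the complete
systems `y` of `[SYL]`:
* `mw_emb_exists_not_mem` : Riemann exactness gives `f ∈ L(D) ∖ L(D - P)`;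
* `mw_emb_ord_of_not_mem` : such an `f` has `ord_P f = -D(P)`;
* `mw_emb_ord_piv`        : base-point-freeness, `ord_P ψ_piv(P) = -D(P)`;
* `mw_emb_dot_eq_zero_iff`: `⟨c, ψ(P)⟩ = 0 ↔ -D(P) + 1 ≤ ord_P G_c`.
-/
import Fermat.Agent.MW.Core.Seams2
import Fermat.Agent.MW.Core.Val
import Fermat.Agent.JT3.Riemann.FBar

set_option autoImplicit false
set_option linter.unusedSectionVars false

noncomputable section

namespace Fermat.Agent.MW

open AlgebraicCurve ModularCurve Fermat.Agent.S24 Fermat.Agent.JT3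
open scoped Classical

variable {N : ℕ} [NeZero N]

/-! ### Generic lemmas on `L(D)` and `L(D - P)` -/

theorem mw_emb_sub_le (D : mw_Div N) (P : mw_X N) : D - Finsupp.single P 1 ≤ D := by
  rw [Finsupp.le_def]
  intro v
  rw [Finsupp.sub_apply]
  by_cases hv : v = P
  · subst hv
    rw [Finsupp.single_eq_same]
    omega
  · rw [Finsupp.single_eq_of_ne hv, sub_zero]

theorem mw_emb_degree_sub (D : mw_Div N) (P : mw_X N) :
    Divisor.degree (D - Finsupp.single P 1) = Divisor.degree D - 1 := by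
  rw [map_sub, rt_degree_single (rt_isSepGen_jBar N)]

/-- Riemann exactness in degrees `≥ k - 2` gives `f ∈ L(D) ∖ L(D - P)` when `deg D ≥ k - 1`. -/
theorem mw_emb_exists_not_mem {k g : ℕ}
    (hex : ∀ D : mw_Div N, (k : ℤ) - 2 ≤ Divisor.degree D →
      (Module.finrank mw_K ↥(riemannRochSpace D) : ℤ) = Divisor.degree D + 1 - g)
    (D : mw_Div N) (P : mw_X N) (hD : (k : ℤ) - 1 ≤ Divisor.degree D) :
    ∃ f ∈ riemannRochSpace D, f ∉ riemannRochSpace (D - Finsupp.single P 1) := by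
  by_contra hcon
  push Not at hcon
  have hle : riemannRochSpace D ≤ riemannRochSpace (D - Finsupp.single P 1) := hcon
  have heq : riemannRochSpace (D - Finsupp.single P 1) = riemannRochSpace D :=
    le_antisymm (rt_L_mono (mw_emb_sub_le D P)) hle
  have hdeg := mw_emb_degree_sub D P
  have h1 := hex D (by linarith)
  have h2 := hex (D - Finsupp.single P 1) (by rw [hdeg]; linarith)
  have h3 : Module.finrank mw_K ↥(riemannRochSpace (D - Finsupp.single P 1))
      = Module.finrank mw_K ↥(riemannRochSpace D) :=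
    congrArg (fun S : Submodule mw_K (mw_F N) => Module.finrank mw_K ↥S) heq
  rw [h3, h1, hdeg] at h2
  linarith

/-- an element of `L(D) ∖ L(D - P)` is nonzero of exact order `-D(P)` at `P` -/
theorem mw_emb_ord_of_not_mem {D : mw_Div N} {P : mw_X N} {f : mw_F N}
    (hf : f ∈ riemannRochSpace D) (hf' : f ∉ riemannRochSpace (D - Finsupp.single P 1)) :
    f ≠ 0 ∧ P.ord f = -D P := by
  have hf0 : f ≠ 0 := fun h => hf' (h ▸ zero_mem _)
  refine ⟨hf0, ?_⟩
  rw [rt_mem_L_iff hf0] at hf hf'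
  push Not at hf'
  obtain ⟨v, hv⟩ := hf'
  by_cases hvP : v = P
  · subst hvP
    have := hf v
    rw [Finsupp.sub_apply, Finsupp.single_eq_same] at hv
    omega
  · exfalso
    rw [Finsupp.sub_apply, Finsupp.single_eq_of_ne hvP, sub_zero] at hv
    exact absurd (hf v) (not_le.mpr hv)

/-- an element of the span is a section -/
theorem mw_emb_sec_of_mem {r : ℕ} {x : Fin (r + 1) → mw_F N} {D : mw_Div N}
    (hspan : Submodule.span mw_K (Set.range x) = riemannRochSpace D) {f : mw_F N}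
    (hf : f ∈ riemannRochSpace D) : ∃ c : Fin (r + 1) → mw_K, mw_sec x c = f := by
  rw [← hspan, Submodule.mem_span_range_iff_exists_fun] at hf
  obtain ⟨c, hc⟩ := hf
  refine ⟨c, ?_⟩
  rw [mw_sec, ← hc]
  exact Finset.sum_congr rfl fun b _ => (Algebra.smul_def _ _).symm

/-- **base-point-freeness**: if `L(D - P) ≠ L(D)`, the pivot of a spanning tuple of `L(D)` has
order exactly `-D(P)` at `P`. -/
theorem mw_emb_ord_piv {r : ℕ} {x : Fin (r + 1) → mw_F N} (hx0 : ∃ b, x b ≠ 0) {D : mw_Div N}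
    (hspan : Submodule.span mw_K (Set.range x) = riemannRochSpace D) (P : mw_X N)
    (hbpf : ∃ f ∈ riemannRochSpace D, f ∉ riemannRochSpace (D - Finsupp.single P 1)) :
    P.ord (x (mw_piv x P)) = -D P := by
  obtain ⟨hp0, -⟩ := mw_v_piv_spec x hx0 P
  have hpL : x (mw_piv x P) ∈ riemannRochSpace D := by
    rw [← hspan]
    exact Submodule.subset_span ⟨_, rfl⟩
  have h1 : -D P ≤ P.ord (x (mw_piv x P)) := (rt_mem_L_iff hp0).mp hpL P
  obtain ⟨f, hf, hf'⟩ := hbpf
  obtain ⟨hf0, hordf⟩ := mw_emb_ord_of_not_mem hf hf'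
  obtain ⟨c, rfl⟩ := mw_emb_sec_of_mem hspan hf
  have hmem := mw_v_sec_div_mem x hx0 P c
  rw [mw_v_mem_iff P (div_ne_zero hf0 hp0), div_eq_mul_inv,
    Place.ord_mul P hf0 (inv_ne_zero hp0), Place.ord_inv] at hmem
  omega

/-- `⟨c, x(P)⟩ = 0` iff the section `G_c` lies in `L(D - P)` (order condition at `P`) -/
theorem mw_emb_dot_eq_zero_iff {r : ℕ} {x : Fin (r + 1) → mw_F N} (hx0 : ∃ b, x b ≠ 0)
    {D : mw_Div N} (P : mw_X N) (hpiv : P.ord (x (mw_piv x P)) = -D P)
    (c : Fin (r + 1) → mw_K) (hsec : mw_sec x c ≠ 0) :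
    mw_dot c (mw_vec x P) = 0 ↔ -D P + 1 ≤ P.ord (mw_sec x c) := by
  obtain ⟨hp0, -⟩ := mw_v_piv_spec x hx0 P
  have hne := div_ne_zero hsec hp0
  have hmem := mw_v_sec_div_mem x hx0 P c
  rw [mw_v_dot x hx0 P, mw_v_eq_zero_iff_ord P hne ((mw_v_mem_iff P hne).mp hmem),
    div_eq_mul_inv, Place.ord_mul P hsec (inv_ne_zero hp0), Place.ord_inv, hpiv]
  omega

/-! ### Separation of points -/

theorem mw_emb_sep {r : ℕ} (x : Fin (r + 1) → mw_F N) (hx : mw_IsRef N x) (P Q : mw_X N)
    (hPQ : P ≠ Q) : mw_wedge (mw_vec x P) (mw_vec x Q) ≠ 0 := by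
  obtain ⟨-, hli, Pinf, k, g, -, -, hex, hspan⟩ := hx
  have hx0 := mw_v_exists_ne_zero hli
  have hdegD : Divisor.degree (Finsupp.single Pinf (k : ℤ) : mw_Div N) = k :=
    rt_degree_single (rt_isSepGen_jBar N) _ _
  have hpivP := mw_emb_ord_piv hx0 hspan P
    (mw_emb_exists_not_mem hex _ P (by rw [hdegD]; linarith))
  have hpivQ := mw_emb_ord_piv hx0 hspan Q
    (mw_emb_exists_not_mem hex _ Q (by rw [hdegD]; linarith))
  -- `f ∈ L(k∞ - P) ∖ L(k∞ - P - Q)`
  have hdegDP : Divisor.degree ((Finsupp.single Pinf (k : ℤ) : mw_Div N) - Finsupp.single P 1)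
      = k - 1 := by
    rw [mw_emb_degree_sub, hdegD]
  obtain ⟨f, hf, hf'⟩ := mw_emb_exists_not_mem hex _ Q (le_of_eq hdegDP.symm)
  obtain ⟨hf0, hordQ⟩ := mw_emb_ord_of_not_mem hf hf'
  have hfD : f ∈ riemannRochSpace (Finsupp.single Pinf (k : ℤ) : mw_Div N) :=
    rt_L_mono (mw_emb_sub_le _ P) hf
  obtain ⟨c, rfl⟩ := mw_emb_sec_of_mem hspan hfD
  have hP0 : mw_dot c (mw_vec x P) = 0 := by
    rw [mw_emb_dot_eq_zero_iff hx0 P hpivP c hf0]
    have := (rt_mem_L_iff hf0).mp hf P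
    rw [Finsupp.sub_apply, Finsupp.single_eq_same (a := P)] at this
    omega
  have hQ0 : mw_dot c (mw_vec x Q) ≠ 0 := by
    rw [Ne, mw_emb_dot_eq_zero_iff hx0 Q hpivQ c hf0]
    rw [Finsupp.sub_apply, Finsupp.single_eq_of_ne (a := P) (Ne.symm hPQ), sub_zero] at hordQ
    omega
  intro hw
  apply hQ0
  have hprop : ∀ b, mw_vec x Q b = mw_vec x Q (mw_piv x P) * mw_vec x P b := by
    intro b
    have := congrFun hw (mw_piv x P, b)
    simp only [mw_wedge, Pi.zero_apply, mw_v_vec_piv x hx0 P] at this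
    linear_combination this
  rw [mw_dot] at hP0 ⊢
  calc ∑ b, c b * mw_vec x Q b
      = mw_vec x Q (mw_piv x P) * ∑ b, c b * mw_vec x P b := by
        rw [Finset.mul_sum]
        exact Finset.sum_congr rfl fun b _ => by rw [hprop b]; ring
    _ = 0 := by rw [hP0, mul_zero]

/-! ### Separation of tangent vectors -/

theorem mw_emb_tan {r : ℕ} (x : Fin (r + 1) → mw_F N) (hx : mw_IsRef N x) (P : mw_X N)
    (π : mw_F N) (hπ : P.ord π = 1) :
    mw_wedge (mw_tanAt N x P π) (mw_vec x P) ≠ 0 := by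
  obtain ⟨-, hli, Pinf, k, g, -, -, hex, hspan⟩ := hx
  have hx0 := mw_v_exists_ne_zero hli
  have hdegD : Divisor.degree (Finsupp.single Pinf (k : ℤ) : mw_Div N) = k :=
    rt_degree_single (rt_isSepGen_jBar N) _ _
  have hpivP := mw_emb_ord_piv hx0 hspan P
    (mw_emb_exists_not_mem hex _ P (by rw [hdegD]; linarith))
  obtain ⟨hp0, hpm⟩ := mw_v_piv_spec x hx0 P
  have hπ0 : π ≠ 0 := by
    rintro rfl
    rw [Place.ord_zero] at hπ
    exact zero_ne_one hπ
  -- `f ∈ L(k∞ - P) ∖ L(k∞ - 2P)`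
  have hdegDP : Divisor.degree ((Finsupp.single Pinf (k : ℤ) : mw_Div N) - Finsupp.single P 1)
      = k - 1 := by
    rw [mw_emb_degree_sub, hdegD]
  obtain ⟨f, hf, hf'⟩ := mw_emb_exists_not_mem hex _ P (le_of_eq hdegDP.symm)
  obtain ⟨hf0, hordf⟩ := mw_emb_ord_of_not_mem hf hf'
  rw [Finsupp.sub_apply, Finsupp.single_eq_same (a := P)] at hordf
  obtain ⟨c, rfl⟩ := mw_emb_sec_of_mem hspan (rt_L_mono (mw_emb_sub_le _ P) hf)
  have hdot : mw_dot c (mw_vec x P) = 0 := by
    rw [mw_emb_dot_eq_zero_iff hx0 P hpivP c hf0, hordf]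
    omega
  intro hw
  -- all coordinates of the tangent vector vanish
  have hτp : mw_tanAt N x P π (mw_piv x P) = 0 := by
    simp only [mw_tanAt]
    rw [div_self hp0, mw_v_vec_piv x hx0 P, map_one, sub_self, zero_div, mw_v_zero]
  have hτ : ∀ a, mw_tanAt N x P π a = 0 := by
    intro a
    have := congrFun hw (a, mw_piv x P)
    simp only [mw_wedge, Pi.zero_apply, mw_v_vec_piv x hx0 P, hτp] at this
    linear_combination this
  -- the functions `h_a = (x_a / x_piv - x(P)_a) / π` are regular at `P`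
  set h : Fin (r + 1) → mw_F N := fun a =>
    (x a / x (mw_piv x P) - algebraMap mw_K (mw_F N) (mw_vec x P a)) / π with hh
  have hmem : ∀ a, h a ∈ P.toValuationSubring := by
    intro a
    have hn := mw_v_spec P (hpm a)
    by_cases hn0 : x a / x (mw_piv x P) - algebraMap mw_K (mw_F N) (mw_val P (x a / x (mw_piv x P)))
        = 0
    · have : h a = 0 := by
        simp only [hh, mw_vec]
        rw [hn0, zero_div]
      rw [this]
      exact P.toValuationSubring.zero_mem
    · have hpos := (mw_v_mem_nonunits_iff P hn0).mp hn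
      have hne : h a ≠ 0 := div_ne_zero hn0 hπ0
      rw [mw_v_mem_iff P hne]
      simp only [hh, mw_vec]
      rw [div_eq_mul_inv, Place.ord_mul P hn0 (inv_ne_zero hπ0), Place.ord_inv, hπ]
      omega
  have hval : ∀ a, mw_val P (h a) = 0 := fun a => hτ a
  -- `H = ∑ c_a h_a` is regular with value `0` at `P`
  set H : mw_F N := ∑ a, algebraMap mw_K (mw_F N) (c a) * h a with hH
  have hHmem : H ∈ P.toValuationSubring :=
    P.toValuationSubring.sum_mem fun a _ =>
      P.toValuationSubring.mul_mem _ _ (mw_v_const_mem P _) (hmem a)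
  have hHval : mw_val P H = 0 := by
    rw [hH, mw_v_sum P _ _ fun a _ =>
      P.toValuationSubring.mul_mem _ _ (mw_v_const_mem P _) (hmem a)]
    exact Finset.sum_eq_zero fun a _ => by rw [mw_v_const_mul P _ (hmem a), hval a, mul_zero]
  -- `G_c / x_piv = π H`
  have hkey : mw_sec x c / x (mw_piv x P) = π * H := by
    have e1 : π * H = ∑ a, algebraMap mw_K (mw_F N) (c a)
        * (x a / x (mw_piv x P) - algebraMap mw_K (mw_F N) (mw_vec x P a)) := by
      rw [hH, Finset.mul_sum]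
      refine Finset.sum_congr rfl fun a _ => ?_
      simp only [hh]
      field_simp
    have e2 : ∑ a, algebraMap mw_K (mw_F N) (c a) * algebraMap mw_K (mw_F N) (mw_vec x P a)
        = 0 := by
      have : algebraMap mw_K (mw_F N) (mw_dot c (mw_vec x P)) = 0 := by rw [hdot, map_zero]
      rw [mw_dot, map_sum] at this
      rw [← this]
      exact Finset.sum_congr rfl fun a _ => by rw [map_mul]
    rw [mw_v_sec_div, e1, ← sub_eq_zero, ← Finset.sum_sub_distrib, ← e2]
    exact Finset.sum_congr rfl fun a _ => by ring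
  have hH0 : H ≠ 0 := by
    intro h0
    rw [h0, mul_zero] at hkey
    exact div_ne_zero hf0 hp0 hkey
  have hHpos : 0 < P.ord H :=
    (mw_v_mem_nonunits_iff P hH0).mp ((mw_v_eq_zero_iff P hHmem).mp hHval)
  have hord := congrArg P.ord hkey
  rw [div_eq_mul_inv, Place.ord_mul P hf0 (inv_ne_zero hp0), Place.ord_inv,
    Place.ord_mul P hπ0 hH0, hπ, hordf, hpivP] at hord
  omega

/-! ### The seam -/

variable (N)

/-- **[EMB]** a reference embedding separates points and tangent vectors. -/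
theorem mw_emb : mw_SeamEMB N :=
  fun x hx => ⟨fun P Q hPQ => mw_emb_sep x hx P Q hPQ, fun P π hπ => mw_emb_tan x hx P π hπ⟩

end Fermat.Agent.MW
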