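/-
Project MW (S17), local analytic core, leaf [GM] (`mw_SeamGM`): LOCAL GAUSS–MAHLER for products of
at most `n` linear forms in `m` variables.  Prefix `mw_gm_`.  Owner: helper18.

`‖∏ ⟨U, v_i⟩^{e_i}‖_w = ∏ ‖v_i‖_w^{e_i}` exactly at the finite places (Gauss's lemma) and up to
the factor `γ(n, m) = 2^{d₀} (d₀+1)^{n+1}`, `d₀ = (n+1)(n+2)^m`, at the infinite places (Kronecker
substitution `X_b ↦ T^{(n+2)^b}` + multiplicativity of the Mahler measure + Mahler vs. coefficients).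
The work is in `MW/Core/GM/{Kronecker, OneVar, Core}.lean` (Mathlib only); here: the transfer from
`Q̄`-polynomials with coefficients in `K'` to `K'`-polynomials, and the seam.
-/
import Fermat.Agent.MW.Core.Seams
import Fermat.Agent.MW.Core.GM.Core

set_option autoImplicit false
set_option linter.unusedSectionVars false

noncomputable section

namespace Fermat.Agent.MW

open MvPolynomial
open scoped Classical

section Transfer

variable (K' : IntermediateField ℚ mw_K) (w : AbsoluteValue ↥K' ℝ) {σ : Type} [Fintype σ]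

/-- the coordinates of a vector, moved to `K'` (`0` outside `K'`) -/
def mw_gm_toK (v : σ → mw_K) : σ → ↥K' := fun b => if h : v b ∈ K' then ⟨v b, h⟩ else 0

theorem mw_gm_toK_coe (v : σ → mw_K) (b : σ) (h : v b ∈ K') :
    ((mw_gm_toK K' v b : ↥K') : mw_K) = v b := by
  unfold mw_gm_toK
  rw [dif_pos h]

theorem mw_gm_wabs_eq (v : σ → mw_K) (b : σ) : mw_wabs K' w (v b) = w (mw_gm_toK K' v b) := by
  unfold mw_wabs mw_gm_toK
  split_ifs with h
  · rfl
  · exact (map_zero w).symm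

theorem mw_gm_wabs_coe (x : ↥K') : mw_wabs K' w (x : mw_K) = w x := by
  unfold mw_wabs
  rw [dif_pos x.2]

theorem mw_gm_wnorm_eq (v : σ → mw_K) : mw_wnorm K' w v = ⨆ b, w (mw_gm_toK K' v b) := by
  unfold mw_wnorm
  exact iSup_congr fun b => mw_gm_wabs_eq K' w v b

theorem mw_gm_lin_eq (v : σ → mw_K) (hv : ∀ b, v b ∈ K') :
    mw_lin v = MvPolynomial.map (algebraMap ↥K' mw_K) (mw_gm_lin (mw_gm_toK K' v)) := by
  unfold mw_lin mw_gm_lin
  rw [map_sum]
  refine Finset.sum_congr rfl fun b _ => ?_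
  rw [map_mul, map_C, map_X]
  congr 2
  unfold mw_gm_toK
  rw [dif_pos (hv b)]
  rfl

theorem mw_gm_pnorm_map (q : MvPolynomial σ ↥K') :
    mw_pnorm K' w (MvPolynomial.map (algebraMap ↥K' mw_K) q) = mw_gm_norm w q := by
  unfold mw_pnorm mw_gm_norm
  refine iSup_congr fun a => ?_
  rw [coeff_map]
  exact mw_gm_wabs_coe K' w _

end Transfer

/-- `|log A - log B| ≤ log C` from `A ≤ C B`, `B ≤ C A`, `0 < B`. -/
theorem mw_gm_abs_log_sub_le {A B C₁ C₂ C : ℝ} (hB : 0 < B) (h1 : A ≤ C₁ * B) (h2 : B ≤ C₂ * A)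
    (hC₁ : 0 < C₁) (hC₂ : 0 < C₂) (hC₁C : C₁ ≤ C) (hC₂C : C₂ ≤ C) :
    |Real.log A - Real.log B| ≤ Real.log C := by
  have hA : 0 < A := by
    by_contra hcon
    push Not at hcon
    have : C₂ * A ≤ 0 := mul_nonpos_of_nonneg_of_nonpos hC₂.le hcon
    linarith
  have h3 : Real.log A ≤ Real.log C₁ + Real.log B := by
    rw [← Real.log_mul hC₁.ne' hB.ne']
    exact Real.log_le_log hA h1
  have h4 : Real.log B ≤ Real.log C₂ + Real.log A := by
    rw [← Real.log_mul hC₂.ne' hA.ne']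
    exact Real.log_le_log hB h2
  have h5 : Real.log C₁ ≤ Real.log C := Real.log_le_log hC₁ hC₁C
  have h6 : Real.log C₂ ≤ Real.log C := Real.log_le_log hC₂ hC₂C
  rw [abs_le]
  constructor <;> linarith

/-- **[GM]** local Gauss–Mahler. -/
theorem mw_gm : mw_SeamGM := by
  intro n m
  set d₀ : ℕ := (n + 1) * (n + 2) ^ m with hd₀
  set Cst : ℝ := 2 ^ d₀ * ((d₀ : ℝ) + 1) ^ (n + 1) with hCst
  have hd1 : (1 : ℝ) ≤ (d₀ : ℝ) + 1 := by linarith [Nat.cast_nonneg (α := ℝ) d₀]
  have hCst1 : 1 ≤ Cst := by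
    rw [hCst]
    exact one_le_mul_of_one_le_of_one_le (one_le_pow₀ one_le_two) (one_le_pow₀ hd1)
  refine ⟨Real.log Cst, Real.log_nonneg hCst1, ?_⟩
  intro σ _ hσ K' _ w bnd hbnd ι S e v he hvK hv0
  -- move to `K'`
  set u : ι → σ → ↥K' := fun i => mw_gm_toK K' (v i) with hu
  have hP : ∏ i ∈ S, mw_lin (v i) ^ e i =
      MvPolynomial.map (algebraMap ↥K' mw_K) (∏ i ∈ S, mw_gm_lin (u i) ^ e i) := by
    rw [map_prod]
    refine Finset.prod_congr rfl fun i hi => ?_
    rw [map_pow, mw_gm_lin_eq K' (v i) (hvK i hi)]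
  rw [hP, mw_gm_pnorm_map]
  have hB : ∀ i, mw_wnorm K' w (v i) = ⨆ b, w (u i b) := fun i => mw_gm_wnorm_eq K' w (v i)
  simp_rw [hB]
  have hu0 : ∀ i ∈ S, u i ≠ 0 := by
    intro i hi h0
    apply hv0 i hi
    funext b
    have h1 : u i b = 0 := congrFun h0 b
    have h2 : (u i b : mw_K) = v i b := mw_gm_toK_coe K' (v i) b (hvK i hi b)
    rw [← h2, h1]
    rfl
  have hpos_i : ∀ i ∈ S, 0 < ⨆ b, w (u i b) := by
    intro i hi
    obtain ⟨b, hb⟩ : ∃ b, u i b ≠ 0 := by
      by_contra hcon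
      push Not at hcon
      exact hu0 i hi (funext hcon)
    have h1 : 0 < w (u i b) := w.pos hb
    exact h1.trans_le (le_ciSup (f := fun b => w (u i b)) (Set.finite_range _).bddAbove b)
  have hlogB : Real.log (∏ i ∈ S, (⨆ b, w (u i b)) ^ e i) =
      ∑ i ∈ S, (e i : ℝ) * Real.log (⨆ b, w (u i b)) := by
    rw [Real.log_prod fun i hi => pow_ne_zero _ (hpos_i i hi).ne']
    exact Finset.sum_congr rfl fun i _ => Real.log_pow _ _
  rw [← hlogB]
  rcases hbnd with ⟨harch, rfl⟩ | ⟨hna, p, -, -, rfl⟩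
  · -- archimedean place
    obtain ⟨φ, rfl⟩ : NumberField.IsInfinitePlace w := NumberField.mem_multisetInfinitePlace.mp harch
    obtain ⟨h1, h2⟩ := mw_gm_core_arch φ n S e u he hu0
    rw [hσ] at h1 h2
    have hBpos : 0 < ∏ i ∈ S, (⨆ b, NumberField.place φ (u i b)) ^ e i :=
      Finset.prod_pos fun i hi => pow_pos (hpos_i i hi) _
    have hcast : (((n + 1) * (n + 2) ^ m : ℕ) : ℝ) = (d₀ : ℝ) := by rw [hd₀]
    rw [hcast] at h1 h2
    refine mw_gm_abs_log_sub_le hBpos h1 h2 (by positivity) (by positivity) ?_ ?_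
    · rw [hCst, pow_succ, ← mul_assoc]
      exact le_mul_of_one_le_right (by positivity) hd1
    · rw [hCst]
      refine mul_le_mul_of_nonneg_left ?_ (by positivity)
      calc (d₀ : ℝ) + 1 = ((d₀ : ℝ) + 1) ^ 1 := (pow_one _).symm
        _ ≤ ((d₀ : ℝ) + 1) ^ (n + 1) := pow_le_pow_right₀ hd1 (by omega)
  · -- nonarchimedean place
    have hna' : IsNonarchimedean w := Height.AdmissibleAbsValues.isNonarchimedean w hna
    rw [mw_gm_core_nonarch w hna' S e u, sub_self, abs_zero]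
    simp

end Fermat.Agent.MW
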