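/-
Project MW (S17), core leaf [HOMV]: THE LOCAL HEIGHT ENGINE (from [NSS]).

`ρ_i` multi-homogeneous of the same multidegree, without common zero (all blocks nonzero) on the
zero set of the multi-homogeneous `Gen`.  Then `log max_i |ρ_i(v)|_w = ∑_j deg_j log ‖v_j‖_w + O(bnd w)`
uniformly in `K' ⊇ K₀`, `w`, `v`.

Route: both sides are invariant under blockwise rescaling, so normalise every block to sup norm `1`
with a coordinate equal to `1` (`mw_homv_reduce`); the Nullstellensatz certificate
`(∏_j X_{f j})^e = ∑ q_i ρ_i mod (Gen)` evaluates to `1 = ∑ q_i(u) ρ_i(u)`, and the coefficients of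
`ρ_i`, `q_i` are bounded at every place (`mw_homv_arch_le`, `mw_homv_na_le`).
Prefix `mw_homv_`.
-/
import Fermat.Agent.MW.Core.Seams
import Fermat.Agent.MW.Core.HOMV.Abs
import Fermat.Agent.MW.Core.HOMV.NF

set_option autoImplicit false
set_option linter.unusedSectionVars false

noncomputable section

namespace Fermat.Agent.MW

open MvPolynomial Height
open scoped Classical

section Transfer

variable (K' : IntermediateField ℚ mw_K) (w : AbsoluteValue ↥K' ℝ)

theorem mw_homv_wabs_coe (x : ↥K') : mw_wabs K' w (x : mw_K) = w x := by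
  unfold mw_wabs
  rw [dif_pos x.2]

variable {σ : Type}

/-- lifting a polynomial with coefficients in `K'` -/
theorem mw_homv_lift (p : MvPolynomial σ mw_K) (hp : ∀ m, coeff m p ∈ K') :
    ∃ p' : MvPolynomial σ ↥K', map (algebraMap ↥K' mw_K) p' = p := by
  have h : p ∈ Set.range (map (algebraMap ↥K' mw_K)) := by
    rw [mem_range_map_iff_coeffs_subset]
    intro c hc
    obtain ⟨n, -, rfl⟩ := mem_coeffs_iff.mp (Finset.mem_coe.mp hc)
    exact ⟨⟨coeff n p, hp n⟩, rfl⟩
  exact h

theorem mw_homv_eval_lift (p' : MvPolynomial σ ↥K') (u : σ → ↥K') :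
    eval (fun i => (u i : mw_K)) (map (algebraMap ↥K' mw_K) p') = ((eval u p' : ↥K') : mw_K) := by
  rw [eval_map]
  exact (eval₂_comp (algebraMap ↥K' mw_K) u p').symm

theorem mw_homv_coeff_lift (p' : MvPolynomial σ ↥K') (m : σ →₀ ℕ) :
    ((coeff m p' : ↥K') : mw_K) = coeff m (map (algebraMap ↥K' mw_K) p') := by
  rw [coeff_map]
  rfl

end Transfer

/-- **[HOMV]** -/
theorem mw_homv (hNSS : mw_SeamNSS) : mw_SeamHOMV := by
  intro σ _ t b Gen ι _ ρ deg hGen hρ hnz
  -- the Nullstellensatz certificates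
  obtain ⟨e, he⟩ := hNSS σ t b (Ideal.span Gen) (Set.range ρ) (fun v hvb hv => by
    obtain ⟨i, hi⟩ := hnz v hvb (fun p hp => hv p (Ideal.subset_span hp))
    exact ⟨ρ i, ⟨i, rfl⟩, hi⟩)
  have hcert : ∀ f : Fin t → σ, ∃ q : ι → MvPolynomial σ mw_K, (∀ j, b (f j) = j) →
      ∃ g ∈ Ideal.span Gen, (∏ j, X (f j)) ^ e = ∑ i, q i * ρ i + g := by
    intro f
    by_cases hf : ∀ j, b (f j) = j
    · obtain ⟨y, hy, g, hg, hyg⟩ := Submodule.mem_sup.mp (he f hf)
      obtain ⟨q, hq⟩ := Ideal.mem_span_range_iff_exists_fun.mp hy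
      exact ⟨q, fun _ => ⟨g, hg, by rw [hq, hyg]⟩⟩
    · exact ⟨0, fun h => absurd h hf⟩
  choose q hq using hcert
  -- the finite set of coefficients
  set S : Finset mw_K := (Finset.univ.biUnion fun i => (ρ i).coeffs) ∪
    (Finset.univ.biUnion fun f : Fin t → σ => Finset.univ.biUnion fun i => (q f i).coeffs) with hS
  have hSρ : ∀ i m, coeff m (ρ i) ≠ 0 → coeff m (ρ i) ∈ S := by
    intro i m hm
    refine Finset.mem_union_left _ (Finset.mem_biUnion.mpr ⟨i, Finset.mem_univ _, ?_⟩)
    exact mem_coeffs_iff.mpr ⟨m, mem_support_iff.mpr hm, rfl⟩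
  have hSq : ∀ f i m, coeff m (q f i) ≠ 0 → coeff m (q f i) ∈ S := by
    intro f i m hm
    refine Finset.mem_union_right _ (Finset.mem_biUnion.mpr ⟨f, Finset.mem_univ _,
      Finset.mem_biUnion.mpr ⟨i, Finset.mem_univ _, ?_⟩⟩)
    exact mem_coeffs_iff.mpr ⟨m, mem_support_iff.mpr hm, rfl⟩
  -- the constants
  obtain ⟨dn, hdn, hdnS⟩ := mw_homv_exists_den S
  set K₀ : IntermediateField ℚ mw_K := IntermediateField.adjoin ℚ (S : Set mw_K) with hK₀
  have hK₀fin : FiniteDimensional ℚ ↥K₀ :=
    IntermediateField.finiteDimensional_adjoin (S := (S : Set mw_K))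
      (fun x _ => ((AlgebraicClosure.isAlgebraic ℚ).isAlgebraic x).isIntegral)
  set Hρ : ℝ := ∑ i, ∑ m ∈ (ρ i).support, mw_homv_house (coeff m (ρ i)) with hHρ
  set Hq : ℝ := ∑ f : Fin t → σ, ∑ i, ∑ m ∈ (q f i).support, mw_homv_house (coeff m (q f i))
    with hHq
  refine ⟨Real.log (max 1 Hρ) + Real.log (max 1 Hq), fun p => (padicValNat p dn : ℝ), K₀, hK₀fin,
    add_nonneg (Real.log_nonneg (le_max_left _ _)) (Real.log_nonneg (le_max_left _ _)),
    fun p => Nat.cast_nonneg _, ?_, ?_⟩
  · refine (Finset.range (dn + 1)).finite_toSet.subset fun p hp => ?_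
    have hp' : padicValNat p dn ≠ 0 := fun h => hp (by simp [h])
    have hdvd : p ∣ dn := dvd_of_one_le_padicValNat (Nat.one_le_iff_ne_zero.mpr hp')
    exact Finset.mem_coe.mpr (Finset.mem_range.mpr (Nat.lt_succ_of_le (Nat.le_of_dvd hdn hdvd)))
  intro K' _ w bnd hK hbnd v hvK hvb hvZ
  have hSK : ∀ x ∈ S, x ∈ K' := fun x hx =>
    hK (IntermediateField.subset_adjoin ℚ _ (Finset.mem_coe.mpr hx))
  -- lifts to `K'`
  have hρK : ∀ i m, coeff m (ρ i) ∈ K' := by
    intro i m
    by_cases h : coeff m (ρ i) = 0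
    · rw [h]; exact K'.zero_mem
    · exact hSK _ (hSρ i m h)
  have hqK : ∀ f i m, coeff m (q f i) ∈ K' := by
    intro f i m
    by_cases h : coeff m (q f i) = 0
    · rw [h]; exact K'.zero_mem
    · exact hSK _ (hSq f i m h)
  choose ρ' hρ' using fun i => mw_homv_lift K' (ρ i) (hρK i)
  choose q' hq' using fun f i => mw_homv_lift K' (q f i) (hqK f i)
  set v' : σ → ↥K' := fun i => ⟨v i, hvK i⟩ with hv'
  have hinj : Function.Injective (algebraMap ↥K' mw_K) := (algebraMap ↥K' mw_K).injective
  have hevρ : ∀ (u : σ → ↥K') i,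
      eval (fun i => (u i : mw_K)) (ρ i) = ((eval u (ρ' i) : ↥K') : mw_K) := by
    intro u i
    rw [← hρ' i]
    exact mw_homv_eval_lift K' (ρ' i) u
  have hevq : ∀ (u : σ → ↥K') f i,
      eval (fun i => (u i : mw_K)) (q f i) = ((eval u (q' f i) : ↥K') : mw_K) := by
    intro u f i
    rw [← hq' f i]
    exact mw_homv_eval_lift K' (q' f i) u
  have hcoρ : ∀ i m, ((coeff m (ρ' i) : ↥K') : mw_K) = coeff m (ρ i) := by
    intro i m
    rw [mw_homv_coeff_lift, hρ' i]
  have hcoq : ∀ f i m, ((coeff m (q' f i) : ↥K') : mw_K) = coeff m (q f i) := by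
    intro f i m
    rw [mw_homv_coeff_lift, hq' f i]
  have hsuppρ : ∀ i, (ρ' i).support = (ρ i).support := by
    intro i
    rw [← hρ' i, support_map_of_injective _ hinj]
  have hsuppq : ∀ f i, (q' f i).support = (q f i).support := by
    intro f i
    rw [← hq' f i, support_map_of_injective _ hinj]
  -- multi-homogeneity of the lifts
  have hρ'hom : ∀ i j, (ρ' i).IsWeightedHomogeneous (mw_homv_wt b j) (deg j) := by
    intro i j m hm
    have h1 : coeff m (ρ i) ≠ 0 := by
      rw [← hcoρ i m]
      intro h0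
      exact hm (Subtype.ext h0)
    exact hρ i j h1
  -- the zero set
  set Z : Set (σ → ↥K') := {u | ∀ p ∈ Gen, eval (fun i => (u i : mw_K)) p = 0} with hZdef
  have hZ : ∀ (c : Fin t → ↥K') (u : σ → ↥K'), (∀ j, c j ≠ 0) → u ∈ Z →
      (fun i => c (b i) * u i) ∈ Z := by
    intro c u _ hu p hp
    obtain ⟨d, hd⟩ := hGen p hp
    have h1 := mw_homv_scale b p d hd (fun j => (c j : mw_K)) (fun i => (u i : mw_K))
    have h2 : (fun i => (((c (b i) * u i : ↥K')) : mw_K)) =
        fun i => (c (b i) : mw_K) * (u i : mw_K) := by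
      funext i
      push_cast
      rfl
    rw [h2, h1, hu p hp, mul_zero]
  have hv'Z : v' ∈ Z := fun p hp => hvZ p hp
  have hv'b : ∀ j : Fin t, ∃ i, b i = j ∧ v' i ≠ 0 := by
    intro j
    obtain ⟨i, hi, hvi⟩ := hvb j
    exact ⟨i, hi, fun h0 => hvi (congrArg Subtype.val h0)⟩
  -- the normalised estimate
  have hnorm : ∀ (u : σ → ↥K') (f : Fin t → σ), u ∈ Z → (∀ j, b (f j) = j) →
      (∀ j, u (f j) = 1) → (∀ i, w (u i) ≤ 1) →
      0 < (⨆ i, w (eval u (ρ' i))) ∧ |Real.log (⨆ i, w (eval u (ρ' i)))| ≤ bnd := by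
    intro u f hu hf hpiv hule
    obtain ⟨g, hg, hid⟩ := hq f hf
    have hg0 : eval (fun i => (u i : mw_K)) g = 0 := by
      have hle : Ideal.span Gen ≤ RingHom.ker (eval (fun i => (u i : mw_K))) :=
        Ideal.span_le.mpr fun p hp => RingHom.mem_ker.mpr (hu p hp)
      exact RingHom.mem_ker.mp (hle hg)
    have hid' : ∑ i, eval u (q' f i) * eval u (ρ' i) = 1 := by
      have h1 := congrArg (eval (fun i => (u i : mw_K))) hid
      rw [map_add, hg0, add_zero, map_sum, map_pow, map_prod] at h1
      simp only [eval_X, map_mul, hevρ, hevq, hpiv] at h1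
      apply hinj
      rw [map_sum, map_one]
      simp only [map_mul]
      exact h1.symm.trans (by simp)
    rcases hbnd with ⟨hw, rfl⟩ | ⟨hw, p, hp, hwp, rfl⟩
    · -- archimedean
      refine mw_homv_norm_arch w ρ' (q' f) u hule hid' Hρ Hq (fun i => ?_) ?_
      · have h1 : ∑ m ∈ (ρ' i).support, w (coeff m (ρ' i)) ≤
            ∑ m ∈ (ρ i).support, mw_homv_house (coeff m (ρ i)) := by
          rw [hsuppρ i]
          refine Finset.sum_le_sum fun m _ => ?_
          rw [← hcoρ i m]
          exact mw_homv_arch_le K' w hw _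
        refine h1.trans ?_
        exact Finset.single_le_sum (f := fun i => ∑ m ∈ (ρ i).support,
          mw_homv_house (coeff m (ρ i)))
          (fun i _ => Finset.sum_nonneg fun m _ => mw_homv_house_nonneg _) (Finset.mem_univ i)
      · have h1 : ∑ i, ∑ m ∈ (q' f i).support, w (coeff m (q' f i)) ≤
            ∑ i, ∑ m ∈ (q f i).support, mw_homv_house (coeff m (q f i)) := by
          refine Finset.sum_le_sum fun i _ => ?_
          rw [hsuppq f i]
          refine Finset.sum_le_sum fun m _ => ?_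
          rw [← hcoq f i m]
          exact mw_homv_arch_le K' w hw _
        refine h1.trans ?_
        exact Finset.single_le_sum (f := fun f : Fin t → σ => ∑ i, ∑ m ∈ (q f i).support,
          mw_homv_house (coeff m (q f i)))
          (fun f _ => Finset.sum_nonneg fun i _ => Finset.sum_nonneg fun m _ =>
            mw_homv_house_nonneg _) (Finset.mem_univ f)
    · -- ultrametric
      have hna : IsNonarchimedean w := AdmissibleAbsValues.isNonarchimedean w hw
      have hp0 : 0 < w (p : ↥K') := w.pos (by exact_mod_cast hp.ne_zero)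
      set D : ℝ := ((w (p : ↥K'))⁻¹) ^ padicValNat p dn with hD
      have hD1 : 1 ≤ D := one_le_pow₀ ((one_le_inv₀ hp0).mpr hwp.le)
      have hbound : ∀ x : ↥K', ((x : mw_K) = 0 ∨ (x : mw_K) ∈ S) → w x ≤ D := by
        intro x hx
        rcases hx with hx | hx
        · have : x = 0 := Subtype.ext hx
          rw [this, map_zero]
          exact le_trans zero_le_one hD1
        · exact mw_homv_na_le K' w hw hp hwp hdn x (hdnS _ hx)
      have h1 := mw_homv_norm_na w ρ' (q' f) u hna hule hid' D hD1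
        (fun i m => hbound _ (by
          rw [hcoρ i m]
          by_cases h : coeff m (ρ i) = 0
          · exact Or.inl h
          · exact Or.inr (hSρ i m h)))
        (fun i m => hbound _ (by
          rw [hcoq f i m]
          by_cases h : coeff m (q f i) = 0
          · exact Or.inl h
          · exact Or.inr (hSq f i m h)))
      have h2 : Real.log D = -((padicValNat p dn : ℝ) * Real.log (w (p : ↥K'))) := by
        rw [hD, Real.log_pow, Real.log_inv]
        ring
      rw [← h2]
      exact h1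
  have hmain := mw_homv_reduce w b ρ' deg hρ'hom Z hZ bnd hnorm v' hv'Z hv'b
  -- translate back
  have h1 : (fun i => mw_wabs K' w (eval v (ρ i))) = fun i => w (eval v' (ρ' i)) := by
    funext i
    have := hevρ v' i
    simp only [hv'] at this
    rw [this]
    exact mw_homv_wabs_coe K' w _
  have h2 : ∀ j, mw_blockNorm K' w b j v = mw_homv_blk w b j v' := by
    intro j
    unfold mw_blockNorm mw_wnorm mw_homv_blk
    congr 1
    funext i
    show mw_wabs K' w (if b i = j then v i else 0) = w (if b i = j then v' i else 0)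
    by_cases h : b i = j
    · rw [if_pos h, if_pos h]
      exact mw_homv_wabs_coe K' w (v' i)
    · rw [if_neg h, if_neg h, map_zero]
      have := mw_homv_wabs_coe K' w 0
      simpa using this
  simp only [h1, h2]
  exact hmain

end Fermat.Agent.MW
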