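/-
Project MW (S17), leaf [INC] of the local analytic core (helper24): the certificate identity
evaluated at a place `P`, after division by `π^μ`:  `theorem mw_inc : mw_SeamINC N`.

Route: specialise the certificate at `c = cc` (`INC/Poly.lean`), rescale `x`, `y` by their pivots at
`P` (multi-homogeneity), push (B1) through the general hyperplane through `x/x_piv`
(`INC/Prod.lean`), split off the factor at `P`, which is `π^μ` times the tangent form, cancel `π^μ`
against `G_cc/y_piv = π^μ ℓ`, descend the identity of `F[U]` to `O_P[U]` and apply the evaluation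
`O_P → Q̄` coefficientwise (`INC/Place.lean`).  Prefix `mw_inc_`.
-/
import Fermat.Agent.MW.Core.Seams2
import Fermat.Agent.MW.Core.INC.Prod
import Fermat.Agent.MW.Core.INC.Place

set_option autoImplicit false
set_option linter.unusedSectionVars false

noncomputable section

namespace Fermat.Agent.MW

open AlgebraicCurve ModularCurve MvPolynomial
open scoped Classical

variable {N : ℕ} [NeZero N] {r s : ℕ}

/-- the certificate identity at `c = cc` after rescaling `x = xp • xF`, `y = yp • yF` -/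
theorem mw_inc_cert_scaled {x : Fin (r + 1) → mw_F N} {y : Fin (s + 1) → mw_F N}
    {R : MvPolynomial (Fin (s + 1) ⊕ Fin (r + 1)) mw_K} {k a : ℕ}
    {R2 : Fin (s + 1) → MvPolynomial (mw_Var4 r s) mw_K}
    (hR : mw_IsBihom R k a) (hcert : mw_IsCert N x y R k a R2)
    {xp yp : mw_F N} (hxp : xp ≠ 0) (hyp : yp ≠ 0) (xF : Fin (r + 1) → mw_F N)
    (yF : Fin (s + 1) → mw_F N) (hxF : x = fun b => xp * xF b) (hyF : y = fun i => yp * yF i)
    (cc : Fin (s + 1) → mw_K) (hsec : mw_sec y cc ≠ 0) (j : Fin (s + 1)) :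
    C (yF j) ^ k * mw_inc_rt cc xF R = C (mw_sec y cc / yp) * mw_inc_qv cc xF yF (R2 j) := by
  subst hxF hyF
  have h := mw_inc_cert_at hcert cc j
  have hrt := mw_inc_rt_smul cc xp xF R a hR.2
  have hqv := mw_inc_qv_smul cc xp yp xF yF (R2 j) _ (hcert j).1
  have hd2 : (![k - 1, a, a, k - 1] : Fin 4 → ℕ) 2 = a := rfl
  have hd3 : (![k - 1, a, a, k - 1] : Fin 4 → ℕ) 3 = k - 1 := rfl
  rw [hd2, hd3] at hqv
  set sec := mw_sec (fun i => yp * yF i) cc with hsecdef
  rcases Nat.eq_zero_or_pos k with hk | hk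
  · subst hk
    have h0 := mw_inc_cert_at hcert 0 j
    have hsec0 : mw_sec (fun i => yp * yF i) 0 = 0 := by simp [mw_sec]
    rw [hsec0, map_zero, zero_mul, pow_zero, one_mul, ← mw_inc_rt_zero cc _ R hR.1] at h0
    have hrt0 : mw_inc_rt cc xF R = 0 := by
      rw [hrt] at h0
      exact (mul_eq_zero.mp h0).resolve_left (C_ne_zero.mpr (pow_ne_zero _ hxp))
    have hqv0 : mw_inc_qv cc xF yF (R2 j) = 0 := by
      rw [h0, mul_zero] at h
      have h1 := (mul_eq_zero.mp h.symm).resolve_left (C_ne_zero.mpr hsec)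
      rw [hqv] at h1
      exact (mul_eq_zero.mp h1).resolve_left
        (C_ne_zero.mpr (mul_ne_zero (pow_ne_zero _ hxp) (pow_ne_zero _ hyp)))
    rw [hrt0, hqv0, mul_zero, mul_zero]
  · obtain ⟨k', rfl⟩ := Nat.exists_eq_succ_of_ne_zero hk.ne'
    rw [hrt, hqv] at h
    apply mul_left_cancel₀ (a := (C (yp ^ (k' + 1) * xp ^ a) :
      MvPolynomial (Fin (r + 1) × Fin (r + 1)) (mw_F N)))
      (C_ne_zero.mpr (mul_ne_zero (pow_ne_zero _ hyp) (pow_ne_zero _ hxp)))
    have e : sec = yp * (sec / yp) := by field_simp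
    calc C (yp ^ (k' + 1) * xp ^ a) * (C (yF j) ^ (k' + 1) * mw_inc_rt cc xF R)
        = C (yp * yF j) ^ (k' + 1) * (C (xp ^ a) * mw_inc_rt cc xF R) := by
          simp only [map_mul, map_pow]; ring
      _ = C sec * (C (xp ^ a * yp ^ (k' + 1 - 1)) * mw_inc_qv cc xF yF (R2 j)) := h
      _ = C (yp ^ (k' + 1) * xp ^ a) * (C (sec / yp) * mw_inc_qv cc xF yF (R2 j)) := by
          rw [Nat.add_sub_cancel]
          conv_lhs => rw [e]
          simp only [map_mul, map_pow]; ring

/-- the identity in `F[U]` after cancelling `π^μ` (pure algebra over a field `F'`) -/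
theorem mw_inc_identity_F {F' : Type} [Field F'] [Algebra mw_K F'] {ι' : Type}
    (pts : ι' → Fin (r + 1) → mw_K) (Z : ι' → ℕ) (hfin : {z | Z z ≠ 0}.Finite) (P : ι')
    (k μ : ℕ) (A₀ : mw_K) (yFj G lF π : F') (xF tF : Fin (r + 1) → F')
    (RT QV : MvPolynomial (Fin (r + 1) × Fin (r + 1)) F')
    (hI : C yFj ^ k * RT = C G * QV)
    (hB1 : RT = C (algebraMap mw_K F' A₀) *
      ∏ᶠ z, mw_inc_lin (mw_inc_wedge xF fun b => algebraMap mw_K F' (pts z b)) ^ Z z)
    (hZP : Z P = μ)
    (htan : mw_inc_lin (mw_inc_wedge xF fun b => algebraMap mw_K F' (pts P b)) ^ μ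
      = C (π ^ μ) * mw_inc_lin (mw_inc_wedge tF fun b => algebraMap mw_K F' (pts P b)) ^ μ)
    (hG : G = π ^ μ * lF) (hπμ : π ^ μ ≠ 0) :
    mw_inc_L pts Z P k μ A₀ yFj xF tF = C lF * QV := by
  apply mul_left_cancel₀ (a := (C (π ^ μ) : MvPolynomial (Fin (r + 1) × Fin (r + 1)) F'))
    (C_ne_zero.mpr hπμ)
  rw [← mul_assoc, ← map_mul, ← hG, ← hI, hB1,
    mw_inc_finprod_split Z hfin P
      (fun z => mw_inc_lin (mw_inc_wedge xF fun b => algebraMap mw_K F' (pts z b))),
    hZP, htan, mw_inc_L]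
  simp only [map_mul, map_pow]
  ring

/-- **[INC]** the certificate identity evaluated at a place. -/
theorem mw_inc (N : ℕ) [NeZero N] : mw_SeamINC N := by
  intro r x hx Pinf hPinf a s y hy R k hR R2 hcert cc P π μ A₀ hcc hμ hπ hB1 j
  have hxli : LinearIndependent mw_K x := hx.2.1
  have hyli : LinearIndependent mw_K y := hy.1
  have hxe := mw_v_exists_ne_zero hxli
  have hye := mw_v_exists_ne_zero hyli
  obtain ⟨hxp, hxm⟩ := mw_v_piv_spec x hxe P
  obtain ⟨hyp, hym⟩ := mw_v_piv_spec y hye P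
  have hsec := mw_v_sec_ne_zero hyli hcc
  have hfin : {z : mw_X N | (mw_zeroMult y cc z).toNat ≠ 0}.Finite :=
    (mw_inc_finite_zeroMult hyli hcc).subset fun z hz h0 => hz (by rw [h0]; rfl)
  -- elements of the valuation ring
  obtain ⟨tt, htt⟩ : ∃ tt : Fin (r + 1) → ↥P.toValuationSubring, 1 ≤ μ → ∀ b,
      (tt b : mw_F N)
        = (x b / x (mw_piv x P) - algebraMap mw_K (mw_F N) (mw_vec x P b)) / π := by
    by_cases h : 1 ≤ μ
    · exact ⟨fun b => ⟨_, mw_inc_tan_mem x hxe (hπ h) b⟩, fun _ b => rfl⟩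
    · exact ⟨fun _ => 0, fun h' => absurd h' h⟩
  -- the identity in `F[U]`
  have hI := mw_inc_cert_scaled hR.1 hcert hxp hyp (fun b => x b / x (mw_piv x P))
    (fun i => y i / y (mw_piv y P)) (funext fun b => by field_simp)
    (funext fun i => by field_simp) cc hsec j
  have hB1F := mw_inc_rt_B1 (B := mw_F N) cc (fun b => x b / x (mw_piv x P)) R
    (fun z => mw_vec x z) (fun z => (mw_zeroMult y cc z).toNat) hfin A₀ hB1
  have hπμ : π ^ μ ≠ 0 := by
    rcases Nat.eq_zero_or_pos μ with h0 | hpos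
    · rw [h0, pow_zero]; exact one_ne_zero
    · exact pow_ne_zero _ (mw_inc_pi_ne_zero (hπ hpos))
  have htan : mw_inc_lin (mw_inc_wedge (fun b => x b / x (mw_piv x P))
        fun b => algebraMap mw_K (mw_F N) (mw_vec x P b)) ^ μ
      = C (π ^ μ) * mw_inc_lin (mw_inc_wedge (fun b => (tt b : mw_F N))
        fun b => algebraMap mw_K (mw_F N) (mw_vec x P b)) ^ μ := by
    rcases Nat.eq_zero_or_pos μ with h0 | hpos
    · rw [h0, pow_zero, pow_zero, pow_zero, map_one, one_mul]
    · have hπ0 := mw_inc_pi_ne_zero (hπ hpos)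
      rw [mw_inc_wedge_tan π (fun b => x b / x (mw_piv x P)) (fun b => (tt b : mw_F N)) _
        (fun b => by rw [htt hpos b]; field_simp; ring), mw_inc_lin_smul, mul_pow, map_pow]
  have hF := mw_inc_identity_F (fun z => mw_vec x z) (fun z => (mw_zeroMult y cc z).toNat) hfin P
    k μ A₀ (y j / y (mw_piv y P)) (mw_sec y cc / y (mw_piv y P))
    (mw_sec y cc / y (mw_piv y P) / π ^ μ) π (fun b => x b / x (mw_piv x P))
    (fun b => (tt b : mw_F N)) _ _ hI hB1F (by rw [hμ]; rfl) htan (by field_simp) hπμ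
  -- descend to `O_P[U]`
  have hO : mw_inc_L (fun z => mw_vec x z) (fun z => (mw_zeroMult y cc z).toNat) P k μ A₀
      (⟨_, hym j⟩ : ↥P.toValuationSubring) (fun b => (⟨_, hxm b⟩ : ↥P.toValuationSubring)) tt
      = C (⟨_, mw_inc_lc_mem hyli hcc hμ hπ⟩ : ↥P.toValuationSubring)
        * mw_inc_qv cc (fun b => (⟨_, hxm b⟩ : ↥P.toValuationSubring))
          (fun i => (⟨_, hym i⟩ : ↥P.toValuationSubring)) (R2 j) := by
    apply MvPolynomial.map_injective (mw_inc_iota P : ↥P.toValuationSubring →+* mw_F N)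
      (mw_inc_iota_injective P)
    rw [mw_inc_map_L (mw_inc_iota P) _ _ hfin, map_mul, map_C, mw_inc_map_qv]
    exact hF
  -- evaluate at `P`
  have hK := congrArg (map (mw_inc_eps P : ↥P.toValuationSubring →+* mw_K)) hO
  rw [mw_inc_map_L (mw_inc_eps P) _ _ hfin, map_mul, map_C, mw_inc_map_qv] at hK
  rcases Nat.eq_zero_or_pos μ with h0 | hpos
  · subst h0
    rw [mw_inc_L, pow_zero] at hK
    rw [pow_zero]
    exact hK
  · have htan' : (fun b => mw_inc_eps P (tt b)) = mw_tanAt N x P π :=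
      funext fun b => by rw [mw_inc_eps_apply, htt hpos b]; rfl
    rw [htan'] at hK
    exact hK

end Fermat.Agent.MW
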