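/-
Project MW (S17): auxiliary lemmas on the local objects `mw_wabs`, `mw_wnorm`, `mw_pnorm`,
`mw_IsBound`, rationality of coefficients (helper7).  Prefix `mw_la_`.
-/
import Fermat.Agent.MW.Core.Seams

set_option autoImplicit false
set_option linter.unusedSectionVars false

noncomputable section

namespace Fermat.Agent.MW

open AlgebraicCurve ModularCurve MvPolynomial
open scoped Classical

variable (K' : IntermediateField ℚ mw_K) (w : AbsoluteValue ↥K' ℝ)

/-! ### `mw_wabs` -/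

theorem mw_la_wabs_of_mem {z : mw_K} (h : z ∈ K') : mw_wabs K' w z = w ⟨z, h⟩ := by
  rw [mw_wabs, dif_pos h]

theorem mw_la_wabs_of_not_mem {z : mw_K} (h : z ∉ K') : mw_wabs K' w z = 0 := by
  rw [mw_wabs, dif_neg h]

theorem mw_la_wabs_nonneg (z : mw_K) : 0 ≤ mw_wabs K' w z := by
  by_cases h : z ∈ K'
  · rw [mw_la_wabs_of_mem K' w h]; exact w.nonneg _
  · rw [mw_la_wabs_of_not_mem K' w h]

@[simp] theorem mw_la_wabs_zero : mw_wabs K' w 0 = 0 := by
  rw [mw_la_wabs_of_mem K' w K'.zero_mem]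
  exact w.map_zero

theorem mw_la_wabs_pos {z : mw_K} (h : z ∈ K') (h0 : z ≠ 0) : 0 < mw_wabs K' w z := by
  rw [mw_la_wabs_of_mem K' w h]
  exact w.pos (fun h' => h0 (by simpa using congrArg Subtype.val h'))

/-- multiplicativity as soon as ONE factor lies in `K'` -/
theorem mw_la_wabs_mul {a : mw_K} (ha : a ∈ K') (b : mw_K) :
    mw_wabs K' w (a * b) = mw_wabs K' w a * mw_wabs K' w b := by
  by_cases h0 : a = 0
  · subst h0; simp
  by_cases hb : b ∈ K'
  · rw [mw_la_wabs_of_mem K' w ha, mw_la_wabs_of_mem K' w hb,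
      mw_la_wabs_of_mem K' w (K'.mul_mem ha hb), ← w.map_mul]
    rfl
  · have hab : a * b ∉ K' := by
      intro h
      apply hb
      have := K'.mul_mem (K'.inv_mem ha) h
      rwa [← mul_assoc, inv_mul_cancel₀ h0, one_mul] at this
    rw [mw_la_wabs_of_not_mem K' w hb, mw_la_wabs_of_not_mem K' w hab, mul_zero]

theorem mw_la_wabs_pow {a : mw_K} (ha : a ∈ K') (n : ℕ) :
    mw_wabs K' w (a ^ n) = mw_wabs K' w a ^ n := by
  induction n with
  | zero =>
    rw [pow_zero, pow_zero, mw_la_wabs_of_mem K' w K'.one_mem]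
    exact w.map_one
  | succ n ih => rw [pow_succ, pow_succ, mul_comm, mw_la_wabs_mul K' w ha, ih, mul_comm]

/-! ### `mw_wnorm` -/

theorem mw_la_le_wnorm {ι : Type} [Fintype ι] (v : ι → mw_K) (i : ι) :
    mw_wabs K' w (v i) ≤ mw_wnorm K' w v :=
  le_ciSup (Set.finite_range fun i => mw_wabs K' w (v i)).bddAbove i

theorem mw_la_wnorm_nonneg {ι : Type} [Fintype ι] (v : ι → mw_K) : 0 ≤ mw_wnorm K' w v :=
  Real.iSup_nonneg fun i => mw_la_wabs_nonneg K' w (v i)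

theorem mw_la_wnorm_pos {ι : Type} [Fintype ι] {v : ι → mw_K} (hv : v ≠ 0)
    (hK : ∀ i, v i ∈ K') : 0 < mw_wnorm K' w v := by
  obtain ⟨i, hi⟩ : ∃ i, v i ≠ 0 := by
    by_contra h
    push Not at h
    exact hv (funext h)
  exact lt_of_lt_of_le (mw_la_wabs_pos K' w (hK i) hi) (mw_la_le_wnorm K' w v i)

theorem mw_la_exists_eq_wnorm {ι : Type} [Fintype ι] [Nonempty ι] (v : ι → mw_K) :
    ∃ i, mw_wabs K' w (v i) = mw_wnorm K' w v := by
  obtain ⟨i, hi⟩ := exists_eq_ciSup_of_finite (f := fun i => mw_wabs K' w (v i))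
  exact ⟨i, hi⟩

/-! ### rational polynomials -/

/-- all coefficients of `p` lie in `K'` -/
def mw_la_Rat {σ : Type} (p : MvPolynomial σ mw_K) : Prop := ∀ m, p.coeff m ∈ K'

variable {K'}

theorem mw_la_rat_C {σ : Type} {c : mw_K} (hc : c ∈ K') : mw_la_Rat K' (C c : MvPolynomial σ mw_K) := by
  intro m
  rw [coeff_C]
  split_ifs
  · exact hc
  · exact K'.zero_mem

theorem mw_la_rat_X {σ : Type} (i : σ) : mw_la_Rat K' (X i : MvPolynomial σ mw_K) := by
  intro m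
  rw [coeff_X']
  split_ifs
  · exact K'.one_mem
  · exact K'.zero_mem

theorem mw_la_rat_zero {σ : Type} : mw_la_Rat K' (0 : MvPolynomial σ mw_K) := fun m => by
  rw [coeff_zero]; exact K'.zero_mem

theorem mw_la_rat_one {σ : Type} : mw_la_Rat K' (1 : MvPolynomial σ mw_K) := by
  have := mw_la_rat_C (σ := σ) K'.one_mem
  rwa [C_1] at this

theorem mw_la_rat_add {σ : Type} {p q : MvPolynomial σ mw_K} (hp : mw_la_Rat K' p)
    (hq : mw_la_Rat K' q) : mw_la_Rat K' (p + q) := fun m => by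
  rw [coeff_add]; exact K'.add_mem (hp m) (hq m)

theorem mw_la_rat_sub {σ : Type} {p q : MvPolynomial σ mw_K} (hp : mw_la_Rat K' p)
    (hq : mw_la_Rat K' q) : mw_la_Rat K' (p - q) := fun m => by
  rw [coeff_sub]; exact K'.sub_mem (hp m) (hq m)

theorem mw_la_rat_mul {σ : Type} {p q : MvPolynomial σ mw_K} (hp : mw_la_Rat K' p)
    (hq : mw_la_Rat K' q) : mw_la_Rat K' (p * q) := fun m => by
  rw [coeff_mul]
  exact K'.sum_mem fun x _ => K'.mul_mem (hp _) (hq _)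

theorem mw_la_rat_sum {σ ι : Type} (s : Finset ι) {p : ι → MvPolynomial σ mw_K}
    (hp : ∀ i ∈ s, mw_la_Rat K' (p i)) : mw_la_Rat K' (∑ i ∈ s, p i) := by
  induction s using Finset.induction_on with
  | empty => simpa using mw_la_rat_zero
  | insert a s ha ih =>
    rw [Finset.sum_insert ha]
    exact mw_la_rat_add (hp a (Finset.mem_insert_self a s))
      (ih fun i hi => hp i (Finset.mem_insert_of_mem hi))

theorem mw_la_rat_prod {σ ι : Type} (s : Finset ι) {p : ι → MvPolynomial σ mw_K}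
    (hp : ∀ i ∈ s, mw_la_Rat K' (p i)) : mw_la_Rat K' (∏ i ∈ s, p i) := by
  induction s using Finset.induction_on with
  | empty => simpa using mw_la_rat_one
  | insert a s ha ih =>
    rw [Finset.prod_insert ha]
    exact mw_la_rat_mul (hp a (Finset.mem_insert_self a s))
      (ih fun i hi => hp i (Finset.mem_insert_of_mem hi))

theorem mw_la_rat_pow {σ : Type} {p : MvPolynomial σ mw_K} (hp : mw_la_Rat K' p) (n : ℕ) :
    mw_la_Rat K' (p ^ n) := by
  induction n with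
  | zero => simpa using mw_la_rat_one
  | succ n ih => rw [pow_succ]; exact mw_la_rat_mul ih hp

theorem mw_la_rat_lin {σ : Type} [Fintype σ] {v : σ → mw_K} (hv : ∀ b, v b ∈ K') :
    mw_la_Rat K' (mw_lin v) :=
  mw_la_rat_sum _ fun b _ => mw_la_rat_mul (mw_la_rat_C (hv b)) (mw_la_rat_X b)

/-- substitution of rational polynomials into a rational polynomial -/
theorem mw_la_rat_aeval {σ τ : Type} [Fintype σ] {p : MvPolynomial σ mw_K} (hp : mw_la_Rat K' p)
    {g : σ → MvPolynomial τ mw_K} (hg : ∀ i, mw_la_Rat K' (g i)) :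
    mw_la_Rat K' (aeval g p) := by
  rw [aeval_def, eval₂_eq']
  refine mw_la_rat_sum _ fun d _ => mw_la_rat_mul ?_ (mw_la_rat_prod _ fun i _ => mw_la_rat_pow (hg i) _)
  rw [algebraMap_eq]
  exact mw_la_rat_C (hp d)

variable (K')

/-! ### `mw_pnorm` -/

theorem mw_la_le_pnorm {σ : Type} (p : MvPolynomial σ mw_K) (m : σ →₀ ℕ) :
    mw_wabs K' w (p.coeff m) ≤ mw_pnorm K' w p := by
  refine le_ciSup (f := fun m => mw_wabs K' w (p.coeff m)) ?_ m
  have : (Set.range fun m => mw_wabs K' w (p.coeff m)) ⊆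
      insert 0 ((fun m => mw_wabs K' w (p.coeff m)) '' (p.support : Set (σ →₀ ℕ))) := by
    rintro _ ⟨m, rfl⟩
    by_cases hm : m ∈ p.support
    · exact Or.inr ⟨m, hm, rfl⟩
    · left
      show mw_wabs K' w (p.coeff m) = 0
      rw [notMem_support_iff.mp hm, mw_la_wabs_zero]
  exact ((Set.Finite.image _ p.support.finite_toSet).insert 0).bddAbove.mono this

theorem mw_la_pnorm_nonneg {σ : Type} (p : MvPolynomial σ mw_K) : 0 ≤ mw_pnorm K' w p :=
  Real.iSup_nonneg fun m => mw_la_wabs_nonneg K' w _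

theorem mw_la_pnorm_pos {σ : Type} {p : MvPolynomial σ mw_K} (hp : p ≠ 0)
    (hK : mw_la_Rat K' p) : 0 < mw_pnorm K' w p := by
  obtain ⟨m, hm⟩ := ne_zero_iff.mp hp
  exact lt_of_lt_of_le (mw_la_wabs_pos K' w (hK m) hm) (mw_la_le_pnorm K' w p m)

theorem mw_la_pnorm_C_mul {σ : Type} {c : mw_K} (hc : c ∈ K') (p : MvPolynomial σ mw_K) :
    mw_pnorm K' w (C c * p) = mw_wabs K' w c * mw_pnorm K' w p := by
  rw [mw_pnorm, mw_pnorm, Real.mul_iSup_of_nonneg (mw_la_wabs_nonneg K' w c)]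
  congr 1
  funext m
  rw [coeff_C_mul, mw_la_wabs_mul K' w hc]

/-! ### `mw_IsBound` -/

variable [NumberField ↥K']

/-- an admissible bound for the sum of the constants splits into admissible bounds -/
theorem mw_la_bound_split {γ₁ γ₂ : ℝ} {c₁ c₂ : ℕ → ℝ} {bnd : ℝ}
    (h : mw_IsBound K' w (γ₁ + γ₂) (fun p => c₁ p + c₂ p) bnd) :
    ∃ b₁ b₂ : ℝ, mw_IsBound K' w γ₁ c₁ b₁ ∧ mw_IsBound K' w γ₂ c₂ b₂ ∧ b₁ + b₂ = bnd := by
  rcases h with ⟨ha, rfl⟩ | ⟨hn, p, hp, hlt, rfl⟩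
  · exact ⟨γ₁, γ₂, Or.inl ⟨ha, rfl⟩, Or.inl ⟨ha, rfl⟩, rfl⟩
  · exact ⟨-(c₁ p * Real.log (w (p : ↥K'))), -(c₂ p * Real.log (w (p : ↥K'))),
      Or.inr ⟨hn, p, hp, hlt, rfl⟩, Or.inr ⟨hn, p, hp, hlt, rfl⟩, by ring⟩

theorem mw_la_bound_zero_split {γ₁ γ₂ : ℝ} {c₂ : ℕ → ℝ} {bnd : ℝ}
    (h : mw_IsBound K' w (γ₁ + γ₂) c₂ bnd) :
    ∃ b₁ b₂ : ℝ, mw_IsBound K' w γ₁ (fun _ => 0) b₁ ∧ mw_IsBound K' w γ₂ c₂ b₂ ∧ b₁ + b₂ = bnd := by
  have h' : mw_IsBound K' w (γ₁ + γ₂) (fun p => (fun _ => (0 : ℝ)) p + c₂ p) bnd := by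
    simpa using h
  exact mw_la_bound_split K' w h'

end Fermat.Agent.MW
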