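/-
Project MW (S17): THE ASSEMBLY OF THE MASTER LOCAL THEOREM `[KLμ]` (helper7):
`mw_SeamGM → mw_SeamSYL N → mw_SeamRESa N → mw_SeamRESb N → mw_SeamEMB N → mw_SeamINC N →
  mw_SeamKLmu N`.  Prefix `mw_klmu_`.
-/
import Fermat.Agent.MW.Core.Seams2
import Fermat.Agent.MW.Core.Val
import Fermat.Agent.MW.Core.LocalAux
import Fermat.Agent.JT3.S18Div

set_option autoImplicit false
set_option linter.unusedSectionVars false

noncomputable section

namespace Fermat.Agent.MW

open AlgebraicCurve ModularCurve MvPolynomial Fermat.Agent.S24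
open scoped Classical

/-! ### linear forms -/

theorem mw_klmu_coeff_lin {σ : Type} [Fintype σ] (v : σ → mw_K) (b : σ) :
    (mw_lin v).coeff (Finsupp.single b 1) = v b := by
  rw [mw_lin, coeff_sum]
  rw [Finset.sum_eq_single b]
  · rw [coeff_C_mul, coeff_X, if_pos rfl, mul_one]
  · intro c _ hcb
    rw [coeff_C_mul, coeff_X, if_neg, mul_zero]
    intro h
    apply hcb
    exact (Finsupp.single_left_injective one_ne_zero h)
  · intro h; exact absurd (Finset.mem_univ b) h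

theorem mw_klmu_lin_ne_zero {σ : Type} [Fintype σ] {v : σ → mw_K} (hv : v ≠ 0) :
    mw_lin v ≠ 0 := by
  obtain ⟨b, hb⟩ : ∃ b, v b ≠ 0 := by
    by_contra h
    push Not at h
    exact hv (funext h)
  intro h0
  apply hb
  rw [← mw_klmu_coeff_lin v b, h0, coeff_zero]

theorem mw_klmu_lin_hom {σ : Type} [Fintype σ] (v : σ → mw_K) : (mw_lin v).IsHomogeneous 1 := by
  rw [mw_lin]
  exact IsHomogeneous.sum _ _ _ fun b _ => isHomogeneous_C_mul_X _ _

/-! ### homogeneity of `R(cc, ·)` -/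

theorem mw_klmu_subL_hom {α β : Type} [Fintype α] [Fintype β]
    {R : MvPolynomial (α ⊕ β) mw_K} {k a : ℕ}
    (hR : mw_IsBihom R k a) (cc : α → mw_K) : (mw_subL cc R).IsHomogeneous a := by
  rw [mw_subL, aeval_def, eval₂_eq']
  refine IsHomogeneous.sum _ _ _ fun d hd => ?_
  have hda : ∑ b, d (Sum.inr b) = a := by
    have := hR.2 (mem_support_iff.mp hd)
    rw [← this]
    simp [Finsupp.weight_apply, Finsupp.sum_fintype, Fintype.sum_sum_type]
  rw [Fintype.prod_sum_type]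
  simp only [Sum.elim_inl, Sum.elim_inr]
  have h1 : (algebraMap mw_K (MvPolynomial β mw_K) (R.coeff d)
      * ((∏ j, (C (cc j) : MvPolynomial β mw_K) ^ d (Sum.inl j)) * ∏ b, (X b) ^ d (Sum.inr b)))
      = C (R.coeff d * ∏ j, cc j ^ d (Sum.inl j)) * ∏ b, (X b : MvPolynomial β mw_K) ^ d (Sum.inr b) := by
    rw [algebraMap_eq, C_mul, map_prod, mul_assoc]
    simp only [map_pow]
  rw [h1, ← zero_add a]
  refine IsHomogeneous.mul (isHomogeneous_C _ _) ?_
  rw [← hda]
  exact IsHomogeneous.prod _ _ _ fun b _ => isHomogeneous_X_pow _ _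


/-! ### finiteness of the zero divisor of a section -/

variable {N : ℕ} [NeZero N]

theorem mw_klmu_finite_ord (f : mw_F N) : {z : mw_X N | z.ord f ≠ 0}.Finite :=
  Fermat.Agent.JT3.jt_finite_ord_ne_zero (K := mw_K) (br_jBar N) f

theorem mw_klmu_finite_zeroMult {s : ℕ} (ψ : Fin (s + 1) → mw_F N) (hψ : ∀ b, ψ b ≠ 0)
    (cc : Fin (s + 1) → mw_K) (hsec : mw_sec ψ cc ≠ 0) :
    {z : mw_X N | mw_zeroMult ψ cc z ≠ 0}.Finite := by
  have h1 := mw_klmu_finite_ord (mw_sec ψ cc)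
  have h2 : (⋃ b, {z : mw_X N | z.ord (ψ b) ≠ 0}).Finite :=
    Set.finite_iUnion fun b => mw_klmu_finite_ord (ψ b)
  refine (h1.union h2).subset fun z hz => ?_
  by_contra hcon
  simp only [Set.mem_union, Set.mem_ofPred_eq, Set.mem_iUnion, not_or, not_exists, not_not]
    at hcon
  apply hz
  rw [mw_zeroMult, div_eq_mul_inv, Place.ord_mul z hsec (inv_ne_zero (hψ _)), Place.ord_inv,
    hcon.1, hcon.2]
  simp


/-! ### real bookkeeping -/

theorem mw_klmu_final {k a Lc Ly LxP LA Llc lp1 lp2 lq T1 T2 b1 b2 ba bb : ℝ}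
    (h1 : |lp1 - T1| ≤ b1) (ha : |LA + lp1 - k * Lc| ≤ ba) (h2 : |lp2 - T2| ≤ b2)
    (hb : |lq - (k * Lc - Lc + a * LxP + (k * Ly - Ly))| ≤ bb)
    (hid : k * Ly + LA + lp2 = Llc + lq) :
    |(Llc - Lc - Ly) - (T2 - T1 - a * LxP)| ≤ b1 + b2 + ba + bb := by
  rw [abs_le] at *
  constructor <;> linarith [h1.1, h1.2, ha.1, ha.2, h2.1, h2.2, hb.1, hb.2]

theorem mw_klmu_sum_erase {ι : Type} (S : Finset ι) (P : ι) (Z : ι → ℕ) (t : ι → ℝ) (μ : ℕ)
    (hP : Z P = μ) (hS : P ∉ S → μ = 0) :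
    ∑ z ∈ S, (Z z : ℝ) * t z = ∑ z ∈ S.erase P, (Z z : ℝ) * t z + (μ : ℝ) * t P := by
  by_cases h : P ∈ S
  · rw [← Finset.sum_erase_add _ _ h, hP]
  · rw [Finset.erase_eq_of_notMem h, hS h]
    simp

theorem mw_klmu_natsum_erase {ι : Type} (S : Finset ι) (P : ι) (Z : ι → ℕ) (μ : ℕ)
    (hP : Z P = μ) (hS : P ∉ S → μ = 0) :
    ∑ z ∈ S, Z z = ∑ z ∈ S.erase P, Z z + μ := by
  by_cases h : P ∈ S
  · rw [← Finset.sum_erase_add _ _ h, hP]
  · rw [Finset.erase_eq_of_notMem h, hS h]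
    simp


/-! ### the assembly -/

variable (N)

/-- **[KLμ] from its seams.** -/
theorem mw_klmu (hGM : mw_SeamGM) (hSYL : mw_SeamSYL N) (hRa : mw_SeamRESa N)
    (hRb : mw_SeamRESb N) (hEMB : mw_SeamEMB N) (hINC : mw_SeamINC N) : mw_SeamKLmu N := by
  intro r x hx Pinf hPinf
  obtain ⟨a1, h1⟩ := hSYL x hx Pinf hPinf
  obtain ⟨a2, h2⟩ := hRb x hx Pinf hPinf
  refine ⟨max a1 a2, fun a ha s y hy => ?_⟩
  obtain ⟨R, k, hR⟩ := h1 a (le_trans (le_max_left _ _) ha) y hy
  obtain ⟨γa, cpa, Ka, hKa, hγa, hcpa, hfa, Ha⟩ := hRa x hx Pinf hPinf a y hy R k hR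
  obtain ⟨R2, hCert, γb, cpb, Kb, hKb, hγb, hcpb, hfb, Hb⟩ :=
    h2 a (le_trans (le_max_right _ _) ha) y hy R k hR
  obtain ⟨γ1, hγ1, G1⟩ := hGM a (r + 1)
  obtain ⟨γ2, hγ2, G2⟩ := hGM a ((r + 1) * (r + 1))
  obtain ⟨hsep, himm⟩ := hEMB x hx
  have hxlin : LinearIndependent mw_K x := hx.2.1
  have hxne : ∃ b, x b ≠ 0 := mw_v_exists_ne_zero hxlin
  have hyne : ∃ b, y b ≠ 0 := mw_v_exists_ne_zero hy.1
  -- the field of the coefficients of `R`
  let KR : IntermediateField ℚ mw_K :=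
    IntermediateField.adjoin ℚ (↑(R.support.image fun d => R.coeff d) : Set mw_K)
  have : FiniteDimensional ℚ ↥KR :=
    IntermediateField.finiteDimensional_adjoin
      (fun z _ => ((AlgebraicClosure.isAlgebraic ℚ).isAlgebraic z).isIntegral)
  have := hKa
  have := hKb
  refine ⟨γ1 + (γ2 + (γa + γb)), fun p => cpa p + cpb p, Ka ⊔ Kb ⊔ KR, inferInstance,
    by positivity, fun p => add_nonneg (hcpa p) (hcpb p), ?_, ?_⟩
  · refine (hfa.union hfb).subset fun p hp => ?_
    by_contra hcon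
    simp only [Set.mem_union, Set.mem_ofPred_eq, not_or, not_not] at hcon
    exact hp (by show cpa p + cpb p = 0; rw [hcon.1, hcon.2, add_zero])
  intro K' _ w bnd hK₀ hbnd cc P π μ hcc hμ hπ hccK hxPK hyPK hzK htanK hlcK
  -- split the bound
  obtain ⟨b1, bnd', hb1, hbnd', hsum1⟩ := mw_la_bound_zero_split K' w hbnd
  obtain ⟨b2, bnd'', hb2, hbnd'', hsum2⟩ := mw_la_bound_zero_split K' w hbnd'
  obtain ⟨ba, bb, hba, hbb, hsum3⟩ := mw_la_bound_split K' w hbnd''
  have hKa' : Ka ≤ K' := le_trans (le_trans le_sup_left le_sup_left) hK₀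
  have hKb' : Kb ≤ K' := le_trans (le_trans le_sup_right le_sup_left) hK₀
  have hKR' : KR ≤ K' := le_trans le_sup_right hK₀
  -- rationality of `R`
  have hRrat : mw_la_Rat K' R := by
    intro d
    by_cases hd : d ∈ R.support
    · exact hKR' (IntermediateField.subset_adjoin ℚ _
        (Finset.mem_coe.mpr (Finset.mem_image.mpr ⟨d, hd, rfl⟩)))
    · rw [notMem_support_iff.mp hd]; exact K'.zero_mem
  -- the section and its zero divisor
  have hsec : mw_sec y cc ≠ 0 := mw_v_sec_ne_zero hy.1 hcc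
  have hfin := mw_klmu_finite_zeroMult y (fun b => hy.1.ne_zero b) cc hsec
  set S : Finset (mw_X N) := hfin.toFinset with hS
  have hmemS : ∀ z, z ∈ S ↔ mw_zeroMult y cc z ≠ 0 := fun z => by
    rw [hS, Set.Finite.mem_toFinset]; rfl
  set Z : mw_X N → ℕ := fun z => (mw_zeroMult y cc z).toNat with hZ
  have hZcast : ∀ z, ((Z z : ℕ) : ℝ) = ((mw_zeroMult y cc z : ℤ) : ℝ) := fun z => by
    have h0 := mw_v_zeroMult_nonneg y hyne z hsec
    have : ((Z z : ℕ) : ℤ) = mw_zeroMult y cc z := Int.toNat_of_nonneg h0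
    rw [← this]; simp
  have hZP : Z P = μ := by rw [hZ]; simp [hμ]
  have hPS : P ∉ S → μ = 0 := fun h => by
    have := (not_iff_not.mpr (hmemS P)).mp h
    rw [not_not, hμ] at this
    exact_mod_cast this
  have hZout : ∀ z, z ∉ S → Z z = 0 := fun z hz => by
    have := (not_iff_not.mpr (hmemS z)).mp hz
    rw [not_not] at this
    rw [hZ]; simp [this]
  -- (B1)
  obtain ⟨A₀, hA₀, hB1⟩ := hR.2.1 cc hcc
  have hfp1 : (∏ᶠ z : mw_X N, mw_lin (mw_vec x z) ^ (mw_zeroMult y cc z).toNat)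
      = ∏ z ∈ S, mw_lin (mw_vec x z) ^ Z z := by
    apply finprod_eq_prod_of_mulSupport_subset
    intro z hz
    rw [Function.mem_mulSupport] at hz
    by_contra hzS
    apply hz
    have := hZout z hzS
    rw [hZ] at this
    simp only at this
    rw [this, pow_zero]
  set p1 : MvPolynomial (Fin (r + 1)) mw_K := ∏ z ∈ S, mw_lin (mw_vec x z) ^ Z z with hp1
  have hB1' : mw_subL cc R = C A₀ * p1 := by rw [hB1, hfp1]
  have hxzK : ∀ z ∈ S, ∀ b, mw_vec x z b ∈ K' := fun z hz => hzK z ((hmemS z).mp hz)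
  have hp1rat : mw_la_Rat K' p1 :=
    mw_la_rat_prod _ fun z hz => mw_la_rat_pow (mw_la_rat_lin (hxzK z hz)) _
  have hp1ne : p1 ≠ 0 :=
    Finset.prod_ne_zero_iff.mpr fun z _ =>
      pow_ne_zero _ (mw_klmu_lin_ne_zero (mw_v_vec_ne_zero x hxne z))
  -- degree count
  have hdeg : ∑ z ∈ S, Z z = a := by
    have h1 : (mw_subL cc R).IsHomogeneous a := mw_klmu_subL_hom hR.1 cc
    have h2 : (C A₀ * p1).IsHomogeneous (0 + ∑ z ∈ S, Z z) := by
      refine IsHomogeneous.mul (isHomogeneous_C _ _) ?_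
      rw [hp1]
      refine IsHomogeneous.prod _ _ _ fun z _ => ?_
      have := (mw_klmu_lin_hom (mw_vec x z)).pow (Z z)
      rwa [one_mul] at this
    rw [hB1', zero_add] at *
    have hne : C A₀ * p1 ≠ 0 := mul_ne_zero (by simpa using hA₀) hp1ne
    exact (IsHomogeneous.inj_right h1 h2 hne).symm
  -- `A₀ ∈ K'`
  have hsubLrat : mw_la_Rat K' (mw_subL cc R) := by
    rw [mw_subL]
    refine mw_la_rat_aeval hRrat fun i => ?_
    rcases i with j | b
    · exact mw_la_rat_C (hccK j)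
    · exact mw_la_rat_X b
  have hA₀K : A₀ ∈ K' := by
    obtain ⟨m, hm⟩ := ne_zero_iff.mp hp1ne
    have h1 := hsubLrat m
    rw [hB1', coeff_C_mul] at h1
    have := K'.mul_mem h1 (K'.inv_mem (hp1rat m))
    rwa [mul_assoc, mul_inv_cancel₀ hm, mul_one] at this
  -- positivity of the basic norms
  have hxPne : mw_vec x P ≠ 0 := mw_v_vec_ne_zero x hxne P
  have hyPne : mw_vec y P ≠ 0 := mw_v_vec_ne_zero y hyne P
  have hxPpos : 0 < mw_wnorm K' w (mw_vec x P) := mw_la_wnorm_pos K' w hxPne hxPK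
  have hyPpos : 0 < mw_wnorm K' w (mw_vec y P) := mw_la_wnorm_pos K' w hyPne hyPK
  have hccpos : 0 < mw_wnorm K' w cc := mw_la_wnorm_pos K' w hcc hccK
  have hA₀pos : 0 < mw_wabs K' w A₀ := mw_la_wabs_pos K' w hA₀K hA₀
  have hp1pos : 0 < mw_pnorm K' w p1 := mw_la_pnorm_pos K' w hp1ne hp1rat
  -- the leading coefficient is nonzero
  have hlcne : mw_lcAt N y cc P π μ ≠ 0 := by
    obtain ⟨hpiv, -⟩ := mw_v_piv_spec y hyne P
    have hq : mw_sec y cc / y (mw_piv y P) ≠ 0 := div_ne_zero hsec hpiv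
    rw [mw_lcAt]
    rcases Nat.eq_zero_or_pos μ with h0 | h0
    · subst h0
      rw [pow_zero, div_one]
      apply mw_v_ne_zero_of_ord_eq_zero P hq
      have := hμ
      rw [mw_zeroMult] at this
      simpa using this
    · have hπ1 := hπ h0
      have hπne : π ≠ 0 := by
        intro h; rw [h, Place.ord_zero] at hπ1; exact zero_ne_one hπ1
      apply mw_v_ne_zero_of_ord_eq_zero P (div_ne_zero hq (pow_ne_zero _ hπne))
      rw [div_eq_mul_inv, Place.ord_mul P hq (inv_ne_zero (pow_ne_zero _ hπne)), Place.ord_inv,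
        ← zpow_natCast, Place.ord_zpow, hπ1]
      have := hμ
      rw [mw_zeroMult] at this
      rw [this]; ring
  have hlcpos : 0 < mw_wabs K' w (mw_lcAt N y cc P π μ) := mw_la_wabs_pos K' w hlcK hlcne
  -- the index `j`
  obtain ⟨j, hj⟩ := mw_la_exists_eq_wnorm K' w (mw_vec y P)
  -- the second product
  set S₀ : Finset (mw_X N) := S.erase P with hS₀
  let ones : Fin (r + 1) × Fin (r + 1) → mw_K := fun _ => 1
  set vN : Fin (r + 1) × Fin (r + 1) → mw_K :=
    if 1 ≤ μ then mw_wedge (mw_tanAt N x P π) (mw_vec x P) else ones with hvN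
  set v' : Option (mw_X N) → Fin (r + 1) × Fin (r + 1) → mw_K :=
    fun o => o.elim vN (fun z => mw_wedge (mw_vec x P) (mw_vec x z)) with hv'
  set e' : Option (mw_X N) → ℕ := fun o => o.elim μ Z with he'
  set P2 : MvPolynomial (Fin (r + 1) × Fin (r + 1)) mw_K :=
    ∏ o ∈ Finset.insertNone S₀, mw_lin (v' o) ^ e' o with hP2
  have hP2' : P2 = mw_lin vN ^ μ *
      ∏ z ∈ S₀, mw_lin (mw_wedge (mw_vec x P) (mw_vec x z)) ^ Z z := by
    rw [hP2, Finset.prod_insertNone]
    rfl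
  have hwedgeK : ∀ u v : Fin (r + 1) → mw_K, (∀ b, u b ∈ K') → (∀ b, v b ∈ K') →
      ∀ q, mw_wedge u v q ∈ K' := fun u v hu hv q =>
    K'.sub_mem (K'.mul_mem (hu _) (hv _)) (K'.mul_mem (hu _) (hv _))
  have hvNK : ∀ q, vN q ∈ K' := by
    intro q
    rw [hvN]
    split_ifs with h
    · exact hwedgeK _ _ (htanK h) hxPK q
    · exact K'.one_mem
  have hvNne : vN ≠ 0 := by
    rw [hvN]
    split_ifs with h
    · exact himm P π (hπ h)
    · intro h0
      have := congrFun h0 (0, 0)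
      exact one_ne_zero this
  have hv'K : ∀ o ∈ Finset.insertNone S₀, ∀ q, v' o q ∈ K' := by
    intro o ho q
    cases o with
    | none => exact hvNK q
    | some z =>
      have hz : z ∈ S₀ := by simpa using ho
      exact hwedgeK _ _ hxPK (hxzK z (Finset.mem_of_mem_erase hz)) q
  have hv'ne : ∀ o ∈ Finset.insertNone S₀, v' o ≠ 0 := by
    intro o ho
    cases o with
    | none => exact hvNne
    | some z =>
      have hz : z ∈ S₀ := by simpa using ho
      exact hsep P z (Ne.symm (Finset.ne_of_mem_erase hz))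
  have hsum' : ∑ o ∈ Finset.insertNone S₀, e' o ≤ a := by
    rw [Finset.sum_insertNone, ← hdeg, mw_klmu_natsum_erase S P Z μ hZP hPS]
    show μ + ∑ x ∈ S.erase P, Z x ≤ _
    rw [add_comm]
  have hP2rat : mw_la_Rat K' P2 :=
    mw_la_rat_prod _ fun o ho => mw_la_rat_pow (mw_la_rat_lin (hv'K o ho)) _
  have hP2ne : P2 ≠ 0 :=
    Finset.prod_ne_zero_iff.mpr fun o ho => pow_ne_zero _ (mw_klmu_lin_ne_zero (hv'ne o ho))
  have hP2pos : 0 < mw_pnorm K' w P2 := mw_la_pnorm_pos K' w hP2ne hP2rat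
  -- [INC]
  have hinc := hINC x hx Pinf hPinf a y hy R k hR R2 hCert cc P π μ A₀ hcc hμ hπ hB1 j
  have hfp2 : (∏ᶠ z : mw_X N, if z = P then (1 : MvPolynomial (Fin (r + 1) × Fin (r + 1)) mw_K)
        else mw_lin (mw_wedge (mw_vec x P) (mw_vec x z)) ^ (mw_zeroMult y cc z).toNat)
      = ∏ z ∈ S₀, mw_lin (mw_wedge (mw_vec x P) (mw_vec x z)) ^ Z z := by
    rw [finprod_eq_prod_of_mulSupport_subset (s := S₀)]
    · refine Finset.prod_congr rfl fun z hz => ?_
      rw [if_neg (Finset.ne_of_mem_erase hz)]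
    · intro z hz
      rw [Function.mem_mulSupport] at hz
      by_contra hzS
      apply hz
      by_cases hzP : z = P
      · rw [if_pos hzP]
      · rw [if_neg hzP]
        have hzS' : z ∉ S := fun h => hzS (Finset.mem_coe.mpr (Finset.mem_erase.mpr ⟨hzP, h⟩))
        have := hZout z hzS'
        rw [hZ] at this
        simp only at this
        rw [this, pow_zero]
  have hlinN : mw_lin (mw_wedge (mw_tanAt N x P π) (mw_vec x P)) ^ μ = mw_lin vN ^ μ := by
    rw [hvN]
    split_ifs with h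
    · rfl
    · have : μ = 0 := by omega
      rw [this, pow_zero, pow_zero]
  set Q : MvPolynomial (Fin (r + 1) × Fin (r + 1)) mw_K :=
    mw_quotVal cc (mw_vec x P) (mw_vec y P) (R2 j) with hQ
  have hinc' : C (mw_vec y P j ^ k * A₀) * P2 = C (mw_lcAt N y cc P π μ) * Q := by
    rw [← hinc, hfp2, hlinN, hP2']
    ring
  -- norms of both sides
  have hyjK : mw_vec y P j ∈ K' := hyPK j
  have hnorm : mw_wnorm K' w (mw_vec y P) ^ k * mw_wabs K' w A₀ * mw_pnorm K' w P2
      = mw_wabs K' w (mw_lcAt N y cc P π μ) * mw_pnorm K' w Q := by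
    have hpk : mw_vec y P j ^ k ∈ K' := pow_mem hyjK k
    have : mw_pnorm K' w (C (mw_vec y P j ^ k * A₀) * P2)
        = mw_pnorm K' w (C (mw_lcAt N y cc P π μ) * Q) := by rw [hinc']
    rw [mw_la_pnorm_C_mul K' w (K'.mul_mem hpk hA₀K),
      mw_la_pnorm_C_mul K' w hlcK, mw_la_wabs_mul K' w hpk,
      mw_la_wabs_pow K' w hyjK, hj] at this
    exact this
  have hQpos : 0 < mw_pnorm K' w Q := by
    have hl : 0 < mw_wnorm K' w (mw_vec y P) ^ k * mw_wabs K' w A₀ * mw_pnorm K' w P2 := by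
      positivity
    rw [hnorm] at hl
    exact (pos_iff_pos_of_mul_pos hl).mp hlcpos
  have hid : (k : ℝ) * Real.log (mw_wnorm K' w (mw_vec y P)) + Real.log (mw_wabs K' w A₀)
      + Real.log (mw_pnorm K' w P2)
      = Real.log (mw_wabs K' w (mw_lcAt N y cc P π μ)) + Real.log (mw_pnorm K' w Q) := by
    have := congrArg Real.log hnorm
    rw [Real.log_mul (by positivity) hP2pos.ne', Real.log_mul (by positivity) hA₀pos.ne',
      Real.log_pow, Real.log_mul hlcpos.ne' hQpos.ne'] at this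
    exact this
  -- the four estimates
  have e1 := G1 (Fin (r + 1)) (by simp) K' w b1 hb1 (mw_X N) S Z (fun z => mw_vec x z)
    hdeg.le hxzK (fun z _ => mw_v_vec_ne_zero x hxne z)
  have e2 := G2 (Fin (r + 1) × Fin (r + 1)) (by simp) K' w b2 hb2 (Option (mw_X N))
    (Finset.insertNone S₀) e' v' hsum' hv'K hv'ne
  have ea := Ha K' w ba hKa' hba cc hcc hccK
  have eb := Hb K' w bb hKb' hbb cc P hcc hccK hxPK hyPK j hj
  rw [hB1', mw_la_pnorm_C_mul K' w hA₀K, Real.log_mul hA₀pos.ne' hp1pos.ne'] at ea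
  rw [← hp1] at e1
  rw [← hP2] at e2
  rw [← hQ] at eb
  clear_value S Z p1 P2 Q
  clear hinc hinc' hfp1 hfp2 Ha Hb G1 G2 h1 h2 hR hCert
  -- the logarithm of the left side
  have hlogdiv : Real.log (mw_wabs K' w (mw_lcAt N y cc P π μ)
        / (mw_wnorm K' w cc * mw_wnorm K' w (mw_vec y P)))
      = Real.log (mw_wabs K' w (mw_lcAt N y cc P π μ)) - Real.log (mw_wnorm K' w cc)
        - Real.log (mw_wnorm K' w (mw_vec y P)) := by
    rw [Real.log_div hlcpos.ne' (mul_pos hccpos hyPpos).ne', Real.log_mul hccpos.ne' hyPpos.ne']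
    ring
  have hκ : (μ : ℝ) * Real.log (mw_kappa N K' w x P π)
      = (μ : ℝ) * (Real.log (mw_wnorm K' w vN)
          - 2 * Real.log (mw_wnorm K' w (mw_vec x P))) := by
    rcases Nat.eq_zero_or_pos μ with h0 | h0
    · rw [h0]; simp
    · have h1μ : 1 ≤ μ := h0
      have hvN' : vN = mw_wedge (mw_tanAt N x P π) (mw_vec x P) := by rw [hvN, if_pos h1μ]
      have hpos : 0 < mw_wnorm K' w vN := mw_la_wnorm_pos K' w hvNne hvNK
      rw [mw_kappa, ← hvN', Real.log_div hpos.ne' (pow_pos hxPpos 2).ne', Real.log_pow]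
      norm_num
  have hfs : (∑ᶠ z : mw_X N, if z = P then (0 : ℝ) else
        (mw_zeroMult y cc z : ℝ) * Real.log (mw_delta K' w (mw_vec x P) (mw_vec x z)))
      = ∑ z ∈ S₀, (Z z : ℝ) *
          (Real.log (mw_wnorm K' w (mw_wedge (mw_vec x P) (mw_vec x z)))
            - (Real.log (mw_wnorm K' w (mw_vec x P))
                + Real.log (mw_wnorm K' w (mw_vec x z)))) := by
    rw [finsum_eq_sum_of_support_subset (s := S₀)]
    · refine Finset.sum_congr rfl fun z hz => ?_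
      have hzP := Finset.ne_of_mem_erase hz
      have hzS := Finset.mem_of_mem_erase hz
      rw [if_neg hzP, ← hZcast z, mw_delta]
      have hwp : 0 < mw_wnorm K' w (mw_wedge (mw_vec x P) (mw_vec x z)) :=
        mw_la_wnorm_pos K' w (hsep P z (Ne.symm hzP)) (hwedgeK _ _ hxPK (hxzK z hzS))
      have hzp : 0 < mw_wnorm K' w (mw_vec x z) :=
        mw_la_wnorm_pos K' w (mw_v_vec_ne_zero x hxne z) (hxzK z hzS)
      rw [Real.log_div hwp.ne' (mul_pos hxPpos hzp).ne', Real.log_mul hxPpos.ne' hzp.ne']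
    · intro z hz
      rw [Function.mem_support] at hz
      by_contra hzS
      apply hz
      by_cases hzP : z = P
      · rw [if_pos hzP]
      · rw [if_neg hzP]
        have hzS' : z ∉ S := fun h => hzS (Finset.mem_coe.mpr (Finset.mem_erase.mpr ⟨hzP, h⟩))
        have := (not_iff_not.mpr (hmemS z)).mp hzS'
        rw [not_not] at this
        rw [this]; simp
  have hT1 := mw_klmu_sum_erase S P Z (fun z => Real.log (mw_wnorm K' w (mw_vec x z))) μ hZP hPS
  have hT2 : ∑ i ∈ Finset.insertNone S₀, (e' i : ℝ) * Real.log (mw_wnorm K' w (v' i))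
      = (μ : ℝ) * Real.log (mw_wnorm K' w vN)
        + ∑ z ∈ S₀, (Z z : ℝ) *
            Real.log (mw_wnorm K' w (mw_wedge (mw_vec x P) (mw_vec x z))) := by
    rw [Finset.sum_insertNone]
    rfl
  have ha' : (a : ℝ) = ∑ z ∈ S₀, (Z z : ℝ) + μ := by
    rw [← hdeg, mw_klmu_natsum_erase S P Z μ hZP hPS]
    push_cast
    rfl
  have eb' : |Real.log (mw_pnorm K' w Q) -
        ((k : ℝ) * Real.log (mw_wnorm K' w cc) - Real.log (mw_wnorm K' w cc)
          + (a : ℝ) * Real.log (mw_wnorm K' w (mw_vec x P))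
          + ((k : ℝ) * Real.log (mw_wnorm K' w (mw_vec y P))
              - Real.log (mw_wnorm K' w (mw_vec y P))))| ≤ bb := by
    have hrw : ((k : ℝ) * Real.log (mw_wnorm K' w cc) - Real.log (mw_wnorm K' w cc)
          + (a : ℝ) * Real.log (mw_wnorm K' w (mw_vec x P))
          + ((k : ℝ) * Real.log (mw_wnorm K' w (mw_vec y P))
              - Real.log (mw_wnorm K' w (mw_vec y P))))
        = (((k : ℝ) - 1) * Real.log (mw_wnorm K' w cc)
          + (a : ℝ) * Real.log (mw_wnorm K' w (mw_vec x P))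
          + ((k : ℝ) - 1) * Real.log (mw_wnorm K' w (mw_vec y P))) := by ring
    rw [hrw]
    exact eb
  have hfinal := mw_klmu_final e1 ea e2 eb' hid
  rw [hlogdiv, hκ, hfs, ← hsum1, ← hsum2, ← hsum3]
  have hcomb : (μ : ℝ) * (Real.log (mw_wnorm K' w vN)
          - 2 * Real.log (mw_wnorm K' w (mw_vec x P)))
      + ∑ z ∈ S₀, (Z z : ℝ) *
          (Real.log (mw_wnorm K' w (mw_wedge (mw_vec x P) (mw_vec x z)))
            - (Real.log (mw_wnorm K' w (mw_vec x P))
                + Real.log (mw_wnorm K' w (mw_vec x z))))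
      = ∑ i ∈ Finset.insertNone S₀, (e' i : ℝ) * Real.log (mw_wnorm K' w (v' i))
        - ∑ z ∈ S, (Z z : ℝ) * Real.log (mw_wnorm K' w (mw_vec x z))
        - (a : ℝ) * Real.log (mw_wnorm K' w (mw_vec x P)) := by
    rw [hT2, hT1, ha', add_mul, Finset.sum_mul]
    simp only [mul_sub, mul_add, Finset.sum_sub_distrib, Finset.sum_add_distrib]
    ring
  rw [hcomb]
  calc _ ≤ b1 + b2 + ba + bb := hfinal
    _ = b1 + (b2 + (ba + bb)) := by ring

end Fermat.Agent.MW
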