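/-
Project MW (S17), local analytic core, leaf [NSS] (`mw_SeamNSS`): the multi-projective
Nullstellensatz.  Prefix `mw_nss`.  Owner: helper18.

`J := (Φ) + I`.  A product `∏_j X_{f j}` of one variable per block vanishes on the zero locus of `J`
(a zero of `J` has a vanishing block, by hypothesis), hence lies in `rad J` by Hilbert's
Nullstellensatz over the algebraically closed field `Q̄`; take the maximum of the exponents over the
finitely many `f`.
-/
import Fermat.Agent.MW.Core.Seams

set_option autoImplicit false

noncomputable section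

namespace Fermat.Agent.MW

open MvPolynomial

/-- **[NSS]** the multi-projective Nullstellensatz. -/
theorem mw_nss : mw_SeamNSS := by
  intro σ _ t b I Φ hΦ
  classical
  set J : Ideal (MvPolynomial σ mw_K) := Ideal.span Φ ⊔ I with hJ
  -- every product of one variable per block lies in the radical of `J`
  have hrad : ∀ f : Fin t → σ, (∀ j, b (f j) = j) → (∏ j, (X (f j) : MvPolynomial σ mw_K)) ∈ J.radical := by
    intro f hf
    rw [← vanishingIdeal_zeroLocus_eq_radical (K := mw_K), mem_vanishingIdeal_iff]
    intro v hv
    rw [mem_zeroLocus_iff] at hv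
    by_contra hne
    have hblocks : ∀ j : Fin t, ∃ i, b i = j ∧ v i ≠ 0 := by
      intro j
      refine ⟨f j, hf j, fun h0 => hne ?_⟩
      rw [map_prod]
      exact Finset.prod_eq_zero (Finset.mem_univ j) (by rw [aeval_X, h0])
    obtain ⟨φ, hφ, hφv⟩ := hΦ v hblocks (fun p hp => by
      have := hv p (Ideal.mem_sup_right hp)
      rwa [aeval_eq_eval] at this)
    apply hφv
    have := hv φ (Ideal.mem_sup_left (Ideal.subset_span hφ))
    rwa [aeval_eq_eval] at this
  -- choose exponents and take their maximum
  have hex : ∀ f : Fin t → σ, ∃ e : ℕ, (∀ j, b (f j) = j) →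
      (∏ j, (X (f j) : MvPolynomial σ mw_K)) ^ e ∈ J := by
    intro f
    by_cases hf : ∀ j, b (f j) = j
    · obtain ⟨e, he⟩ := hrad f hf
      exact ⟨e, fun _ => he⟩
    · exact ⟨0, fun h => absurd h hf⟩
  choose e he using hex
  refine ⟨Finset.univ.sup e, fun f hf => ?_⟩
  have hle : e f ≤ Finset.univ.sup e := Finset.le_sup (Finset.mem_univ f)
  obtain ⟨d, hd⟩ := Nat.exists_eq_add_of_le hle
  rw [hd, pow_add]
  exact Ideal.mul_mem_right _ _ (he f hf)

end Fermat.Agent.MW
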