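/-
Project MW (S17), local core, leaf [RESa] (helper24): `‖R(c,·)‖_w ≍ ‖c‖_w^k` from [HOMV] with one
block.  Prefix `mw_resa_`.  Deliverable: `mw_resa`.
-/
import Fermat.Agent.MW.Core.Seams

set_option autoImplicit false

noncomputable section

namespace Fermat.Agent.MW

open AlgebraicCurve ModularCurve MvPolynomial
open scoped Classical

/-! ### polynomials in two blocks of variables as polynomials in the second block -/

section Poly

variable {K : Type} [CommRing K] {α β : Type}

/-- `K[c, u] → K[c][u]` -/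
def mw_resa_iter : MvPolynomial (α ⊕ β) K →ₐ[K] MvPolynomial β (MvPolynomial α K) :=
  aeval (Sum.elim (fun j => C (X j)) (fun b => X b))

theorem mw_resa_iter_monomial (d : α →₀ ℕ) (m : β →₀ ℕ) (a : K) :
    mw_resa_iter (monomial (Finsupp.sumElim d m) a) = monomial m (monomial d a) := by
  unfold mw_resa_iter
  rw [aeval_monomial, Finsupp.prod_sumElim]
  simp only [Function.comp_def, Sum.elim_inl, Sum.elim_inr]
  rw [monomial_eq (a := monomial d a), monomial_eq (a := a), map_mul, map_finsuppProd]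
  simp only [map_pow, mul_assoc]
  rfl

/-- substituting constants for the first block = evaluating the coefficients -/
theorem mw_resa_subL_eq (c : α → K) (p : MvPolynomial (α ⊕ β) K) :
    aeval (Sum.elim (fun j => C (c j)) (fun b => X b)) p =
      (MvPolynomial.map (eval c) (mw_resa_iter p) : MvPolynomial β K) := by
  have h : (aeval (Sum.elim (fun j => C (c j)) (fun b => X b)) :
      MvPolynomial (α ⊕ β) K →ₐ[K] MvPolynomial β K).toRingHom =
      (MvPolynomial.map (eval c)).comp (mw_resa_iter (K := K) (α := α) (β := β)).toRingHom := by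
    apply MvPolynomial.ringHom_ext
    · intro a
      simp [mw_resa_iter]
    · rintro (j | b) <;> simp [mw_resa_iter]
  exact congrArg (fun f => f p) h

theorem mw_resa_coeff_subL (c : α → K) (p : MvPolynomial (α ⊕ β) K) (m : β →₀ ℕ) :
    coeff m (aeval (Sum.elim (fun j => C (c j)) (fun b => X b)) p : MvPolynomial β K) =
      eval c (coeff m (mw_resa_iter p)) := by
  rw [mw_resa_subL_eq, coeff_map]

/-- the coefficients (in `K[c]`) of a polynomial homogeneous of degree `k` in the first block are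
homogeneous of degree `k` -/
theorem mw_resa_coeff_homog (p : MvPolynomial (α ⊕ β) K) (k : ℕ)
    (hp : p.IsWeightedHomogeneous (Sum.elim (fun _ => 1) (fun _ => 0) : α ⊕ β → ℕ) k)
    (m : β →₀ ℕ) :
    (coeff m (mw_resa_iter p)).IsWeightedHomogeneous (fun _ => 1 : α → ℕ) k := by
  have hsum : coeff m (mw_resa_iter p) =
      ∑ n ∈ p.support, coeff m (mw_resa_iter (monomial n (coeff n p))) := by
    conv_lhs => rw [← support_sum_monomial_coeff p]
    rw [map_sum, coeff_sum]
  rw [hsum]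
  refine IsWeightedHomogeneous.sum _ _ _ ?_
  intro n hn
  have hn0 : coeff n p ≠ 0 := mem_support_iff.1 hn
  have hw := hp hn0
  rw [← Finsupp.comapDomain_sumElim_comapDomain n] at hw ⊢
  set d' := Finsupp.comapDomain Sum.inl n Sum.inl_injective.injOn
  set m' := Finsupp.comapDomain Sum.inr n Sum.inr_injective.injOn
  rw [mw_resa_iter_monomial, coeff_monomial]
  split_ifs
  · refine isWeightedHomogeneous_monomial _ _ _ ?_
    rw [Finsupp.weight_apply] at hw ⊢
    rw [Finsupp.sum_sumElim] at hw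
    simpa [Function.comp_def, Finsupp.sum] using hw
  · exact isWeightedHomogeneous_zero _ _ _

end Poly

/-! ### the vectors `mw_vec ψ P` are nonzero -/

section Vec

variable {N : ℕ}

theorem mw_resa_lin_ne_zero {σ : Type} [Fintype σ] {v : σ → mw_K} (hv : v ≠ 0) :
    mw_lin v ≠ 0 := by
  obtain ⟨b, hb⟩ := Function.ne_iff.1 hv
  intro h
  apply hb
  have h1 : coeff (Finsupp.single b 1) (mw_lin v) = v b := by
    unfold mw_lin
    rw [coeff_sum, Finset.sum_eq_single b]
    · rw [coeff_C_mul, coeff_X, if_pos rfl, mul_one]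
    · intro b' _ hb'
      rw [coeff_C_mul, coeff_X, if_neg, mul_zero]
      intro h'
      exact hb' (Finsupp.single_left_injective one_ne_zero h')
    · intro hb'
      exact absurd (Finset.mem_univ b) hb'
  rw [← h1, h, coeff_zero]
  rfl

/-- the pivot exists as soon as some `ψ b ≠ 0` -/
theorem mw_resa_piv_spec {s : ℕ} (ψ : Fin (s + 1) → mw_F N) (P : mw_X N) (h0 : ∃ b, ψ b ≠ 0) :
    ψ (mw_piv ψ P) ≠ 0 ∧ ∀ a, ψ a / ψ (mw_piv ψ P) ∈ P.toValuationSubring := by
  have hex : ∃ b, ψ b ≠ 0 ∧ ∀ a, ψ a / ψ b ∈ P.toValuationSubring := by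
    obtain ⟨b₀, -, hb₀⟩ := Finset.exists_max_image Finset.univ
      (fun b => P.toValuationSubring.valuation (ψ b)) Finset.univ_nonempty
    obtain ⟨b₁, hb₁⟩ := h0
    have hne : ψ b₀ ≠ 0 := by
      intro h
      have h1 := hb₀ b₁ (Finset.mem_univ _)
      rw [h, map_zero] at h1
      exact hb₁ ((map_eq_zero _).1 (le_antisymm h1 zero_le))
    refine ⟨b₀, hne, fun a => ?_⟩
    rw [← ValuationSubring.valuation_le_one_iff, map_div₀]
    exact div_le_one_of_le₀ (hb₀ a (Finset.mem_univ _)) zero_le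
  unfold mw_piv
  rw [dif_pos hex]
  exact hex.choose_spec

theorem mw_resa_val_one (P : mw_X N) : mw_val P (1 : mw_F N) ≠ 0 := by
  have hex : ∃ c : mw_K, (1 : mw_F N) - algebraMap mw_K (mw_F N) c ∈
      P.toValuationSubring.nonunits :=
    ⟨1, by rw [map_one, sub_self, ValuationSubring.mem_nonunits_iff, map_zero]; exact zero_lt_one⟩
  unfold mw_val
  rw [dif_pos hex]
  intro h
  have hs := hex.choose_spec
  rw [h, map_zero, sub_zero, ValuationSubring.mem_nonunits_iff, map_one] at hs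
  exact lt_irrefl _ hs

theorem mw_resa_vec_ne_zero {s : ℕ} (ψ : Fin (s + 1) → mw_F N) (P : mw_X N)
    (h0 : ∃ b, ψ b ≠ 0) : mw_vec ψ P ≠ 0 := by
  intro h
  have h1 := congrFun h (mw_piv ψ P)
  unfold mw_vec at h1
  rw [div_self (mw_resa_piv_spec ψ P h0).1] at h1
  exact mw_resa_val_one P h1

end Vec

/-! ### sup norms -/

section Sup

theorem mw_resa_wabs_nonneg (K' : IntermediateField ℚ mw_K) (w : AbsoluteValue ↥K' ℝ) (z : mw_K) :
    0 ≤ mw_wabs K' w z := by
  unfold mw_wabs
  split_ifs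
  · exact w.nonneg _
  · exact le_rfl

theorem mw_resa_wabs_zero (K' : IntermediateField ℚ mw_K) (w : AbsoluteValue ↥K' ℝ) :
    mw_wabs K' w 0 = 0 := by
  unfold mw_wabs
  rw [dif_pos K'.zero_mem]
  exact map_zero w

/-- a sup of a nonnegative function vanishing outside a finite set is the sup over that set -/
theorem mw_resa_iSup_eq {I : Type} (S : Finset I) (f : I → ℝ) (hf : ∀ i, 0 ≤ f i)
    (h0 : ∀ i, i ∉ S → f i = 0) : (⨆ i : I, f i) = ⨆ i : {i // i ∈ S}, f i.1 := by
  have hbdd : BddAbove (Set.range f) := by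
    have hsub : Set.range f ⊆ insert 0 (f '' (S : Set I)) := by
      rintro _ ⟨i, rfl⟩
      by_cases hi : i ∈ S
      · exact Set.mem_insert_of_mem _ ⟨i, hi, rfl⟩
      · rw [h0 i hi]; exact Set.mem_insert _ _
    exact (Set.Finite.subset ((S.finite_toSet.image f).insert 0) hsub).bddAbove
  have hbdd' : BddAbove (Set.range fun i : {i // i ∈ S} => f i.1) := (Set.finite_range _).bddAbove
  have hnn : 0 ≤ ⨆ i : {i // i ∈ S}, f i.1 := Real.iSup_nonneg fun i => hf i.1
  refine le_antisymm (Real.iSup_le (fun i => ?_) hnn)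
    (Real.iSup_le (fun i => le_ciSup hbdd i.1) (Real.iSup_nonneg hf))
  by_cases hi : i ∈ S
  · exact le_ciSup hbdd' ⟨i, hi⟩
  · rw [h0 i hi]; exact hnn

end Sup

/-! ### [RESa] -/

/-- **[RESa]** -/
theorem mw_resa (N : ℕ) [NeZero N] (hHOMV : mw_SeamHOMV) : mw_SeamRESa N := by
  intro r x hx Pinf hPinf a s y hy R k hR
  obtain ⟨⟨hb1, -⟩, hL, -⟩ := hR
  have hx0 : ∃ b, x b ≠ 0 := ⟨0, hx.2.1.ne_zero 0⟩
  set Φ : MvPolynomial (Fin (r + 1)) (MvPolynomial (Fin (s + 1)) mw_K) := mw_resa_iter R with hΦ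
  set S : Finset (Fin (r + 1) →₀ ℕ) := Φ.support with hS
  -- coefficients of `R(cc, ·)`
  have hcoef : ∀ (cc : Fin (s + 1) → mw_K) (m : Fin (r + 1) →₀ ℕ),
      coeff m (mw_subL cc R) = eval cc (coeff m Φ) := fun cc m => mw_resa_coeff_subL cc R m
  -- `R(cc, ·) ≠ 0` for `cc ≠ 0`
  have hne : ∀ cc : Fin (s + 1) → mw_K, cc ≠ 0 → mw_subL cc R ≠ 0 := by
    intro cc hcc
    obtain ⟨A₀, hA₀, hA⟩ := hL cc hcc
    rw [hA]
    refine mul_ne_zero (by rwa [ne_eq, C_eq_zero]) (finprod_ne_zero fun z => pow_ne_zero _ ?_)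
    exact mw_resa_lin_ne_zero (mw_resa_vec_ne_zero x z hx0)
  obtain ⟨γ, cp, K₀, hfd, hγ, hcp, hfin, H⟩ := hHOMV (Fin (s + 1)) 1 (fun _ => 0) ∅
    {m // m ∈ S} (fun i => coeff i.1 Φ) (fun _ => k) (by simp)
    (by
      intro i j
      have h := mw_resa_coeff_homog R k hb1 i.1
      have hw : (fun _ : Fin (s + 1) => if (0 : Fin 1) = j then 1 else 0) = fun _ => (1 : ℕ) := by
        funext _
        rw [if_pos (Subsingleton.elim _ _)]
      rw [hw]
      exact h)
    (by
      intro v hv _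
      obtain ⟨i, -, hi⟩ := hv 0
      have hv0 : v ≠ 0 := fun h => hi (by rw [h]; rfl)
      obtain ⟨m, hm⟩ := MvPolynomial.ne_zero_iff.1 (hne v hv0)
      rw [hcoef] at hm
      have hmS : m ∈ S := by
        rw [hS, mem_support_iff]
        intro h
        rw [h, map_zero] at hm
        exact hm rfl
      exact ⟨⟨m, hmS⟩, hm⟩)
  refine ⟨γ, cp, K₀, hfd, hγ, hcp, hfin, ?_⟩
  intro K' _ w bnd hK hbnd cc hcc hccK
  obtain ⟨i₀, hi₀⟩ := Function.ne_iff.1 hcc
  have key := H K' w bnd hK hbnd cc hccK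
    (fun j => ⟨i₀, Subsingleton.elim _ _, hi₀⟩) (by simp)
  have hA : mw_pnorm K' w (mw_subL cc R) =
      ⨆ i : {m // m ∈ S}, mw_wabs K' w (eval cc (coeff i.1 Φ)) := by
    unfold mw_pnorm
    rw [mw_resa_iSup_eq S _ (fun m => mw_resa_wabs_nonneg K' w _)]
    · refine iSup_congr fun i => ?_
      rw [hcoef]
    · intro m hm
      rw [hcoef, notMem_support_iff.1 hm, map_zero, mw_resa_wabs_zero]
  have hB : ∑ j : Fin 1, ((k : ℕ) : ℝ) * Real.log (mw_blockNorm K' w (fun _ => (0 : Fin 1)) j cc) =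
      (k : ℝ) * Real.log (mw_wnorm K' w cc) := by
    rw [Fin.sum_univ_one]
    unfold mw_blockNorm
    simp
  rw [hA, ← hB]
  exact key

end Fermat.Agent.MW
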