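/-
Project MW (S17), local core, leaf **[RESb]** (architect helper7, #1920 (R2); helper22):
`mw_resb : mw_SeamHOMV → mw_SeamVAR N → mw_SeamEMB N → mw_SeamRESb N` — the quotient
`R″_j = Y_j^k R(c, λ_X(U)) / ⟨c, Y⟩` on the curve (certificate identity `mw_IsCert`) and its two-sided
estimate `‖R″_j(c,·,x(P),y(P))‖_w ≍ ‖c‖_w^{k-1} ‖x(P)‖_w^a ‖y(P)‖_w^{k-1}` at EVERY `(c, P)`, for
`j` with `|y_j(P)|_w` maximal.  `a₀ = 1`.

Files `MW/Core/RESb/`: `Poly` (weighted homogeneity toolkit), `Quot` (the polynomial quotient),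
`Curve` (polynomials on the curve, identity theorem), `Van` (the remainder dies on the curve, by
(B2)), `Cert` (certificate identity in `F[c,U]` and at a point), `Hyp` (the transversal hyperplane,
from [EMB]), `NoZero` (no common zero; `1 ≤ k`), `Coef` (the `U`-coefficients as polynomials in
three blocks `(c, X, Y)`).  This file: the application of [HOMV].  Prefix `mw_resb_`.
-/
import Fermat.Agent.MW.Core.RESb.Coef
import Fermat.Agent.MW.Core.HOMV.Abs

set_option autoImplicit false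
set_option linter.unusedSectionVars false

noncomputable section

namespace Fermat.Agent.MW

open AlgebraicCurve ModularCurve MvPolynomial Fermat.Agent.JT3
open scoped Classical

/-- **[RESb]** -/
theorem mw_resb (N : ℕ) [NeZero N] (hHOMV : mw_SeamHOMV) (hVAR : mw_SeamVAR N)
    (hEMB : mw_SeamEMB N) : mw_SeamRESb N := by
  intro r x hxref Pinf hPinf
  refine ⟨1, fun a ha s y hy R k hR => ?_⟩
  have hx : LinearIndependent mw_K x := hxref.2.1
  have hx0 : ∃ b, x b ≠ 0 := mw_v_exists_ne_zero hx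
  have hyli : LinearIndependent mw_K y := hy.1
  have hy0 : ∃ b, y b ≠ 0 := mw_v_exists_ne_zero hyli
  obtain ⟨R2, hR2⟩ := mw_resb_exists_quot R k a hR.1
  have hk : 1 ≤ k := mw_resb_k_pos x y R k a hEMB hxref hyli hR ha
  refine ⟨R2, mw_resb_isCert x y R k a hx hy0 hR ha R2 hR2, ?_⟩
  -- the `U`-coefficients of all the `R″_l`
  set ρ : (Σ l : Fin (s + 1), {β // β ∈ (mw_resb_Phi (R2 l)).support}) →
      MvPolynomial (mw_resb_Var3 r s) mw_K := fun i => coeff i.2.1 (mw_resb_Phi (R2 i.1)) with hρ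
  have hρhom : ∀ i, mw_IsMultiHom (mw_resb_block3 r s) (ρ i) ![k - 1, a, k - 1] :=
    fun i => mw_resb_Phi_coeff_homog (R2 i.1) k a (hR2 i.1).1 i.2.1
  -- no common zero
  have hnz : ∀ v : mw_resb_Var3 r s → mw_K,
      (∀ j' : Fin 3, ∃ i, mw_resb_block3 r s i = j' ∧ v i ≠ 0) →
      (∀ p ∈ mw_resb_Gen x y, eval v p = 0) → ∃ i, eval v (ρ i) ≠ 0 := by
    intro v hvb hvZ
    set c₀ : Fin (s + 1) → mw_K := fun l => v (Sum.inl l) with hc₀
    set X₀ : Fin (r + 1) → mw_K := fun b => v (Sum.inr (Sum.inl b)) with hX₀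
    set Y₀ : Fin (s + 1) → mw_K := fun l => v (Sum.inr (Sum.inr l)) with hY₀
    have hc₀ne : c₀ ≠ 0 := by
      obtain ⟨i, hi, hvi⟩ := hvb 0
      rcases i with l | b | l
      · exact fun h0 => hvi (congrFun h0 l)
      · simp [mw_resb_block3] at hi
      · simp [mw_resb_block3] at hi
    have hX₀ne : X₀ ≠ 0 := by
      obtain ⟨i, hi, hvi⟩ := hvb 1
      rcases i with l | b | l
      · simp [mw_resb_block3] at hi
      · exact fun h0 => hvi (congrFun h0 b)
      · simp [mw_resb_block3] at hi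
    have hY₀ne : Y₀ ≠ 0 := by
      obtain ⟨i, hi, hvi⟩ := hvb 2
      rcases i with l | b | l
      · simp [mw_resb_block3] at hi
      · simp [mw_resb_block3] at hi
      · exact fun h0 => hvi (congrFun h0 l)
    obtain ⟨P₀, l₁, l₂, hX, hY⟩ := hVAR x hxref Pinf hPinf a y hy X₀ Y₀ hX₀ne hY₀ne (by
      intro p d e hp hp0
      have := hvZ (rename Sum.inr p) ⟨p, d, e, hp, hp0, rfl⟩
      rw [eval_rename] at this
      rw [← this]
      congr 1
      congr 1
      funext i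
      rcases i with b | l <;> rfl)
    have hl₁ : l₁ ≠ 0 := by
      rintro rfl
      exact hX₀ne (by rw [hX, zero_smul])
    have hl₂ : l₂ ≠ 0 := by
      rintro rfl
      exact hY₀ne (by rw [hY, zero_smul])
    obtain ⟨U₀, hU₀⟩ := mw_resb_nozero x y R k a hEMB hxref hyli hR ha R2 hR2 c₀ hc₀ne P₀
    rw [← mw_resb_eval_quotVal] at hU₀
    have hne : mw_quotVal c₀ (mw_vec x P₀) (mw_vec y P₀) (R2 (mw_piv y P₀)) ≠ 0 := by
      intro h0
      rw [h0, map_zero] at hU₀
      exact hU₀ rfl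
    obtain ⟨β, hβ⟩ := MvPolynomial.ne_zero_iff.1 hne
    rw [mw_resb_coeff_quotVal] at hβ
    have hβsupp : β ∈ (mw_resb_Phi (R2 (mw_piv y P₀))).support := by
      rw [mem_support_iff]
      intro h0
      rw [h0, map_zero] at hβ
      exact hβ rfl
    refine ⟨⟨mw_piv y P₀, ⟨β, hβsupp⟩⟩, ?_⟩
    have hv : v = fun i => (![1, l₁, l₂] : Fin 3 → mw_K) (mw_resb_block3 r s i)
        * mw_resb_pt3 c₀ (mw_vec x P₀) (mw_vec y P₀) i := by
      funext i
      rcases i with l | b | l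
      · simp [mw_resb_block3, mw_resb_pt3, hc₀]
      · have := congrFun hX b
        simpa [mw_resb_block3, mw_resb_pt3, hX₀] using this
      · have := congrFun hY l
        simpa [mw_resb_block3, mw_resb_pt3, hY₀] using this
    rw [hv, mw_homv_scale (mw_resb_block3 r s) _ ![k - 1, a, k - 1] (hρhom _)]
    refine mul_ne_zero (Finset.prod_ne_zero_iff.2 fun j' _ => pow_ne_zero _ ?_) hβ
    fin_cases j'
    · exact one_ne_zero
    · exact hl₁
    · exact hl₂
  obtain ⟨γ, cp, K₀, hfd, hγ, hcp, hfin, H⟩ := hHOMV (mw_resb_Var3 r s) 3 (mw_resb_block3 r s)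
    (mw_resb_Gen x y) _ ρ ![k - 1, a, k - 1] (mw_resb_Gen_homog x y) hρhom hnz
  refine ⟨γ, cp, K₀, hfd, hγ, hcp, hfin, ?_⟩
  intro K' _ w bnd hK hbnd cc P hcc hccK hxK hyK j hj
  set v3 := mw_resb_pt3 cc (mw_vec x P) (mw_vec y P) with hv3
  have key := H K' w bnd hK hbnd v3
    (by
      rintro (l | b | l)
      · exact hccK l
      · exact hxK b
      · exact hyK l)
    (by
      intro j'
      fin_cases j'
      · obtain ⟨l, hl⟩ := Function.ne_iff.1 hcc
        exact ⟨Sum.inl l, rfl, hl⟩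
      · obtain ⟨b, hb⟩ := Function.ne_iff.1 (mw_v_vec_ne_zero x hx0 P)
        exact ⟨Sum.inr (Sum.inl b), rfl, hb⟩
      · obtain ⟨l, hl⟩ := Function.ne_iff.1 (mw_v_vec_ne_zero y hy0 P)
        exact ⟨Sum.inr (Sum.inr l), rfl, hl⟩)
    (fun p hp => mw_resb_Gen_eval x y hx0 hy0 p hp cc P)
  -- the block norms
  obtain ⟨hb0, hb1, hb2⟩ := mw_resb_blockNorm K' w cc (mw_vec x P) (mw_vec y P)
  have hsum : ∑ j' : Fin 3, ((![k - 1, a, k - 1] : Fin 3 → ℕ) j' : ℝ)
        * Real.log (mw_blockNorm K' w (mw_resb_block3 r s) j' v3)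
      = ((k : ℝ) - 1) * Real.log (mw_wnorm K' w cc)
        + (a : ℝ) * Real.log (mw_wnorm K' w (mw_vec x P))
        + ((k : ℝ) - 1) * Real.log (mw_wnorm K' w (mw_vec y P)) := by
    have e0 : (![k - 1, a, k - 1] : Fin 3 → ℕ) 0 = k - 1 := rfl
    have e1 : (![k - 1, a, k - 1] : Fin 3 → ℕ) 1 = a := rfl
    have e2 : (![k - 1, a, k - 1] : Fin 3 → ℕ) 2 = k - 1 := rfl
    rw [Fin.sum_univ_three, hb0, hb1, hb2, e0, e1, e2, Nat.cast_sub hk, Nat.cast_one]
  -- the sup over all `(l, β)` is the sup norm of `R″_j(cc, ·, x(P), y(P))`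
  have hyjpos : 0 < mw_wabs K' w (mw_vec y P j) := by
    rw [hj]
    exact mw_la_wnorm_pos K' w (mw_v_vec_ne_zero y hy0 P) hyK
  have hA : ∀ (l : Fin (s + 1)) (β : Fin (r + 1) × Fin (r + 1) →₀ ℕ),
      mw_wabs K' w (coeff β (mw_quotVal cc (mw_vec x P) (mw_vec y P) (R2 l)))
        ≤ mw_wabs K' w (coeff β (mw_quotVal cc (mw_vec x P) (mw_vec y P) (R2 j))) := by
    intro l β
    have hrel := congrArg (coeff β)
      (mw_resb_quotVal_rel x y R k a hx hy0 hR ha R2 hR2 P cc j l)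
    rw [coeff_C_mul, coeff_C_mul] at hrel
    have h1 := congrArg (mw_wabs K' w) hrel
    rw [mw_la_wabs_mul K' w (pow_mem (hyK l) k), mw_la_wabs_mul K' w (pow_mem (hyK j) k),
      mw_la_wabs_pow K' w (hyK l), mw_la_wabs_pow K' w (hyK j)] at h1
    set Aj := mw_wabs K' w (coeff β (mw_quotVal cc (mw_vec x P) (mw_vec y P) (R2 j)))
    set Al := mw_wabs K' w (coeff β (mw_quotVal cc (mw_vec x P) (mw_vec y P) (R2 l)))
    have hAj : 0 ≤ Aj := mw_la_wabs_nonneg K' w _
    have hle : mw_wabs K' w (mw_vec y P l) ≤ mw_wabs K' w (mw_vec y P j) := by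
      rw [hj]
      exact mw_la_le_wnorm K' w _ l
    have hpow : mw_wabs K' w (mw_vec y P l) ^ k ≤ mw_wabs K' w (mw_vec y P j) ^ k :=
      pow_le_pow_left₀ (mw_la_wabs_nonneg K' w _) hle k
    have hpos : 0 < mw_wabs K' w (mw_vec y P j) ^ k := pow_pos hyjpos k
    have h2 : mw_wabs K' w (mw_vec y P j) ^ k * Al ≤ mw_wabs K' w (mw_vec y P j) ^ k * Aj := by
      rw [← h1]
      exact mul_le_mul_of_nonneg_right hpow hAj
    exact le_of_mul_le_mul_left h2 hpos
  have hsup : (⨆ i, mw_wabs K' w (eval v3 (ρ i)))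
      = mw_pnorm K' w (mw_quotVal cc (mw_vec x P) (mw_vec y P) (R2 j)) := by
    have hev : ∀ i, eval v3 (ρ i)
        = coeff i.2.1 (mw_quotVal cc (mw_vec x P) (mw_vec y P) (R2 i.1)) := by
      intro i
      rw [mw_resb_coeff_quotVal]
    refine le_antisymm (Real.iSup_le (fun i => ?_) (mw_la_pnorm_nonneg K' w _))
      (Real.iSup_le (fun β => ?_) (Real.iSup_nonneg fun i => mw_la_wabs_nonneg K' w _))
    · rw [hev]
      exact (hA i.1 i.2.1).trans (mw_la_le_pnorm K' w _ _)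
    · by_cases hβ : β ∈ (mw_resb_Phi (R2 j)).support
      · have hbdd : BddAbove (Set.range fun i => mw_wabs K' w (eval v3 (ρ i))) :=
          (Set.finite_range _).bddAbove
        have := le_ciSup hbdd ⟨j, ⟨β, hβ⟩⟩
        rw [hev] at this
        exact this
      · rw [mw_resb_coeff_quotVal, notMem_support_iff.1 hβ, map_zero, mw_la_wabs_zero]
        exact Real.iSup_nonneg fun i => mw_la_wabs_nonneg K' w _
  rw [hsup, hsum] at key
  exact key

end Fermat.Agent.MW
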