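/-
Project MW (S17), local core, leaf **[VAR]** (architect helper7, #1920 (R2)):
`mw_var : mw_SeamVAR N` — the common zeros `(X₀, Y₀)` (both blocks nonzero) of the bihomogeneous
relations between two systems `x`, `y` of functions are the points `(x(P), y(P))`.

Route: pivots `p₀`, `q₀` with `X₀ p₀ ≠ 0`, `Y₀ q₀ ≠ 0`; the bihomogenisation
`G ↦ X_{p₀}^d Y_{q₀}^e G(X/X_{p₀}, Y/Y_{q₀})` turns the hypothesis into
`ker (aeval (x/x_{p₀}, y/y_{q₀})) ≤ ker (eval (X₀/X₀ p₀, Y₀/Y₀ q₀))`; Chevalley's extension theorem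
gives a valuation ring of `F` centred at this `K`-point of `K[x/x_{p₀}, y/y_{q₀}]`; it is a place
(`rpf_exists_place`), and the values of the ratios at this place give `mw_vec`.
No hypothesis on `x`, `y` is used.  Prefix `mw_var_`.
-/
import Fermat.Agent.MW.Core.Seams
import Fermat.Agent.JT3.PlaceMap.FunField
import Fermat.Agent.JT3.Riemann.FBar

set_option autoImplicit false
set_option linter.unusedSectionVars false
set_option linter.style.haveILetI false

noncomputable section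

namespace Fermat.Agent.MW

open AlgebraicCurve ModularCurve MvPolynomial IntermediateField Fermat.Agent.JT3

/-! ### bihomogenisation -/

section Bihom

variable {K : Type*} [CommSemiring K] {α β : Type*}

/-- the bihomogenisation of `G` in bidegree `(d, e)` with respect to the pivots `p₀`, `q₀`:
`X_{p₀}^d Y_{q₀}^e G(X/X_{p₀}, Y/Y_{q₀})`, monomial by monomial -/
def mw_var_hom (p₀ : α) (q₀ : β) (d e : ℕ) (G : MvPolynomial (α ⊕ β) K) :
    MvPolynomial (α ⊕ β) K :=
  ∑ m ∈ G.support,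
    monomial (m + Finsupp.single (Sum.inl p₀)
        (d - Finsupp.weight (Sum.elim (fun _ => 1) (fun _ => 0) : α ⊕ β → ℕ) m)
      + Finsupp.single (Sum.inr q₀)
        (e - Finsupp.weight (Sum.elim (fun _ => 0) (fun _ => 1) : α ⊕ β → ℕ) m)) (coeff m G)

theorem mw_var_weight_single (w : α ⊕ β → ℕ) (i : α ⊕ β) (k : ℕ) :
    Finsupp.weight w (Finsupp.single i k) = k * w i := by
  simp [Finsupp.weight, Finsupp.linearCombination_single]

theorem mw_var_hom_isBihom (p₀ : α) (q₀ : β) (d e : ℕ) (G : MvPolynomial (α ⊕ β) K)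
    (hd : ∀ m ∈ G.support,
      Finsupp.weight (Sum.elim (fun _ => 1) (fun _ => 0) : α ⊕ β → ℕ) m ≤ d)
    (he : ∀ m ∈ G.support,
      Finsupp.weight (Sum.elim (fun _ => 0) (fun _ => 1) : α ⊕ β → ℕ) m ≤ e) :
    (mw_var_hom p₀ q₀ d e G).IsWeightedHomogeneous
        (Sum.elim (fun _ => 1) (fun _ => 0) : α ⊕ β → ℕ) d ∧
      (mw_var_hom p₀ q₀ d e G).IsWeightedHomogeneous
        (Sum.elim (fun _ => 0) (fun _ => 1) : α ⊕ β → ℕ) e := by
  constructor
  · refine IsWeightedHomogeneous.sum _ _ _ fun m hm => isWeightedHomogeneous_monomial _ _ _ ?_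
    rw [map_add, map_add, mw_var_weight_single, mw_var_weight_single]
    have := hd m hm
    simp only [Sum.elim_inl, Sum.elim_inr, mul_one, mul_zero, add_zero]
    omega
  · refine IsWeightedHomogeneous.sum _ _ _ fun m hm => isWeightedHomogeneous_monomial _ _ _ ?_
    rw [map_add, map_add, mw_var_weight_single, mw_var_weight_single]
    have := he m hm
    simp only [Sum.elim_inl, Sum.elim_inr, mul_one, mul_zero, add_zero]
    omega

end Bihom

section Eval

variable {K : Type*} [CommSemiring K] {α β : Type*} {L : Type*} [Field L] [Algebra K L]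

theorem mw_var_prod_piv (v : α ⊕ β → L) (p₀ : α) (q₀ : β) (m : α ⊕ β →₀ ℕ) :
    m.prod (fun i k =>
        (Sum.elim (fun _ => v (Sum.inl p₀)) (fun _ => v (Sum.inr q₀)) i : L) ^ k) =
      v (Sum.inl p₀) ^ Finsupp.weight (Sum.elim (fun _ => 1) (fun _ => 0) : α ⊕ β → ℕ) m *
        v (Sum.inr q₀) ^ Finsupp.weight (Sum.elim (fun _ => 0) (fun _ => 1) : α ⊕ β → ℕ) m := by
  rw [Finsupp.weight_apply, Finsupp.weight_apply, Finsupp.sum, Finsupp.sum, Finsupp.prod,
    ← Finset.prod_pow_eq_pow_sum, ← Finset.prod_pow_eq_pow_sum, ← Finset.prod_mul_distrib]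
  refine Finset.prod_congr rfl fun i _ => ?_
  rcases i with a | b <;> simp

/-- evaluation of the bihomogenisation -/
theorem mw_var_hom_aeval (p₀ : α) (q₀ : β) (d e : ℕ) (G : MvPolynomial (α ⊕ β) K)
    (hd : ∀ m ∈ G.support,
      Finsupp.weight (Sum.elim (fun _ => 1) (fun _ => 0) : α ⊕ β → ℕ) m ≤ d)
    (he : ∀ m ∈ G.support,
      Finsupp.weight (Sum.elim (fun _ => 0) (fun _ => 1) : α ⊕ β → ℕ) m ≤ e)
    (v : α ⊕ β → L) (hp : v (Sum.inl p₀) ≠ 0) (hq : v (Sum.inr q₀) ≠ 0) :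
    aeval v (mw_var_hom p₀ q₀ d e G) = v (Sum.inl p₀) ^ d * v (Sum.inr q₀) ^ e *
      aeval (fun i => v i / Sum.elim (fun _ => v (Sum.inl p₀)) (fun _ => v (Sum.inr q₀)) i) G := by
  classical
  conv_rhs => rw [G.as_sum, map_sum, Finset.mul_sum]
  rw [mw_var_hom, map_sum]
  refine Finset.sum_congr rfl fun m hm => ?_
  rw [aeval_monomial, aeval_monomial,
    Finsupp.prod_add_index' (fun _ => pow_zero _) (fun _ _ _ => pow_add _ _ _),
    Finsupp.prod_add_index' (fun _ => pow_zero _) (fun _ _ _ => pow_add _ _ _),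
    Finsupp.prod_single_index (h := fun i k => v i ^ k) (pow_zero _),
    Finsupp.prod_single_index (h := fun i k => v i ^ k) (pow_zero _)]
  have h1 : m.prod (fun i k => (v i /
      Sum.elim (fun _ => v (Sum.inl p₀)) (fun _ => v (Sum.inr q₀)) i) ^ k) =
      m.prod (fun i k => v i ^ k) /
        (v (Sum.inl p₀) ^ Finsupp.weight (Sum.elim (fun _ => 1) (fun _ => 0) : α ⊕ β → ℕ) m *
          v (Sum.inr q₀) ^ Finsupp.weight (Sum.elim (fun _ => 0) (fun _ => 1) : α ⊕ β → ℕ) m) := by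
    rw [← mw_var_prod_piv, Finsupp.prod, Finsupp.prod, Finsupp.prod, ← Finset.prod_div_distrib]
    exact Finset.prod_congr rfl fun i _ => div_pow _ _ _
  rw [h1]
  have hd' := hd m hm
  have he' := he m hm
  have e1 : v (Sum.inl p₀) ^ d = v (Sum.inl p₀) ^
      (d - Finsupp.weight (Sum.elim (fun _ => 1) (fun _ => 0) : α ⊕ β → ℕ) m) *
      v (Sum.inl p₀) ^ Finsupp.weight (Sum.elim (fun _ => 1) (fun _ => 0) : α ⊕ β → ℕ) m := by
    rw [← pow_add]; congr 1; omega
  have e2 : v (Sum.inr q₀) ^ e = v (Sum.inr q₀) ^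
      (e - Finsupp.weight (Sum.elim (fun _ => 0) (fun _ => 1) : α ⊕ β → ℕ) m) *
      v (Sum.inr q₀) ^ Finsupp.weight (Sum.elim (fun _ => 0) (fun _ => 1) : α ⊕ β → ℕ) m := by
    rw [← pow_add]; congr 1; omega
  rw [e1, e2]
  have hp' := pow_ne_zero
    (Finsupp.weight (Sum.elim (fun _ => 1) (fun _ => 0) : α ⊕ β → ℕ) m) hp
  have hq' := pow_ne_zero
    (Finsupp.weight (Sum.elim (fun _ => 0) (fun _ => 1) : α ⊕ β → ℕ) m) hq
  field_simp

end Eval

/-! ### from bihomogeneous relations to affine relations -/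

section Ker

variable {K : Type*} [Field K] {F : Type*} [Field F] [Algebra K F] {α β : Type*}

/-- **dehomogenisation**: if every bihomogeneous relation between `x`, `y` vanishes at `(X₀, Y₀)`,
then every relation between the ratios `x/x_{p₀}`, `y/y_{q₀}` vanishes at the ratios
`X₀/X₀ p₀`, `Y₀/Y₀ q₀`. -/
theorem mw_var_ker_le (x : α → F) (y : β → F) (X₀ : α → K) (Y₀ : β → K) (p₀ : α) (q₀ : β)
    (hxp : x p₀ ≠ 0) (hyq : y q₀ ≠ 0) (hXp : X₀ p₀ ≠ 0) (hYq : Y₀ q₀ ≠ 0)
    (H : ∀ (p : MvPolynomial (α ⊕ β) K) (d e : ℕ),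
      p.IsWeightedHomogeneous (Sum.elim (fun _ => 1) (fun _ => 0) : α ⊕ β → ℕ) d →
      p.IsWeightedHomogeneous (Sum.elim (fun _ => 0) (fun _ => 1) : α ⊕ β → ℕ) e →
      aeval (Sum.elim x y) p = 0 → eval (Sum.elim X₀ Y₀) p = 0)
    (G : MvPolynomial (α ⊕ β) K)
    (hG : aeval (Sum.elim (fun a => x a / x p₀) (fun b => y b / y q₀)) G = 0) :
    eval (Sum.elim (fun a => X₀ a / X₀ p₀) (fun b => Y₀ b / Y₀ q₀)) G = 0 := by
  classical
  set d := G.support.sup
    (fun m => Finsupp.weight (Sum.elim (fun _ => 1) (fun _ => 0) : α ⊕ β → ℕ) m) with hd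
  set e := G.support.sup
    (fun m => Finsupp.weight (Sum.elim (fun _ => 0) (fun _ => 1) : α ⊕ β → ℕ) m) with he
  have hd' : ∀ m ∈ G.support,
      Finsupp.weight (Sum.elim (fun _ => 1) (fun _ => 0) : α ⊕ β → ℕ) m ≤ d := fun m hm =>
    Finset.le_sup (f := fun m =>
      Finsupp.weight (Sum.elim (fun _ => 1) (fun _ => 0) : α ⊕ β → ℕ) m) hm
  have he' : ∀ m ∈ G.support,
      Finsupp.weight (Sum.elim (fun _ => 0) (fun _ => 1) : α ⊕ β → ℕ) m ≤ e := fun m hm =>
    Finset.le_sup (f := fun m =>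
      Finsupp.weight (Sum.elim (fun _ => 0) (fun _ => 1) : α ⊕ β → ℕ) m) hm
  obtain ⟨h1, h2⟩ := mw_var_hom_isBihom p₀ q₀ d e G hd' he'
  have hF : aeval (Sum.elim x y) (mw_var_hom p₀ q₀ d e G) = 0 := by
    rw [mw_var_hom_aeval p₀ q₀ d e G hd' he' (Sum.elim x y) hxp hyq]
    have : (fun i => Sum.elim x y i /
        Sum.elim (fun _ => Sum.elim x y (Sum.inl p₀)) (fun _ => Sum.elim x y (Sum.inr q₀)) i) =
        Sum.elim (fun a => x a / x p₀) (fun b => y b / y q₀) := by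
      funext i; rcases i with a | b <;> rfl
    rw [this, hG, mul_zero]
  have hK := H _ d e h1 h2 hF
  have hK' : aeval (Sum.elim X₀ Y₀) (mw_var_hom p₀ q₀ d e G) = 0 := hK
  rw [mw_var_hom_aeval p₀ q₀ d e G hd' he' (Sum.elim X₀ Y₀) hXp hYq] at hK'
  have : (fun i => Sum.elim X₀ Y₀ i /
      Sum.elim (fun _ => Sum.elim X₀ Y₀ (Sum.inl p₀)) (fun _ => Sum.elim X₀ Y₀ (Sum.inr q₀)) i) =
      Sum.elim (fun a => X₀ a / X₀ p₀) (fun b => Y₀ b / Y₀ q₀) := by
    funext i; rcases i with a | b <;> rfl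
  rw [this] at hK'
  have hne : (Sum.elim X₀ Y₀ (Sum.inl p₀)) ^ d * (Sum.elim X₀ Y₀ (Sum.inr q₀)) ^ e ≠ 0 :=
    mul_ne_zero (pow_ne_zero _ hXp) (pow_ne_zero _ hYq)
  exact (mul_eq_zero.1 hK').resolve_left hne

end Ker

/-! ### a place centred at a `K`-point -/

section Place

universe u v
variable {K : Type u} {F : Type v} [Field K] [Field F] [Algebra K F] [IsAlgClosed K]
  {x₀ : F} (hx₀ : rt_IsSepGen K x₀)

include hx₀

/-- a function field has a place -/
theorem mw_var_exists_place : Nonempty (Place K F) := by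
  by_contra hne
  rw [not_nonempty_iff] at hne
  have h0 : rt_poleDiv hx₀ x₀ = 0 := by
    ext v; exact (hne.false v).elim
  have h1 := rt_degree_poleDiv hx₀ hx₀.1
  rw [h0, map_zero] at h1
  have hfd := hx₀.2.1
  have : 0 < Module.finrank K⟮x₀⟯ F := Module.finrank_pos
  omega

/-- **Chevalley**: a `K`-point `c` of the subalgebra `K[u]` of `F` (given by: every polynomial
relation between the `u i` vanishes at `c`) is the centre of a place: `u i - c i ∈ 𝔪_P`. -/
theorem mw_var_place_of_point {σ : Type*} (u : σ → F) (c : σ → K)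
    (hker : ∀ G : MvPolynomial σ K, aeval u G = 0 → eval c G = 0) :
    ∃ P : Place K F, ∀ i, u i - algebraMap K F (c i) ∈ P.toValuationSubring.nonunits := by
  classical
  set f : MvPolynomial σ K →+* F := (aeval u : MvPolynomial σ K →ₐ[K] F).toRingHom with hf
  have hfX : ∀ i, f (X i) = u i := fun i => by simp [hf]
  have hfC : ∀ a, f (C a) = algebraMap K F a := fun a => by simp [hf]
  set I : Ideal f.range := Ideal.map f.rangeRestrict (RingHom.ker (eval c)) with hI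
  have hsurj : Function.Surjective f.rangeRestrict := f.rangeRestrict_surjective
  have hItop : I ≠ ⊤ := by
    intro h
    have h1 : (1 : f.range) ∈ I := by rw [h]; trivial
    rw [hI, Ideal.mem_map_iff_of_surjective _ hsurj] at h1
    obtain ⟨G, hG, hG1⟩ := h1
    have h2 : aeval u (G - 1) = 0 := by
      have h3 : f G = 1 := congrArg Subtype.val hG1
      have h4 : aeval u G = 1 := h3
      rw [map_sub, map_one, h4, sub_self]
    have h3 := hker _ h2
    rw [map_sub, map_one, RingHom.mem_ker.1 hG, zero_sub] at h3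
    exact one_ne_zero (neg_eq_zero.1 h3)
  obtain ⟨V, hAV, hIV⟩ := Ideal.image_subset_nonunits_valuationSubring I hItop
  have hK : ∀ a : K, algebraMap K F a ∈ V := fun a => hAV ⟨C a, hfC a⟩
  have hmem : ∀ i, u i - algebraMap K F (c i) ∈ V.nonunits := by
    intro i
    apply hIV
    refine ⟨f.rangeRestrict (X i - C (c i)), Ideal.mem_map_of_mem _ ?_, ?_⟩
    · rw [RingHom.mem_ker, map_sub, eval_X, eval_C, sub_self]
    · show f (X i - C (c i)) = _
      rw [map_sub, hfX, hfC]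
  by_cases hV : V = ⊤
  · obtain ⟨P⟩ := mw_var_exists_place hx₀
    refine ⟨P, fun i => ?_⟩
    have h1 := hmem i
    rw [hV, ValuationSubring.mem_nonunits_iff_or] at h1
    rcases h1 with h1 | h1
    · rw [h1]; exact P.toValuationSubring.nonunits.zero_mem
    · exact absurd (ValuationSubring.mem_top _) h1
  · obtain ⟨P, hP⟩ := rpf_exists_place hx₀ V hK hV
    exact ⟨P, fun i => hP ▸ hmem i⟩

end Place

/-! ### values, pivots and projective vectors at a place -/

section Vec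

variable {N : ℕ}

/-- constants in the maximal ideal of a place are zero -/
theorem mw_var_const_nonunits (P : mw_X N) {c : mw_K}
    (h : algebraMap mw_K (mw_F N) c ∈ P.toValuationSubring.nonunits) : c = 0 := by
  by_contra hc
  rw [ValuationSubring.mem_nonunits_iff_or] at h
  rcases h with h | h
  · exact hc ((map_eq_zero _).1 h)
  · apply h
    rw [← map_inv₀]
    exact P.algebraMap_mem' _

/-- the value of `f` at `P` is `c` as soon as `f - c ∈ 𝔪_P` -/
theorem mw_var_val_eq (P : mw_X N) {f : mw_F N} {c : mw_K}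
    (h : f - algebraMap mw_K (mw_F N) c ∈ P.toValuationSubring.nonunits) : mw_val P f = c := by
  have hex : ∃ c : mw_K, f - algebraMap mw_K (mw_F N) c ∈ P.toValuationSubring.nonunits := ⟨c, h⟩
  rw [mw_val, dif_pos hex]
  have h1 := hex.choose_spec
  have h2 : algebraMap mw_K (mw_F N) (hex.choose - c) ∈ P.toValuationSubring.nonunits := by
    have := P.toValuationSubring.nonunits.sub_mem h h1
    rwa [sub_sub_sub_cancel_left, ← map_sub] at this
  exact sub_eq_zero.1 (mw_var_const_nonunits P h2)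

/-- nonunits of a place lie in its valuation ring -/
theorem mw_var_nonunits_mem (P : mw_X N) {f : mw_F N}
    (h : f ∈ P.toValuationSubring.nonunits) : f ∈ P.toValuationSubring :=
  ValuationSubring.nonunits_subset h

theorem mw_var_piv_spec {s : ℕ} (ψ : Fin (s + 1) → mw_F N) (P : mw_X N)
    (h : ∃ b, ψ b ≠ 0 ∧ ∀ a, ψ a / ψ b ∈ P.toValuationSubring) :
    ψ (mw_piv ψ P) ≠ 0 ∧ ∀ a, ψ a / ψ (mw_piv ψ P) ∈ P.toValuationSubring := by
  rw [mw_piv, dif_pos h]
  exact h.choose_spec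

/-- **the projective vector from the values of the ratios**: if `ψ p₀ ≠ 0` and the ratios
`ψ a / ψ p₀` are regular at `P` with values `c a`, then `mw_vec ψ P = (c b)⁻¹ • c` for the pivot
`b = mw_piv ψ P`, and `c b ≠ 0`. -/
theorem mw_var_vec_eq {s : ℕ} (ψ : Fin (s + 1) → mw_F N) (P : mw_X N) (p₀ : Fin (s + 1))
    (hp₀ : ψ p₀ ≠ 0) (c : Fin (s + 1) → mw_K)
    (hc : ∀ a, ψ a / ψ p₀ - algebraMap mw_K (mw_F N) (c a) ∈ P.toValuationSubring.nonunits) :
    c (mw_piv ψ P) ≠ 0 ∧ ∀ a, mw_vec ψ P a = c a / c (mw_piv ψ P) := by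
  have hreg : ∀ a, ψ a / ψ p₀ ∈ P.toValuationSubring := by
    intro a
    have h1 := mw_var_nonunits_mem P (hc a)
    have h2 := add_mem h1 (P.algebraMap_mem' (c a))
    rwa [sub_add_cancel] at h2
  obtain ⟨hb0, hb⟩ := mw_var_piv_spec ψ P ⟨p₀, hp₀, hreg⟩
  set b := mw_piv ψ P with hbdef
  -- `ψ b / ψ p₀` is a unit at `P`
  have hcb : c b ≠ 0 := by
    intro h0
    have h1 := hc b
    rw [h0, map_zero, sub_zero, ValuationSubring.mem_nonunits_iff_or] at h1
    rcases h1 with h1 | h1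
    · exact div_ne_zero hb0 hp₀ h1
    · apply h1
      rw [inv_div]
      exact hb p₀
  refine ⟨hcb, fun a => ?_⟩
  rw [mw_vec]
  apply mw_var_val_eq
  -- `ψ a / ψ b - c a / c b = ((ψ a/ψ p₀ - c a) - (c a / c b) (ψ b/ψ p₀ - c b)) * (ψ p₀ / ψ b)`
  have hid : ψ a / ψ b - algebraMap mw_K (mw_F N) (c a / c b) =
      ((ψ a / ψ p₀ - algebraMap mw_K (mw_F N) (c a)) -
        algebraMap mw_K (mw_F N) (c a / c b) *
          (ψ b / ψ p₀ - algebraMap mw_K (mw_F N) (c b))) * (ψ p₀ / ψ b) := by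
    have hcb' : algebraMap mw_K (mw_F N) (c b) ≠ 0 := (map_ne_zero _).2 hcb
    rw [map_div₀]
    field_simp
    ring
  rw [hid]
  have hI1 := hc a
  have hI2 := hc b
  -- membership in the maximal ideal
  rw [ValuationSubring.mem_nonunits_iff_exists_mem_maximalIdeal] at hI1 hI2 ⊢
  obtain ⟨ha1, ha2⟩ := hI1
  obtain ⟨hb1, hb2⟩ := hI2
  have hk : algebraMap mw_K (mw_F N) (c a / c b) ∈ P.toValuationSubring := P.algebraMap_mem' _
  have hmem1 : (ψ a / ψ p₀ - algebraMap mw_K (mw_F N) (c a)) -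
        algebraMap mw_K (mw_F N) (c a / c b) *
          (ψ b / ψ p₀ - algebraMap mw_K (mw_F N) (c b)) ∈ P.toValuationSubring :=
    sub_mem ha1 (mul_mem hk hb1)
  refine ⟨mul_mem hmem1 (hb p₀), ?_⟩
  have hprod : (⟨_, mul_mem hmem1 (hb p₀)⟩ : P.toValuationSubring) =
      (⟨_, ha1⟩ - ⟨_, hk⟩ * ⟨_, hb1⟩) * ⟨_, hb p₀⟩ := rfl
  rw [hprod]
  exact Ideal.mul_mem_right _ _ (Ideal.sub_mem _ ha2 (Ideal.mul_mem_left _ _ hb2))

end Vec

/-! ### [VAR] -/

section Main

variable (N : ℕ) [NeZero N]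

/-- **[VAR], general form** (no hypothesis on the systems `x`, `y`): a point `(X₀, Y₀)`, both
blocks nonzero, at which all bihomogeneous relations between `x` and `y` vanish is
`(x(P), y(P))` for a place `P`, with explicit scalars: the pivot coordinates of `X₀`, `Y₀`. -/
theorem mw_var_main {r s : ℕ} (x : Fin (r + 1) → mw_F N) (y : Fin (s + 1) → mw_F N)
    (X₀ : Fin (r + 1) → mw_K) (Y₀ : Fin (s + 1) → mw_K) (hX : X₀ ≠ 0) (hY : Y₀ ≠ 0)
    (H : ∀ (p : MvPolynomial (Fin (r + 1) ⊕ Fin (s + 1)) mw_K) (d e : ℕ), mw_IsBihom p d e →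
      aeval (Sum.elim x y) p = 0 → eval (Sum.elim X₀ Y₀) p = 0) :
    ∃ P : mw_X N, X₀ (mw_piv x P) ≠ 0 ∧ Y₀ (mw_piv y P) ≠ 0 ∧
      X₀ = X₀ (mw_piv x P) • mw_vec x P ∧ Y₀ = Y₀ (mw_piv y P) • mw_vec y P := by
  obtain ⟨p₀, hp₀⟩ := Function.ne_iff.1 hX
  obtain ⟨q₀, hq₀⟩ := Function.ne_iff.1 hY
  have hXp : X₀ p₀ ≠ 0 := hp₀
  have hYq : Y₀ q₀ ≠ 0 := hq₀
  -- the pivots are nonzero functions
  have hXhom : ∀ i : Fin (r + 1) ⊕ Fin (s + 1),
      mw_IsBihom (X i : MvPolynomial (Fin (r + 1) ⊕ Fin (s + 1)) mw_K)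
        ((Sum.elim (fun _ => 1) (fun _ => 0) : Fin (r + 1) ⊕ Fin (s + 1) → ℕ) i)
        ((Sum.elim (fun _ => 0) (fun _ => 1) : Fin (r + 1) ⊕ Fin (s + 1) → ℕ) i) := fun i =>
    ⟨isWeightedHomogeneous_X mw_K _ i, isWeightedHomogeneous_X mw_K _ i⟩
  have hxp : x p₀ ≠ 0 := by
    intro h0
    have h1 := H (X (Sum.inl p₀)) _ _ (hXhom (Sum.inl p₀)) (by rw [aeval_X]; exact h0)
    rw [eval_X] at h1
    exact hXp h1
  have hyq : y q₀ ≠ 0 := by
    intro h0
    have h1 := H (X (Sum.inr q₀)) _ _ (hXhom (Sum.inr q₀)) (by rw [aeval_X]; exact h0)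
    rw [eval_X] at h1
    exact hYq h1
  -- the `K`-point of `K[x/x_{p₀}, y/y_{q₀}]` and a place centred there
  obtain ⟨P, hP⟩ := mw_var_place_of_point (rt_isSepGen_jBar N)
    (Sum.elim (fun a => x a / x p₀) (fun b => y b / y q₀))
    (Sum.elim (fun a => X₀ a / X₀ p₀) (fun b => Y₀ b / Y₀ q₀))
    (fun G hG => mw_var_ker_le x y X₀ Y₀ p₀ q₀ hxp hyq hXp hYq
      (fun p d e h1 h2 => H p d e ⟨h1, h2⟩) G hG)
  obtain ⟨hx1, hx2⟩ := mw_var_vec_eq x P p₀ hxp (fun a => X₀ a / X₀ p₀) (fun a => hP (Sum.inl a))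
  obtain ⟨hy1, hy2⟩ := mw_var_vec_eq y P q₀ hyq (fun b => Y₀ b / Y₀ q₀) (fun b => hP (Sum.inr b))
  have hXb : X₀ (mw_piv x P) ≠ 0 := fun h => hx1 (by simp [h])
  have hYb : Y₀ (mw_piv y P) ≠ 0 := fun h => hy1 (by simp [h])
  refine ⟨P, hXb, hYb, ?_, ?_⟩
  · funext a
    rw [Pi.smul_apply, smul_eq_mul, hx2 a]
    field_simp
  · funext b
    rw [Pi.smul_apply, smul_eq_mul, hy2 b]
    field_simp

/-- **[VAR]** the bi-projective variety cut out by the bihomogeneous relations between the two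
systems `x`, `y` consists of the points `(x(P), y(P))`. -/
theorem mw_var : mw_SeamVAR N := by
  intro r x _ Pinf _ a s y _ X₀ Y₀ hX hY H
  obtain ⟨P, -, -, h1, h2⟩ := mw_var_main N x y X₀ Y₀ hX hY H
  exact ⟨P, _, _, h1, h2⟩

end Main

end Fermat.Agent.MW
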