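/-
Project MW (S17), core leaf **[SYL]** (architect helper7; helper18): `mw_syl : mw_SeamSYL N` — the
Sylvester resultant `R(c,u) = det (L(k∞+T) ⊕ L(a∞+T) → L((a+k)∞+T), (s₁,s₂) ↦ G_c s₁ + ℓ_u s₂)` of the
complete systems `y = L(a∞)`, `x = L(k∞)`, with its two factorisations (B1), (B2).
`a₀ = k` (the `k` of `mw_IsRef`), `deg T = g - 1`, `l(T) = 0`.  Prefix `mw_syl_`.
-/
import Fermat.Agent.MW.Core.Seams
import Fermat.Agent.MW.Core.SYL.Det
import Fermat.Agent.MW.Core.SYL.Poly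

set_option autoImplicit false
set_option linter.unusedSectionVars false

noncomputable section

namespace Fermat.Agent.MW

open AlgebraicCurve ModularCurve Fermat.Agent.S24 Fermat.Agent.JT3 Fermat.Agent.FF Module
  MvPolynomial
open scoped Classical

variable {N : ℕ} [NeZero N]

theorem mw_syl_eval_lin {σ : Type} [Fintype σ] (v u : σ → mw_K) :
    eval u (mw_lin v) = ∑ b, u b * v b := by
  rw [mw_lin, map_sum]
  exact Finset.sum_congr rfl fun b _ => by rw [map_mul, eval_C, eval_X, mul_comm]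

/-- the data of a complete system on which everything depends -/
theorem mw_syl_system (g k : ℕ) (Pinf : mw_X N)
    (hR : ∀ D : mw_Div N, (k : ℤ) - 2 ≤ Divisor.degree D →
      (Module.finrank mw_K ↥(riemannRochSpace D) : ℤ) = Divisor.degree D + 1 - g)
    (a : ℕ) (ha : k ≤ a) {s : ℕ} (y : Fin (s + 1) → mw_F N)
    (hspan : Submodule.span mw_K (Set.range y) = riemannRochSpace (Finsupp.single Pinf (a : ℤ))) :
    (∀ i, y i ∈ riemannRochSpace (Finsupp.single Pinf (a : ℤ))) ∧ (∃ i, y i ≠ 0) ∧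
      ∀ w : mw_X N, w.ord (y (mw_piv y w)) = -(Finsupp.single Pinf (a : ℤ) : mw_Div N) w := by
  have hbpf : ∀ w : mw_X N, ∃ f : mw_F N, f ∈ riemannRochSpace (Finsupp.single Pinf (a : ℤ)) ∧
      f ≠ 0 ∧ w.ord f = -(Finsupp.single Pinf (a : ℤ) : mw_Div N) w := fun w =>
    mw_syl_bpf g ((k : ℤ) - 2) hR _ (by
      rw [rt_degree_single (rt_isSepGen_jBar N)]
      have : (k : ℤ) ≤ a := by exact_mod_cast ha
      omega) w
  refine ⟨fun i => ?_, (mw_syl_ord_piv hspan (hbpf Pinf)).1, fun w =>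
    (mw_syl_ord_piv hspan (hbpf w)).2⟩
  rw [← hspan]
  exact Submodule.subset_span ⟨i, rfl⟩

/-- one factorisation, in the generic form used for (B1) and (B2) -/
theorem mw_syl_factor {r s a b : ℕ} (A B T D₃ : mw_Div N) (hD₃ : D₃ = A + B + T)
    (hT : riemannRochSpace T = ⊥)
    (hlA : Module.finrank mw_K (riemannRochSpace (A + T)) = a)
    (hlB : Module.finrank mw_K (riemannRochSpace (B + T)) = b)
    (hl3 : Module.finrank mw_K (riemannRochSpace D₃) = b + a)
    (hdegA : Divisor.degree A = a)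
    (y : Fin (s + 1) → mw_F N) (hyli : LinearIndependent mw_K y)
    (hy : ∀ i, y i ∈ riemannRochSpace A)
    (hypiv : ∀ w : mw_X N, w.ord (y (mw_piv y w)) = -A w)
    (ψ : Fin (r + 1) → mw_F N) (hψ : ∀ i, ψ i ∈ riemannRochSpace B) (hψ0 : ∃ i, ψ i ≠ 0)
    (hpiv : ∀ w : mw_X N, w.ord (ψ (mw_piv ψ w)) = -B w)
    (eB : Basis (Fin b) mw_K ↥(riemannRochSpace (B + T)))
    (eA : Basis (Fin a) mw_K ↥(riemannRochSpace (A + T)))
    (e3 : Basis (Fin b ⊕ Fin a) mw_K ↥(riemannRochSpace D₃))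
    (c : Fin (s + 1) → mw_K) (hc : c ≠ 0) (p : MvPolynomial (Fin (r + 1)) mw_K)
    (hp : ∀ u : Fin (r + 1) → mw_K, eval u p = (LinearMap.toMatrix (eB.prod eA) e3
      ((mw_syl_mulBy (mw_sec y c) (riemannRochSpace (B + T)) (riemannRochSpace D₃)).coprod
        (mw_syl_mulBy (mw_sec ψ u) (riemannRochSpace (A + T)) (riemannRochSpace D₃)))).det) :
    ∃ A₀ : mw_K, A₀ ≠ 0 ∧
      p = C A₀ * ∏ᶠ z : mw_X N, mw_lin (mw_vec ψ z) ^ (mw_zeroMult y c z).toNat := by
  have hG0 : mw_sec y c ≠ 0 := mw_v_sec_ne_zero hyli hc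
  have hG : mw_sec y c ∈ riemannRochSpace A := mw_syl_sec_mem hy c
  obtain ⟨z, hz, hdet⟩ := mw_syl_curve A B T D₃ hD₃ hT hlA hlB hl3 hdegA (mw_sec y c) hG hG0 ψ hψ
    hψ0 hpiv
  obtain ⟨A₀, hA₀, hA⟩ := hdet eB eA e3
  refine ⟨A₀, hA₀, ?_⟩
  have hmult : ∀ w : mw_X N, (mw_zeroMult y c w).toNat = mw_syl_mult z w := by
    intro w
    rw [mw_syl_zeroMult ⟨0, hyli.ne_zero 0⟩ (hypiv w) c hG0]
    have := mw_syl_sum_single_apply z w
    rw [hz, Finsupp.add_apply, rt_div_apply] at this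
    rw [this, Int.toNat_natCast]
  rw [← mw_syl_prod_eq_finprod z (fun w => mw_lin (mw_vec ψ w)) _ hmult]
  have : Infinite mw_K := IsAlgClosed.instInfinite
  apply MvPolynomial.funext
  intro u
  rw [hp u, hA u, map_mul, eval_C, map_prod]
  congr 1
  exact Finset.prod_congr rfl fun i _ => by rw [mw_syl_eval_lin, mw_dot]

/-- **[SYL]** -/
theorem mw_syl (N : ℕ) [NeZero N] : mw_SeamSYL N := by
  intro r x hx Pinf hInf
  obtain ⟨-, hxli, Pinf', k, g, hInf', hkg, hR, hxspan⟩ := hx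
  have hP : Pinf' = Pinf := by
    apply Place.ext
    ext f
    rw [hInf' f, hInf f]
  subst hP
  have hxN := rt_isSepGen_jBar N
  refine ⟨k, ?_⟩
  intro a ha s y hy
  obtain ⟨hyli, hyspan⟩ := hy
  have hka : (k : ℤ) ≤ a := by exact_mod_cast ha
  obtain ⟨T, hTdeg, hT⟩ := mw_syl_exists_T g ((k : ℤ) - 2) hR Pinf'
  -- the three spaces
  set Dk : mw_Div N := Finsupp.single Pinf' (k : ℤ) with hDk
  set Da : mw_Div N := Finsupp.single Pinf' (a : ℤ) with hDa
  set D₃ : mw_Div N := Da + Dk + T with hD₃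
  have hdk : Divisor.degree Dk = k := rt_degree_single hxN _ _
  have hda : Divisor.degree Da = a := rt_degree_single hxN _ _
  have hl1 : Module.finrank mw_K (riemannRochSpace (Dk + T)) = k := by
    have := hR (Dk + T) (by rw [map_add, hdk, hTdeg]; omega)
    rw [map_add, hdk, hTdeg] at this
    have h2 : (Module.finrank mw_K (riemannRochSpace (Dk + T)) : ℤ) = k := by rw [this]; ring
    exact_mod_cast h2
  have hl2 : Module.finrank mw_K (riemannRochSpace (Da + T)) = a := by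
    have := hR (Da + T) (by rw [map_add, hda, hTdeg]; omega)
    rw [map_add, hda, hTdeg] at this
    have h2 : (Module.finrank mw_K (riemannRochSpace (Da + T)) : ℤ) = a := by rw [this]; ring
    exact_mod_cast h2
  have hl3 : Module.finrank mw_K (riemannRochSpace D₃) = k + a := by
    have := hR D₃ (by rw [hD₃, map_add, map_add, hdk, hda, hTdeg]; omega)
    rw [hD₃, map_add, map_add, hdk, hda, hTdeg] at this
    have h2 : (Module.finrank mw_K (riemannRochSpace (Da + Dk + T)) : ℤ) = ((k + a : ℕ) : ℤ) := by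
      rw [this]; push_cast; ring
    exact_mod_cast h2
  have hfin1 := rt_L_finite hxN (Dk + T)
  have hfin2 := rt_L_finite hxN (Da + T)
  have hfin3 := rt_L_finite hxN D₃
  let e1 : Basis (Fin k) mw_K ↥(riemannRochSpace (Dk + T)) := Module.finBasisOfFinrankEq _ _ hl1
  let e2 : Basis (Fin a) mw_K ↥(riemannRochSpace (Da + T)) := Module.finBasisOfFinrankEq _ _ hl2
  let e3 : Basis (Fin k ⊕ Fin a) mw_K ↥(riemannRochSpace D₃) :=
    (Module.finBasisOfFinrankEq _ _ hl3).reindex finSumFinEquiv.symm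
  -- the two systems
  obtain ⟨hxm, hx0, hxpiv⟩ := mw_syl_system g k Pinf' hR k le_rfl x hxspan
  obtain ⟨hym, hy0, hypiv⟩ := mw_syl_system g k Pinf' hR a ha y hyspan
  have hmy : ∀ b, ∀ t ∈ riemannRochSpace (Dk + T), y b * t ∈ riemannRochSpace D₃ := by
    intro b t ht
    have := mw_syl_mul_mem (hym b) ht
    rwa [← add_assoc] at this
  have hmx : ∀ b, ∀ t ∈ riemannRochSpace (Da + T), x b * t ∈ riemannRochSpace D₃ := by
    intro b t ht
    have := mw_syl_mul_mem (hxm b) ht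
    have e : Dk + (Da + T) = D₃ := by rw [hD₃]; abel
    rwa [e] at this
  let φ : Fin (s + 1) → ↥(riemannRochSpace (Dk + T)) →ₗ[mw_K] ↥(riemannRochSpace D₃) :=
    fun b => mw_syl_mulBy (y b) _ _
  let χ : Fin (r + 1) → ↥(riemannRochSpace (Da + T)) →ₗ[mw_K] ↥(riemannRochSpace D₃) :=
    fun b => mw_syl_mulBy (x b) _ _
  have hφ : ∀ c : Fin (s + 1) → mw_K, ∑ b, c b • φ b
      = mw_syl_mulBy (mw_sec y c) (riemannRochSpace (Dk + T)) (riemannRochSpace D₃) := fun c =>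
    (mw_syl_mulBy_sum c y hmy).symm
  have hχ : ∀ u : Fin (r + 1) → mw_K, ∑ b, u b • χ b
      = mw_syl_mulBy (mw_sec x u) (riemannRochSpace (Da + T)) (riemannRochSpace D₃) := fun u =>
    (mw_syl_mulBy_sum u x hmx).symm
  refine ⟨mw_syl_res e1 e2 e3 φ χ, k, ⟨?_, ?_⟩, ?_, ?_⟩
  · have := mw_syl_res_homL e1 e2 e3 φ χ
    rwa [Fintype.card_fin] at this
  · have := mw_syl_res_homR e1 e2 e3 φ χ
    rwa [Fintype.card_fin] at this
  · -- (B1)
    intro c hc
    refine mw_syl_factor Da Dk T D₃ hD₃ hT hl2 hl1 hl3 hda y hyli hym hypiv x hxm hx0 hxpiv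
      e1 e2 e3 c hc _ ?_
    intro u
    rw [mw_subL, mw_syl_eval_subL, mw_syl_res_eval, hφ, hχ]
  · -- (B2)
    intro u hu
    refine mw_syl_factor Dk Da T D₃ (by rw [hD₃]; abel) hT hl1 hl2 (by rw [hl3, add_comm]) hdk
      x hxli hxm hxpiv y hym hy0 hypiv e2 e1 (e3.reindex (Equiv.sumComm (Fin k) (Fin a)))
      u hu _ ?_
    intro c
    rw [mw_subR, mw_syl_eval_subR, mw_syl_res_eval, hφ, hχ, mw_syl_det_swap]

end Fermat.Agent.MW
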